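/-
T4E (helper9, architect): **the common definitions of project T4E** (`S36` for all exponents `e ≥ 2`).

Tower of levels `t4eLev N'' q i = N'' q^i` (defined RECURSIVELY, so that `t4eLev N'' q (i + 1)` is
definitionally `t4eLev N'' q i * q` and `heckeAlphaBar`, `heckeBetaBar`, `t2iAlgebra`, `t4nNormA`,
`t4nNormB` apply without casts), fields `F_i = TaF L (t4eLev N'' q i)`, the degeneracy maps
`t4eDeg i k : F_0 → F_i`, `f(𝔮) ↦ f(𝔮^{q^k})` (`k ≤ i`), and the INTERFACE STRUCTURES of the geometry: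

* `T4eCyc O O' π π' q c` : the cyclotomic level `L' = L(ζ_{q^c})` above the unramified DVR level
  `(L, O, π)` (generalises `T4iCyc`, which is `c = 1`);
* `T4eCusp L L' N'' q a b ζ` : the embedding `ι_(a,b) : F_{a+b} → L'((𝔮))` ("`q`-expansion at the cusps
  of the component `(a, b)`", `b ≤ a`; generalises `T4iMid`, which is `(a, b) = (1, 1)`);
* `T4eAL L N'' q i` : the Atkin–Lehner involution `w_{q^i}` of `F_i` (generalises `T2iAL`, `T4iAL`);
* `T4eLayer O π hπ N'' q i` : **the vertical layer of level `i`** — the `i + 1` vertical discrete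
  valuation rings `V a` (`a` Frobenius steps followed by `i - a` Verschiebung steps), completeness,
  uniformisers, multiplicities `φ(q^min(a, i-a))`, residue maps into `k((𝔮))` and the residue table;
* `T4eSym Y W` : the symmetry of a layer under `w_{q^i}`;
* `T4eLink lo up` : the two restriction maps between consecutive layers (along `α` and along `β`)
  with the ramification / inertia data.
-/
import Fermat.Agent.Lib.T4.Inst.Mid

set_option autoImplicit false
set_option linter.unusedSectionVars false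
set_option linter.unusedVariables false
set_option linter.style.haveILetI false

open HahnSeries ModularCurve Fermat.Agent.T1 Fermat.Agent.T2

noncomputable section

namespace Fermat.Agent.T4

/-! ### The tower of levels -/

/-- the level `N'' q^i`, defined recursively: `t4eLev N'' q (i + 1) = t4eLev N'' q i * q` by `rfl` -/
def t4eLev (N'' q : ℕ) : ℕ → ℕ
  | 0 => N''
  | i + 1 => t4eLev N'' q i * q

@[simp] theorem t4eLev_zero (N'' q : ℕ) : t4eLev N'' q 0 = N'' := rfl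

theorem t4eLev_succ (N'' q i : ℕ) : t4eLev N'' q (i + 1) = t4eLev N'' q i * q := rfl

theorem t4eLev_eq (N'' q : ℕ) : ∀ i : ℕ, t4eLev N'' q i = N'' * q ^ i
  | 0 => by rw [t4eLev_zero, pow_zero, mul_one]
  | i + 1 => by rw [t4eLev_succ, t4eLev_eq N'' q i, pow_succ, mul_assoc]

instance t4eLev_neZero (N'' q : ℕ) [NeZero N''] [NeZero q] : ∀ i : ℕ, NeZero (t4eLev N'' q i)
  | 0 => ⟨NeZero.ne N''⟩
  | i + 1 => ⟨Nat.mul_ne_zero (t4eLev_neZero N'' q i).out (NeZero.ne q)⟩

section Tower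

variable (L : Type*) [Field L] [Algebra ℚ L] (N'' q : ℕ) [NeZero N''] [NeZero q]

/-- the degeneracy map `a_k : F_0 → F_i`, `f(𝔮) ↦ f(𝔮^{q^k})` (for `k ≤ i`; junk `a_i` for `k > i`) -/
def t4eDeg : (i k : ℕ) → ↥(TaF L N'') →ₐ[L] ↥(TaF L (t4eLev N'' q i))
  | 0, _ => AlgHom.id L _
  | i + 1, k =>
    if k ≤ i then (heckeAlphaBar L (t4eLev N'' q i) q).comp (t4eDeg i k)
    else (heckeBetaBar L (t4eLev N'' q i) q).comp (t4eDeg i i)

theorem t4eDeg_succ_of_le {i k : ℕ} (hk : k ≤ i) (f : ↥(TaF L N'')) :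
    t4eDeg L N'' q (i + 1) k f = heckeAlphaBar L (t4eLev N'' q i) q (t4eDeg L N'' q i k f) := by
  rw [t4eDeg, if_pos hk]
  rfl

theorem t4eDeg_succ_self (i : ℕ) (f : ↥(TaF L N'')) :
    t4eDeg L N'' q (i + 1) (i + 1) f = heckeBetaBar L (t4eLev N'' q i) q (t4eDeg L N'' q i i f) := by
  rw [t4eDeg, if_neg (by omega)]
  rfl

/-- the `q`-expansion of `a_k f` is `f(𝔮^{q^k})` -/
theorem coe_t4eDeg : ∀ (i k : ℕ), k ≤ i → ∀ f : ↥(TaF L N''),
    ((t4eDeg L N'' q i k f : ↥(TaF L (t4eLev N'' q i))) : LaurentSeries L)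
      = qExpand L (q ^ k) (f : LaurentSeries L)
  | 0, k, hk, f => by
    obtain rfl : k = 0 := by omega
    rw [qExpand_congr (pow_zero q) (f : LaurentSeries L), qExpand_one_apply]
    rfl
  | i + 1, k, hk, f => by
    rcases Nat.lt_or_ge i k with h | h
    · obtain rfl : k = i + 1 := by omega
      rw [t4eDeg_succ_self, coe_heckeBetaBar, coe_t4eDeg i i le_rfl f, qExpand_qExpand]
      exact qExpand_congr (by rw [pow_succ, mul_comm]) _
    · rw [t4eDeg_succ_of_le L N'' q h, coe_heckeAlphaBar, coe_t4eDeg i k h f]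

end Tower


/-! ### The combinatorics of the components -/

/-- the multiplicity `φ(q^min(a, i - a))` of the component `(a, i - a)` in the special fibre -/
def t4eMult (q i a : ℕ) : ℕ := Nat.totient (q ^ min a (i - a))

/-- the residue table: on the component `(a, b)`, `b = i - a`, the reduction of `a_k f` is
`f̄(𝔮^{q^{t4eExp i a k}})`; the exponent is `k + max(b - a, 0)` for `k ≤ a` and `max(2a, i) - k` for
`k ≥ a` -/
def t4eExp (i a k : ℕ) : ℕ := if k ≤ a then k + ((i - a) - a) else max (2 * a) i - k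

/-- the residue extension along `α` is purely inseparable of degree `q ^ t4eShiftA`: `1` iff `b > a` -/
def t4eShiftA (i a : ℕ) : ℕ := if a < (i + 1) - a then 1 else 0

/-- the residue extension along `β` is purely inseparable of degree `q ^ t4eShiftB`: `1` iff `a > b` -/
def t4eShiftB (i a : ℕ) : ℕ := if (i + 1) - a < a then 1 else 0

/-! ### The cyclotomic levels -/

/-- the cyclotomic level data of exponent `c ≥ 1`: `(L', O', π')` above `(L, O, π)`, a primitive
`q^c`-th root of unity `ζ ∈ L'` with `1 - ζ` a uniformiser of `O'`, same residue field, and the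
Galois automorphisms `τ b : ζ ↦ ζ^b` (`T4iCyc` is the case `c = 1`) -/
structure T4eCyc {L L' : Type*} [Field L] [Field L'] [Algebra L L'] (O : ValuationSubring L)
    (O' : ValuationSubring L') {k : Type*} [Field k] (π : ↥O →+* k) (π' : ↥O' →+* k) (q c : ℕ) where
  /-- the root of unity -/
  ζ : L'ˣ
  ζ_pow : ζ ^ (q ^ c) = 1
  ζ_prim : ∀ j < c, ζ ^ (q ^ j) ≠ 1
  map_mem : ∀ a : ↥O, algebraMap L L' (a : L) ∈ O'
  π_map : ∀ a : ↥O, π' ⟨algebraMap L L' (a : L), map_mem a⟩ = π a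
  /-- the uniformiser `λ = 1 - ζ` -/
  lam : ↥O'
  lam_eq : ((lam : ↥O') : L') = 1 - (ζ : L')
  unif : Irreducible lam
  /-- the Galois automorphisms `ζ ↦ ζ^b` (used for `b` prime to `q`) -/
  τ : ℕ → (L' ≃ₐ[L] L')
  τ_ζ : ∀ b : ℕ, ¬ q ∣ b → τ b (ζ : L') = (ζ : L') ^ b
  τ_mem : ∀ (b : ℕ) (x : L'), x ∈ O' → τ b x ∈ O'
  π_τ : ∀ (b : ℕ) (x : ↥O'), π' ⟨τ b (x : L'), τ_mem b _ x.2⟩ = π' x

/-! ### The cusp embeddings -/

/-- the embedding `ι_(a,b) : F_{a+b} → L'((𝔮))` ("`q`-expansion at the cusps of the component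
`(a, b)`", used for `1 ≤ b ≤ a`), `ζ` a primitive `q^b`-th root of unity:
`a_k f ↦ f(𝔮^{q^k})` for `k ≤ a`, `a_{a+j} f ↦ f(ζ_j 𝔮^{q^{a-j}})` for `1 ≤ j ≤ b`, `ζ_j = ζ^{q^{b-j}}`
(`T4iMid` is the case `(a, b) = (1, 1)`) -/
structure T4eCusp (L L' : Type*) [Field L] [Algebra ℚ L] [Field L'] [Algebra L L'] (N'' q : ℕ)
    [NeZero N''] [NeZero q] (a b : ℕ) (ζ : L'ˣ) where
  /-- the embedding -/
  ι : ↥(TaF L (t4eLev N'' q (a + b))) →+* LaurentSeries L'
  ι_low : ∀ k ≤ a, ∀ f : ↥(TaF L N''),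
    ι (t4eDeg L N'' q (a + b) k f)
      = coeffMap (algebraMap L L') (qExpand L (q ^ k) (f : LaurentSeries L))
  ι_high : ∀ j : ℕ, 1 ≤ j → j ≤ b → ∀ f : ↥(TaF L N''),
    ι (t4eDeg L N'' q (a + b) (a + j) f)
      = qExpand L' (q ^ (a - j)) (t4vSig (ζ ^ (q ^ (b - j)))
          (coeffMap (algebraMap L L') (f : LaurentSeries L)))

/-! ### The Atkin–Lehner involution -/

/-- the Atkin–Lehner involution `w_{q^i}` of `F_i`: `w (a_k f) = a_{i-k} f` -/
structure T4eAL (L : Type*) [Field L] [Algebra ℚ L] (N'' q : ℕ) [NeZero N''] [NeZero q] (i : ℕ) where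
  /-- the involution -/
  w : ↥(TaF L (t4eLev N'' q i)) ≃ₐ[L] ↥(TaF L (t4eLev N'' q i))
  w_a : ∀ k ≤ i, ∀ f : ↥(TaF L N''), w (t4eDeg L N'' q i k f) = t4eDeg L N'' q i (i - k) f
  w_w : ∀ f : ↥(TaF L (t4eLev N'' q i)), w (w f) = f

/-! ### The vertical layer -/

section Layer

variable {L : Type} [Field L] [Algebra ℚ L] (O : ValuationSubring L) {k : Type*} [Field k]
  (π : ↥O →+* k) [IsDiscreteValuationRing ↥O] (hπ : Function.Surjective π)
  (N'' q : ℕ) [NeZero N''] [NeZero q]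

/-- **the vertical layer of level `i`**: the `i + 1` vertical discrete valuation rings `V w`, `w ≤ i`,
of `F_i = F_{N'' q^i, L}` over the Gauss valuation ring of `F_0` (unramified DVR level `(L, O, π)`);
`V w` is the component `(a, b) = (w, i - w)` (`a` Frobenius steps followed by `b` Verschiebung steps):
`V i` is the component `∞` (the Gauss valuation ring `taOv` of level `i`), `V 0` the component `0`.
Labels are plain natural numbers with bounds (convention of helper4/helper5); values of the fields at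
`w > i` are junk. -/
structure T4eLayer (i : ℕ) where
  /-- the vertical valuation rings -/
  V : ℕ → ValuationSubring ↥(TaF L (t4eLev N'' q i))
  dvr : ∀ w ≤ i, IsDiscreteValuationRing ↥(V w)
  inj : ∀ w ≤ i, ∀ w' ≤ i, V w = V w' → w = w'
  /-- the component `∞` is the Gauss valuation ring of the `q`-expansion at `∞` -/
  V_top : V i = taOv O π hπ (t4eLev N'' q i)
  /-- `V w` lies over the Gauss valuation ring of level `0` along EVERY degeneracy map `a_n` -/
  lies_over : ∀ w ≤ i, ∀ n ≤ i, (V w).comap (t4eDeg L N'' q i n).toRingHom = taOv O π hπ N''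
  /-- completeness: these are all the valuation rings of `F_i` over the Gauss valuation ring of `F_0`
  along `a_0` -/
  complete : ∀ W : ValuationSubring ↥(TaF L (t4eLev N'' q i)),
    W.comap (t4eDeg L N'' q i 0).toRingHom = taOv O π hπ N'' → ∃ w ≤ i, W = V w
  /-- completeness along `a_i` -/
  complete_top : ∀ W : ValuationSubring ↥(TaF L (t4eLev N'' q i)),
    W.comap (t4eDeg L N'' q i i).toRingHom = taOv O π hπ N'' → ∃ w ≤ i, W = V w
  const_mem : ∀ w ≤ i, ∀ c : ↥O, algebraMap L ↥(TaF L (t4eLev N'' q i)) (c : L) ∈ V w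
  /-- the uniformisers (`ϖ_(a,b) = a_{a+c} j - a_{a-c} j`, `c = min(a, b)`; `q` if `c = 0`) -/
  ϖ : ℕ → ↥(TaF L (t4eLev N'' q i))
  ϖ_lt : ∀ w ≤ i, (V w).valuation (ϖ w) < 1
  ϖ_unif : ∀ w ≤ i, ∀ f : ↥(TaF L (t4eLev N'' q i)), f ≠ 0 →
    ∃ (n : ℤ) (u : ↥(TaF L (t4eLev N'' q i))), (V w).valuation u = 1 ∧ f = ϖ w ^ n * u
  /-- the multiplicity of the component: `q = ϖ ^ φ(q^min(a,b)) · unit` -/
  q_eq : ∀ w ≤ i, ∃ u : ↥(TaF L (t4eLev N'' q i)), (V w).valuation u = 1 ∧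
    ((q : ℕ) : ↥(TaF L (t4eLev N'' q i))) = ϖ w ^ t4eMult q i w * u
  /-- the reductions, with values in `k((𝔮))` -/
  ρ : ∀ w : ℕ, ↥(V w) →+* LaurentSeries k
  ρ_eq_zero : ∀ w ≤ i, ∀ x : ↥(V w),
    ρ w x = 0 ↔ (V w).valuation ((x : ↥(V w)) : ↥(TaF L (t4eLev N'' q i))) < 1
  ρ_const : ∀ w (hw : w ≤ i) (c : ↥O), ρ w ⟨_, const_mem w hw c⟩ = HahnSeries.C (π c)
  a_mem : ∀ w ≤ i, ∀ n ≤ i, ∀ f : ↥(TaF L N''), f ∈ taOv O π hπ N'' →
    t4eDeg L N'' q i n f ∈ V w
  /-- the residue table: `ρ_w (a_n f) = f̄(𝔮^{q^{t4eExp i w n}})` -/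
  ρ_a : ∀ w (hw : w ≤ i) (n : ℕ) (hn : n ≤ i) (f : ↥(TaF L N'')) (hf : f ∈ taOv O π hπ N''),
    ρ w ⟨_, a_mem w hw n hn f hf⟩
      = qExpand k (q ^ t4eExp i w n) (taResN O π hπ N'' ⟨f, hf⟩)
  /-- all residue fields are the residue function field of level `N''` -/
  ρ_range : ∀ w ≤ i, ∀ x : ↥(V w), ∃ g : ↥(taOv O π hπ N''), ρ w x = taResN O π hπ N'' g

variable {O π hπ N'' q}

/-- the semilocal ring `𝒪_i` of the layer: the intersection of the `V w`, `w ≤ i` -/
def T4eLayer.Ov {i : ℕ} (Y : T4eLayer O π hπ N'' q i) : Subring ↥(TaF L (t4eLev N'' q i)) where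
  carrier := {f | ∀ w ≤ i, f ∈ Y.V w}
  mul_mem' := fun hf hg w hw => (Y.V w).mul_mem _ _ (hf w hw) (hg w hw)
  one_mem' := fun w _ => (Y.V w).one_mem
  add_mem' := fun hf hg w hw => (Y.V w).add_mem _ _ (hf w hw) (hg w hw)
  zero_mem' := fun w _ => (Y.V w).zero_mem
  neg_mem' := fun hf w hw => (Y.V w).neg_mem _ (hf w hw)

/-- **the symmetry of a layer under the Atkin–Lehner involution** `w_{q^i}`: it exchanges the
components `(a, b)` and `(b, a)`, compatibly with the reductions -/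
structure T4eSym {i : ℕ} (Y : T4eLayer O π hπ N'' q i) (W : T4eAL L N'' q i) : Prop where
  comap_w : ∀ w ≤ i, (Y.V w).comap
    (W.w : ↥(TaF L (t4eLev N'' q i)) →+* ↥(TaF L (t4eLev N'' q i))) = Y.V (i - w)
  ρ_w : ∀ w ≤ i, ∀ (x : ↥(TaF L (t4eLev N'' q i))) (hx : x ∈ Y.V (i - w)) (hx' : W.w x ∈ Y.V w),
    Y.ρ w ⟨_, hx'⟩ = Y.ρ (i - w) ⟨x, hx⟩

/-- **the link between consecutive layers**: restrictions of the valuation rings along `α`
(`w ↦ min w i`) and along `β` (`w ↦ w - 1`), and the residue extensions (purely inseparable of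
degree `q ^ shift`; the ramification index is the quotient of the multiplicities `t4eMult`) -/
structure T4eLink {i : ℕ} (lo : T4eLayer O π hπ N'' q i) (up : T4eLayer O π hπ N'' q (i + 1)) :
    Prop where
  comap_α : ∀ w ≤ i + 1,
    (up.V w).comap (heckeAlphaBar L (t4eLev N'' q i) q).toRingHom = lo.V (min w i)
  comap_β : ∀ w ≤ i + 1,
    (up.V w).comap (heckeBetaBar L (t4eLev N'' q i) q).toRingHom = lo.V (w - 1)
  ρ_α : ∀ w ≤ i + 1, ∀ (x : ↥(TaF L (t4eLev N'' q i))) (hx : x ∈ lo.V (min w i))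
    (hx' : heckeAlphaBar L (t4eLev N'' q i) q x ∈ up.V w),
    up.ρ w ⟨_, hx'⟩ = qExpand k (q ^ t4eShiftA i w) (lo.ρ (min w i) ⟨x, hx⟩)
  ρ_β : ∀ w ≤ i + 1, ∀ (x : ↥(TaF L (t4eLev N'' q i))) (hx : x ∈ lo.V (w - 1))
    (hx' : heckeBetaBar L (t4eLev N'' q i) q x ∈ up.V w),
    up.ρ w ⟨_, hx'⟩ = qExpand k (q ^ t4eShiftB i w) (lo.ρ (w - 1) ⟨x, hx⟩)
  /-- `[F_{i+1} : F_i] = q` for `i ≥ 1` (`hdeg` of the product formula `T4nProdB`) -/
  deg : 1 ≤ i → @Module.finrank ↥(TaF L (t4eLev N'' q i)) ↥(TaF L (t4eLev N'' q (i + 1))) _ _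
    (heckeAlphaBar L (t4eLev N'' q i) q).toRingHom.toAlgebra.toModule = q

end Layer

end Fermat.Agent.T4
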