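/-
T4E (helper1), package P4 TOWER: **the base `T2Base` of a semilocal ring integral over a one-valuation
base** (abstract part; no modular curves).

* `t4eb_cart`: **(Cart) goes up along a finite separable extension**: `d0 : T2Base L F0 k Fb0` whose
  Gauss ring is a valuation subring `R₀` of `F0`, `F / F0` finite separable, `Ov ⊆ F` a subring
  containing the constants of `A` all of whose elements are integral over `R₀`.  Then the unit ball
  `W ∩ Ov` of every finite-dimensional `L`-subspace `W ⊆ F` is a finitely generated `A`-module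
  (trace-dual basis `integralClosure_le_span_dualBasis` + (Cart) of `d0` + `A` noetherian).  No
  Kronecker decomposition is needed.
* `T4ebInput`: the data `(A, resA, Ov, p, normalize, arch, cart)`; `T4ebInput.base :
  T2Base L F k (↥Ov ⧸ (p))` with `base_A`, `base_resA`, `base_Ov`, `base_res`, `base_res_eq_zero_iff`.
-/
import Fermat.Agent.Lib.T2.Core.Base

set_option autoImplicit false
set_option linter.unusedSectionVars false
set_option linter.unusedVariables false
set_option linter.style.haveILetI false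

open Fermat.Agent.T2

noncomputable section

namespace Fermat.Agent.T4

/-! ### (Cart) along a finite separable extension -/

section Cart

variable {L F0 F k Fb0 : Type*} [Field L] [Field F0] [Field F] [Algebra L F0] [Algebra L F]
  [Algebra F0 F] [IsScalarTower L F0 F] [FiniteDimensional F0 F] [Algebra.IsSeparable F0 F]
  [Field k] [CommRing Fb0] [Algebra k Fb0]

/-- **(Cart) goes up**: the unit balls of `Ov ⊆ F`, integral over the Gauss ring `R₀` of the base `d0`
of `F0`, are finitely generated over `A` -/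
theorem t4eb_cart (d0 : T2Base L F0 k Fb0) [IsNoetherianRing ↥d0.A] (R₀ : ValuationSubring F0)
    (hR₀ : d0.Ov = R₀.toSubring) (Ov : Subring F)
    (hA : ∀ a : ↥d0.A, algebraMap L F (a : L) ∈ Ov)
    (hint : ∀ f ∈ Ov, IsIntegral ↥R₀ f) (W : Submodule L F) (hW : FiniteDimensional L ↥W) :
    ∃ S : Finset F, (∀ s ∈ S, s ∈ W ∧ s ∈ Ov) ∧
      ∀ f ∈ W, f ∈ Ov → ∃ c : F → ↥d0.A, f = ∑ s ∈ S, ((c s : ↥d0.A) : L) • s := by
  classical
  haveI := hW
  -- a basis of integral elements and its trace dual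
  obtain ⟨s, b, hb_int⟩ := FiniteDimensional.exists_is_basis_integral ↥R₀ F0 F
  set b' := (Algebra.traceForm F0 F).dualBasis (traceForm_nondegenerate F0 F) b with hb'
  have hspan := integralClosure_le_span_dualBasis (A := ↥R₀) (K := F0) (L := F) b hb_int
  -- the coordinates of an element of `Ov` lie in `R₀`
  have hcoord : ∀ f ∈ Ov, ∀ i, b'.repr f i ∈ R₀ := by
    intro f hf i
    have h1 : f ∈ Submodule.span ↥R₀ (Set.range b') := hspan (hint f hf)
    obtain ⟨r, hr⟩ := (Submodule.mem_span_range_iff_exists_fun ↥R₀).mp h1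
    have h2 : f = ∑ j, ((r j : ↥R₀) : F0) • b' j := by
      rw [← hr]
      refine Finset.sum_congr rfl fun j _ => ?_
      rfl
    rw [h2, map_sum, Finset.sum_apply']
    simp only [map_smul, Module.Basis.repr_self, Finsupp.smul_single, smul_eq_mul, mul_one]
    rw [Finset.sum_eq_single i]
    · rw [Finsupp.single_eq_same]
      exact (r i).2
    · intro j _ hji
      rw [Finsupp.single_eq_of_ne hji.symm]
    · intro h
      exact absurd (Finset.mem_univ i) h
  -- the `L`-linear coordinate maps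
  let c : s → F →ₗ[L] F0 := fun i => (b'.coord i).restrictScalars L
  set W' : Submodule L F0 := ⨆ i : s, W.map (c i) with hW'
  haveI : FiniteDimensional L ↥W' := by
    rw [hW']
    exact Submodule.finiteDimensional_iSup _
  have hfg := d0.ball_fg W'
  -- the `A`-linear map `(g_i) ↦ ∑ g_i • b' i`
  let T : (s → F0) →ₗ[↥d0.A] F :=
    { toFun := fun g => ∑ i, g i • b' i
      map_add' := fun g g' => by
        rw [← Finset.sum_add_distrib]
        refine Finset.sum_congr rfl fun i _ => ?_
        rw [Pi.add_apply, add_smul]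
      map_smul' := fun a g => by
        rw [RingHom.id_apply, Finset.smul_sum]
        refine Finset.sum_congr rfl fun i _ => ?_
        rw [Pi.smul_apply]
        show ((a : L) • g i) • b' i = (a : L) • (g i • b' i)
        rw [smul_assoc] }
  set N : Submodule ↥d0.A F :=
    (Submodule.pi Set.univ (fun _ : s => d0.ball W')).map T with hN
  have hNfg : N.FG := (Submodule.fg_pi (fun _ => hfg)).map T
  set B : Submodule ↥d0.A F :=
    { carrier := {f | f ∈ W ∧ f ∈ Ov}
      zero_mem' := ⟨W.zero_mem, Ov.zero_mem⟩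
      add_mem' := fun h1 h2 => ⟨W.add_mem h1.1 h2.1, Ov.add_mem h1.2 h2.2⟩
      smul_mem' := fun a f hf => ⟨W.smul_mem (a : L) hf.1, by
        show ((a : ↥d0.A) : L) • f ∈ Ov
        rw [Algebra.smul_def]
        exact Ov.mul_mem (hA a) hf.2⟩ } with hB
  have hBN : B ≤ N := by
    rintro f ⟨hfW, hfO⟩
    refine ⟨fun i => b'.repr f i, ?_, ?_⟩
    · intro i _
      refine ⟨?_, ?_⟩
      · rw [hW']
        refine Submodule.mem_iSup_of_mem i ?_
        exact ⟨f, hfW, rfl⟩
      · rw [hR₀]
        exact hcoord f hfO i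
    · show ∑ i, b'.repr f i • b' i = f
      exact b'.sum_repr f
  haveI : IsNoetherian ↥d0.A ↥N := isNoetherian_of_fg_of_noetherian N hNfg
  have hBfg : B.FG := by
    have h1 : IsNoetherian ↥d0.A ↥B := isNoetherian_of_le hBN
    exact (Submodule.fg_top B).mp (IsNoetherian.noetherian ⊤)
  obtain ⟨S, hS⟩ := hBfg
  refine ⟨S, fun s hs => ?_, fun f hfW hfO => ?_⟩
  · have : s ∈ B := hS ▸ Submodule.subset_span hs
    exact this
  · have hfB : f ∈ Submodule.span ↥d0.A (S : Set F) := hS ▸ (⟨hfW, hfO⟩ : f ∈ B)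
    obtain ⟨c, -, hc⟩ := (Submodule.mem_span_finset (R := ↥d0.A)).mp hfB
    exact ⟨c, hc.symm⟩

end Cart

/-! ### The base with residue ring `Ov ⧸ (p)` -/

/-- the data of a base whose residue ring is `Ov ⧸ (p)`, `p` a generator of the kernel of the residue
map of the base valuation ring `A` -/
structure T4ebInput (L F k : Type*) [Field L] [Field F] [Algebra L F] [Field k] where
  /-- the valuation ring of the base field -/
  A : ValuationSubring L
  /-- the residue map of the base -/
  resA : ↥A →+* k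
  resA_surj : Function.Surjective resA
  /-- the semilocal ring -/
  Ov : Subring F
  algebraMap_mem : ∀ a : ↥A, algebraMap L F (a : L) ∈ Ov
  /-- the uniformiser of the base -/
  p : ↥A
  hp : ∀ a : ↥A, resA a = 0 → p ∣ a
  normalize : ∀ f : F, f ≠ 0 → ∃ c : L, c ≠ 0 ∧ ∃ h : c • f ∈ Ov,
    ¬ ∃ g : ↥Ov, c • f = algebraMap L F (p : L) * (g : F)
  arch : ∀ a : ↥A, a ∈ IsLocalRing.maximalIdeal ↥A → ∀ c : ↥A, c ≠ 0 → ∃ n : ℕ, c ∣ a ^ n
  cart : ∀ W : Submodule L F, FiniteDimensional L ↥W →
    ∃ S : Finset F, (∀ s ∈ S, s ∈ W ∧ s ∈ Ov) ∧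
      ∀ f ∈ W, f ∈ Ov → ∃ c : F → ↥A, f = ∑ s ∈ S, ((c s : ↥A) : L) • s

namespace T4ebInput

variable {L F k : Type*} [Field L] [Field F] [Algebra L F] [Field k] (I : T4ebInput L F k)

/-- `A → Ov` -/
def toOv : ↥I.A →+* ↥I.Ov :=
  ((algebraMap L F).comp I.A.subtype).codRestrict I.Ov I.algebraMap_mem

theorem coe_toOv (a : ↥I.A) : ((I.toOv a : ↥I.Ov) : F) = algebraMap L F (a : L) := rfl

/-- the uniformiser as an element of `Ov` -/
def pO : ↥I.Ov := I.toOv I.p

theorem coe_pO : ((I.pO : ↥I.Ov) : F) = algebraMap L F (I.p : L) := rfl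

/-- the ideal `(p)` of `Ov` -/
def pIdeal : Ideal ↥I.Ov := Ideal.span {I.pO}

theorem mem_pIdeal_iff (f : ↥I.Ov) :
    f ∈ I.pIdeal ↔ ∃ g : ↥I.Ov, (f : F) = algebraMap L F (I.p : L) * (g : F) := by
  rw [pIdeal, Ideal.mem_span_singleton]
  constructor
  · rintro ⟨g, rfl⟩
    exact ⟨g, rfl⟩
  · rintro ⟨g, hg⟩
    exact ⟨g, Subtype.ext hg⟩

/-- the residue ring -/
abbrev Fb : Type _ := ↥I.Ov ⧸ I.pIdeal

/-- the residue map -/
def res : ↥I.Ov →+* I.Fb := Ideal.Quotient.mk I.pIdeal

theorem res_eq_zero_iff (f : ↥I.Ov) : I.res f = 0 ↔ f ∈ I.pIdeal :=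
  Ideal.Quotient.eq_zero_iff_mem

theorem toOv_mem_pIdeal (a : ↥I.A) (ha : I.resA a = 0) : I.toOv a ∈ I.pIdeal := by
  obtain ⟨a', rfl⟩ := I.hp a ha
  rw [map_mul]
  exact Ideal.mul_mem_right _ _ (Ideal.subset_span rfl)

/-- the structure map `k → Ov ⧸ (p)` -/
def κ : k →+* I.Fb :=
  (Ideal.Quotient.lift (RingHom.ker I.resA) (I.res.comp I.toOv) (fun a ha => by
    rw [RingHom.comp_apply, I.res_eq_zero_iff]
    exact I.toOv_mem_pIdeal a ((RingHom.mem_ker).mp ha))).comp
    (RingHom.quotientKerEquivOfSurjective I.resA_surj).symm.toRingHom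

theorem κ_resA (a : ↥I.A) : I.κ (I.resA a) = I.res (I.toOv a) := by
  unfold κ
  rw [RingHom.comp_apply]
  have h1 : (RingHom.quotientKerEquivOfSurjective I.resA_surj).symm.toRingHom (I.resA a)
      = Ideal.Quotient.mk (RingHom.ker I.resA) a := by
    show (RingHom.quotientKerEquivOfSurjective I.resA_surj).symm (I.resA a) = _
    rw [RingEquiv.symm_apply_eq]
    rfl
  rw [h1, Ideal.Quotient.lift_mk]
  rfl

instance instAlgebraFb : Algebra k I.Fb := I.κ.toAlgebra

theorem algebraMap_Fb (c : k) : algebraMap k I.Fb c = I.κ c := rfl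

/-- **the base** -/
def base : T2Base L F k I.Fb where
  A := I.A
  resA := I.resA
  resA_surj := I.resA_surj
  Ov := I.Ov
  res := I.res
  algebraMap_mem := I.algebraMap_mem
  res_algebraMap := fun a => by
    rw [I.algebraMap_Fb, I.κ_resA]
    rfl
  normalize := fun f hf0 => by
    obtain ⟨c, hc0, h, hnot⟩ := I.normalize f hf0
    refine ⟨c, hc0, h, fun h0 => hnot ?_⟩
    exact (I.mem_pIdeal_iff ⟨c • f, h⟩).mp ((I.res_eq_zero_iff _).mp h0)
  arch := I.arch
  cart := I.cart

theorem base_A : I.base.A = I.A := rfl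

theorem base_resA : I.base.resA = I.resA := rfl

theorem base_Ov : I.base.Ov = I.Ov := rfl

theorem base_res (f : ↥I.Ov) : I.base.res f = I.res f := rfl

/-- the kernel of the residue map of the base is `p · Ov` -/
theorem base_res_eq_zero_iff (f : ↥I.Ov) :
    I.base.res f = 0 ↔ ∃ g : ↥I.Ov, (f : F) = algebraMap L F (I.p : L) * (g : F) := by
  rw [base_res, res_eq_zero_iff, mem_pIdeal_iff]

theorem base_res_surjective : Function.Surjective I.base.res := by
  intro t
  obtain ⟨f, hf⟩ := Ideal.Quotient.mk_surjective (I := I.pIdeal) t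
  exact ⟨f, hf⟩

end T4ebInput

end Fermat.Agent.T4
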