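/-
T4E (helper1), package P4 TOWER: **the base `T2Base L F_i k (𝒪_i ⧸ (q))` of a layer**, at EVERY level `i`
(generic unramified DVR level `(L, O, π, k)`, abstract layer `Y : T4eLayer O π hπ N'' q i`).

No Kronecker decomposition, no tower: `𝒪_i = Y.Ov` is integral over `a_0 (taOv N'')` (helper2's
`t4ec_isIntegralElem_a0`, from the completeness of the layer), so (Cart) goes up from the base
`t2iBase O π hπ N'' hN''` of good reduction (`t4eb_cart`, `Tower/Base.lean`); `normalize` comes from the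
uniformisers and multiplicities of the layer.

* `t4ebAlg`, `t4eb_isScalarTower`, `t4eb_finiteDimensional`, `t4eb_isSeparable`: `F_i / a_0 (F_0)`;
* `t4eb_isIntegral`: `f ∈ Y.Ov → IsIntegral ↥(taOv O π hπ N'') f`;
* `t4eb_normalize`: every `f ≠ 0` can be scaled by a power of `q` into `𝒪_i ∖ q 𝒪_i`;
* **`t4ebInput Y hqO hN'' : T4ebInput L F_i k`**, **`t4ebBase Y hqO hN'' : T2Base L F_i k _`** with
  `t4ebBase_A : … .A = O`, `t4ebBase_resA : … .resA = π`, `t4ebBase_Ov : … .Ov = Y.Ov` (all `rfl`),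
  `t4ebBase_res_eq_zero_iff : res f = 0 ↔ ∃ g ∈ 𝒪_i, f = q · g`, `t4ebBase_res_surjective`.
-/
import Fermat.Agent.Lib.T4E.Tower.Base
import Fermat.Agent.Lib.T4E.Chart.Int
import Fermat.Agent.Lib.T2.Inst.BaseH

set_option autoImplicit false
set_option linter.unusedSectionVars false
set_option linter.unusedVariables false
set_option linter.style.haveILetI false

open HahnSeries ModularCurve Fermat.Agent.T1 Fermat.Agent.T2 IntermediateField

noncomputable section

namespace Fermat.Agent.T4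

/-! ### Valuations of `ϖ ^ n · unit` -/

theorem t4eb_valuation_zpow_le_one {F : Type*} [Field F] (V : ValuationSubring F) {ϖ u : F}
    (hϖ0 : ϖ ≠ 0) (hϖ : V.valuation ϖ < 1) (hu : V.valuation u = 1) (n : ℤ) :
    ϖ ^ n * u ∈ V ↔ 0 ≤ n := by
  rw [← V.valuation_le_one_iff, map_mul, map_zpow₀, hu, mul_one]
  exact zpow_le_one_iff_right_of_lt_one₀
    (zero_lt_iff.mpr ((Valuation.ne_zero_iff _).mpr hϖ0)) hϖ

section Layer

variable {L : Type} [Field L] [Algebra ℚ L] {O : ValuationSubring L} {k : Type*} [Field k]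
  {π : ↥O →+* k} [IsDiscreteValuationRing ↥O] {hπ : Function.Surjective π} [IsAlgClosed k]
  {N'' q : ℕ} [NeZero N''] [hq : Fact q.Prime] [CharP k q] {i : ℕ}
  (Y : T4eLayer O π hπ N'' q i) (hqO : Irreducible ((q : ℕ) : ↥O)) (hN'' : (N'' : k) ≠ 0)

/-! ### The extension `F_i / a_0 (F_0)` -/

/-- `F_i` as an algebra over `F_0` along `a_0` -/
@[reducible] def t4ebAlg (L : Type) [Field L] [Algebra ℚ L] (N'' q : ℕ) [NeZero N''] [NeZero q]
    (i : ℕ) : Algebra ↥(TaF L N'') ↥(TaF L (t4eLev N'' q i)) :=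
  (t4eDeg L N'' q i 0).toRingHom.toAlgebra

theorem t4eb_isScalarTower :
    letI := t4ebAlg L N'' q i
    IsScalarTower L ↥(TaF L N'') ↥(TaF L (t4eLev N'' q i)) := by
  letI := t4ebAlg L N'' q i
  refine IsScalarTower.of_algebraMap_eq fun c => ?_
  exact ((t4eDeg L N'' q i 0).commutes c).symm

theorem t4eb_finiteDimensional :
    letI := t4ebAlg L N'' q i
    FiniteDimensional ↥(TaF L N'') ↥(TaF L (t4eLev N'' q i)) := by
  letI := t4ebAlg L N'' q i
  haveI := t4eb_isScalarTower (L := L) (N'' := N'') (q := q) (i := i)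
  -- `F_i` is finite over `L(j_i)`, and `L(j_i)` lies in the image of `F_0`
  set K₂ : IntermediateField L ↥(TaF L (t4eLev N'' q i)) := (t4eDeg L N'' q i 0).fieldRange
    with hK₂
  have hle : L⟮taJ (L := L) (t4eLev N'' q i)⟯ ≤ K₂ := by
    rw [IntermediateField.adjoin_le_iff]
    rintro x hx
    rw [Set.mem_singleton_iff] at hx
    rw [hx]
    exact ⟨taJ N'', t4eDeg_zero_taJ⟩
  -- a finite spanning set over `L(j_i)` spans over `F_0`
  obtain ⟨S, hS⟩ := (Module.finite_def.mp (ta_finiteDimensional (L := L) (N := t4eLev N'' q i)))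
  refine Module.finite_def.mpr ⟨S, ?_⟩
  rw [eq_top_iff]
  intro x _
  have hx : x ∈ Submodule.span ↥(L⟮taJ (L := L) (t4eLev N'' q i)⟯)
      (S : Set ↥(TaF L (t4eLev N'' q i))) := by
    rw [hS]
    exact Submodule.mem_top
  refine Submodule.span_induction (p := fun x _ => x ∈ Submodule.span ↥(TaF L N'')
    (S : Set ↥(TaF L (t4eLev N'' q i)))) ?_ ?_ ?_ ?_ hx
  · intro y hy
    exact Submodule.subset_span hy
  · exact Submodule.zero_mem _
  · intro y z _ _ hy hz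
    exact Submodule.add_mem _ hy hz
  · intro a y _ hy
    obtain ⟨g, hg⟩ := hle a.2
    have h1 : a • y = g • y := by
      show (a : ↥(TaF L (t4eLev N'' q i))) * y = t4eDeg L N'' q i 0 g * y
      rw [← hg]
      rfl
    rw [h1]
    exact Submodule.smul_mem _ g hy

theorem t4eb_charZero : CharZero ↥(TaF L N'') := by
  haveI : CharZero L := algebraRat.charZero L
  exact charZero_of_injective_algebraMap (algebraMap L ↥(TaF L N'')).injective

theorem t4eb_isSeparable :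
    letI := t4ebAlg L N'' q i
    Algebra.IsSeparable ↥(TaF L N'') ↥(TaF L (t4eLev N'' q i)) := by
  letI := t4ebAlg L N'' q i
  haveI := t4eb_finiteDimensional (L := L) (N'' := N'') (q := q) (i := i)
  haveI := t4eb_charZero (L := L) (N'' := N'')
  infer_instance

include hqO in
/-- **`𝒪_i` is integral over the Gauss valuation ring of level `N''`** -/
theorem t4eb_isIntegral {f : ↥(TaF L (t4eLev N'' q i))} (hf : f ∈ Y.Ov) :
    letI := t4ebAlg L N'' q i
    IsIntegral ↥(taOv O π hπ N'') f := by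
  letI := t4ebAlg L N'' q i
  obtain ⟨p, hp, hpf⟩ := t4ec_isIntegralElem_a0 Y hqO hf
  exact ⟨p, hp, hpf⟩

/-! ### `normalize` -/

theorem t4eb_q_ne_zero : ((q : ℕ) : ↥(TaF L (t4eLev N'' q i))) ≠ 0 := by
  haveI : CharZero L := algebraRat.charZero L
  haveI : CharZero ↥(TaF L (t4eLev N'' q i)) :=
    charZero_of_injective_algebraMap (algebraMap L ↥(TaF L (t4eLev N'' q i))).injective
  exact_mod_cast hq.out.ne_zero

theorem t4eb_mult_pos (w : ℕ) : 0 < t4eMult q i w := by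
  unfold t4eMult
  exact Nat.totient_pos.mpr (pow_pos hq.out.pos _)

theorem t4eb_unif_ne_zero {w : ℕ} (hw : w ≤ i) : Y.ϖ w ≠ 0 := by
  intro h0
  obtain ⟨u, hu, e⟩ := Y.q_eq w hw
  rw [h0, zero_pow (t4eb_mult_pos (q := q) (i := i) w).ne', zero_mul] at e
  exact t4eb_q_ne_zero e

/-- the decomposition of `q ^ m · f` at the component `w` -/
theorem t4eb_zpow_mul {w : ℕ} (hw : w ≤ i) {f : ↥(TaF L (t4eLev N'' q i))} {n : ℤ}
    {u : ↥(TaF L (t4eLev N'' q i))} (hu : (Y.V w).valuation u = 1) (e : f = Y.ϖ w ^ n * u) (m : ℤ) :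
    ((q : ℕ) : ↥(TaF L (t4eLev N'' q i))) ^ m * f ∈ Y.V w ↔ 0 ≤ m * (t4eMult q i w : ℤ) + n := by
  obtain ⟨u', hu', e'⟩ := Y.q_eq w hw
  have hϖ0 := t4eb_unif_ne_zero Y hw
  have h1 : ((q : ℕ) : ↥(TaF L (t4eLev N'' q i))) ^ m * f =
      Y.ϖ w ^ (m * (t4eMult q i w : ℤ) + n) * (u' ^ m * u) := by
    rw [e', e, mul_zpow, ← zpow_natCast, ← zpow_mul, zpow_add₀ hϖ0, mul_comm (t4eMult q i w : ℤ) m]
    ring
  rw [h1]
  refine t4eb_valuation_zpow_le_one (Y.V w) hϖ0 (Y.ϖ_lt w hw) ?_ _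
  rw [map_mul, map_zpow₀, hu', one_zpow, one_mul, hu]

/-- **`normalize`**: every non-zero `f` can be scaled by a power of `q` into `𝒪_i ∖ q 𝒪_i` -/
theorem t4eb_normalize (f : ↥(TaF L (t4eLev N'' q i))) (hf : f ≠ 0) :
    ∃ c : L, c ≠ 0 ∧ ∃ h : c • f ∈ Y.Ov,
      ¬ ∃ g : ↥Y.Ov, c • f = algebraMap L ↥(TaF L (t4eLev N'' q i)) ((q : ℕ) : L) * (g : _) := by
  classical
  -- the orders of `f`
  have hex : ∀ w : ℕ, ∃ n : ℤ, w ≤ i → ∃ u : ↥(TaF L (t4eLev N'' q i)),
      (Y.V w).valuation u = 1 ∧ f = Y.ϖ w ^ n * u := by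
    intro w
    by_cases hw : w ≤ i
    · obtain ⟨n, u, hu, e⟩ := Y.ϖ_unif w hw f hf
      exact ⟨n, fun _ => ⟨u, hu, e⟩⟩
    · exact ⟨0, fun h => absurd h hw⟩
  choose n hn using hex
  set P : ℤ → Prop := fun m => ∀ w ≤ i, 0 ≤ m * (t4eMult q i w : ℤ) + n w with hP
  set M : ℤ := ∑ w ∈ Finset.range (i + 1), |n w| with hM
  have hMw : ∀ w ≤ i, |n w| ≤ M := fun w hw =>
    Finset.single_le_sum (f := fun w => |n w|) (fun _ _ => abs_nonneg _)
      (Finset.mem_range.mpr (Nat.lt_succ_of_le hw))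
  have hM0 : 0 ≤ M := Finset.sum_nonneg fun _ _ => abs_nonneg _
  have hμ : ∀ w, (1 : ℤ) ≤ (t4eMult q i w : ℤ) := fun w => by
    exact_mod_cast t4eb_mult_pos (q := q) (i := i) w
  have hinh : ∃ m, P m := by
    refine ⟨M, fun w hw => ?_⟩
    have h1 := hMw w hw
    have h2 := neg_abs_le (n w)
    have h3 : M * 1 ≤ M * (t4eMult q i w : ℤ) := mul_le_mul_of_nonneg_left (hμ w) hM0
    linarith
  have hbdd : ∃ b : ℤ, ∀ m, P m → b ≤ m := by
    refine ⟨-M, fun m hm => ?_⟩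
    by_contra hlt
    push Not at hlt
    have h0 := hm 0 (Nat.zero_le i)
    have h1 := hMw 0 (Nat.zero_le i)
    have h2 := le_abs_self (n 0)
    have hm0 : m < 0 := by linarith
    have h3 : m * (t4eMult q i 0 : ℤ) ≤ m * 1 :=
      mul_le_mul_of_nonpos_left (hμ 0) hm0.le
    linarith
  obtain ⟨m, hPm, hmin⟩ := Int.exists_least_of_bdd hbdd hinh
  have hnot : ¬ P (m - 1) := fun h => by
    have := hmin _ h
    omega
  rw [hP] at hnot
  push Not at hnot
  obtain ⟨w₀, hw₀, hlt⟩ := hnot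
  have hq0 : ((q : ℕ) : L) ≠ 0 := by
    haveI : CharZero L := algebraRat.charZero L
    exact_mod_cast hq.out.ne_zero
  have hcf : ∀ m' : ℤ, (((q : ℕ) : L) ^ m') • f =
      ((q : ℕ) : ↥(TaF L (t4eLev N'' q i))) ^ m' * f := by
    intro m'
    rw [Algebra.smul_def, map_zpow₀, map_natCast]
  have hmem : (((q : ℕ) : L) ^ m) • f ∈ Y.Ov := by
    intro w hw
    obtain ⟨u, hu, e⟩ := hn w hw
    rw [hcf, t4eb_zpow_mul Y hw hu e]
    exact hPm w hw
  refine ⟨((q : ℕ) : L) ^ m, zpow_ne_zero _ hq0, hmem, ?_⟩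
  rintro ⟨g, hg⟩
  obtain ⟨u, hu, e⟩ := hn w₀ hw₀
  have hgw : (g : ↥(TaF L (t4eLev N'' q i))) ∈ Y.V w₀ := g.2 w₀ hw₀
  have hg' : (g : ↥(TaF L (t4eLev N'' q i))) =
      ((q : ℕ) : ↥(TaF L (t4eLev N'' q i))) ^ (m - 1) * f := by
    rw [hcf, map_natCast] at hg
    have hqF := t4eb_q_ne_zero (L := L) (N'' := N'') (q := q) (i := i)
    apply mul_left_cancel₀ hqF
    rw [← hg, ← mul_assoc, ← zpow_one_add₀ hqF]
    congr 2
    ring
  rw [hg', t4eb_zpow_mul Y hw₀ hu e] at hgw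
  exact absurd hgw (not_le.mpr hlt)

/-! ### The base -/

include hqO hπ in
theorem t4eb_hp (a : ↥O) (ha : π a = 0) : ((q : ℕ) : ↥O) ∣ a :=
  (ta_pi_eq_zero_iff hπ hqO a).mp ha

/-- the input of the base of the layer -/
def t4ebInput : T4ebInput L ↥(TaF L (t4eLev N'' q i)) k where
  A := O
  resA := π
  resA_surj := hπ
  Ov := Y.Ov
  algebraMap_mem := fun a w hw => Y.const_mem w hw a
  p := ((q : ℕ) : ↥O)
  hp := t4eb_hp (hπ := hπ) hqO
  normalize := fun f hf => by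
    obtain ⟨c, hc0, h, hnot⟩ := t4eb_normalize Y f hf
    refine ⟨c, hc0, h, ?_⟩
    have h1 : ((((q : ℕ) : ↥O) : ↥O) : L) = ((q : ℕ) : L) := by push_cast; rfl
    rw [h1]
    exact hnot
  arch := t2i_arch
  cart := fun W hW => by
    letI := t4ebAlg L N'' q i
    haveI := t4eb_isScalarTower (L := L) (N'' := N'') (q := q) (i := i)
    haveI := t4eb_finiteDimensional (L := L) (N'' := N'') (q := q) (i := i)
    haveI := t4eb_isSeparable (L := L) (N'' := N'') (q := q) (i := i)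
    haveI : IsNoetherianRing ↥(t2iBase O π hπ N'' hN'').A :=
      (inferInstance : IsNoetherianRing ↥O)
    exact t4eb_cart (t2iBase O π hπ N'' hN'') (taOv O π hπ N'') rfl Y.Ov
      (fun a w hw => Y.const_mem w hw a) (fun f hf => t4eb_isIntegral Y hqO hf) W hW

/-- **the base of the layer of level `i`**, residue ring `𝒪_i ⧸ (q)` -/
def t4ebBase : T2Base L ↥(TaF L (t4eLev N'' q i)) k (t4ebInput Y hqO hN'').Fb :=
  (t4ebInput Y hqO hN'').base

theorem t4ebBase_A : (t4ebBase Y hqO hN'').A = O := rfl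

theorem t4ebBase_resA : (t4ebBase Y hqO hN'').resA = π := rfl

theorem t4ebBase_Ov : (t4ebBase Y hqO hN'').Ov = Y.Ov := rfl

theorem mem_t4ebBase_Ov (f : ↥(TaF L (t4eLev N'' q i))) :
    f ∈ (t4ebBase Y hqO hN'').Ov ↔ ∀ w ≤ i, f ∈ Y.V w := Iff.rfl

/-- the kernel of the residue map is `q 𝒪_i` -/
theorem t4ebBase_res_eq_zero_iff (f : ↥(t4ebBase Y hqO hN'').Ov) :
    (t4ebBase Y hqO hN'').res f = 0 ↔
      ∃ g : ↥Y.Ov, (f : ↥(TaF L (t4eLev N'' q i))) =
        algebraMap L ↥(TaF L (t4eLev N'' q i)) ((q : ℕ) : L) * (g : _) := by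
  have h := (t4ebInput Y hqO hN'').base_res_eq_zero_iff f
  have h1 : ((((q : ℕ) : ↥O) : ↥O) : L) = ((q : ℕ) : L) := by push_cast; rfl
  rw [← h1]
  exact h

theorem t4ebBase_res_surjective : Function.Surjective (t4ebBase Y hqO hN'').res :=
  (t4ebInput Y hqO hN'').base_res_surjective

end Layer

end Fermat.Agent.T4
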