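/-
T4E / P4 TOWER (helper9): **the embedding record of one component** and its first consequences.

* `t4e_alpha_deg`, `t4e_beta_deg` : `α (a_n f) = a_n f`, `β (a_n f) = a_{n+1} f` between consecutive levels;
* `t4e_induction` : `F_i` is generated as a field by the constants and the images `a_n F_0`, `n ≤ i`;
* `t4e_ringHom_ext` : ring homomorphisms on `F_i` are determined by the constants and the `a_n F_0`;
* `T4eEmb O π N'' q i w O' π'` : an embedding `ι : F_i → L'((𝔮))` over a DVR level `(L', O', π')` above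
  `(L, O, π)` with the UNIFORM TABLE `ι (a_n f) = f^{L'}(ζ_n 𝔮^{q^{x_n}})`, `x_n = t4eExp i w n`,
  `ζ_n ∈ O'ˣ` with `π' ζ_n = 1` — one record for every component `(w, i - w)`;
* consequences: values in `Frac O'((𝔮))` (`T4eEmb.frac`), `a_n f` is Gauss-integral with the residue
  table (`T4eEmb.gauss_deg`, `T4eEmb.rho_deg`), constants (`T4eEmb.gauss_const`, `T4eEmb.rho_const`).
-/
import Fermat.Agent.Lib.T4E.Tower.Defs
import Fermat.Agent.Lib.T4.Inst.ValSub
import Fermat.Agent.Lib.T4.Inst.GaussExt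

set_option autoImplicit false
set_option linter.unusedSectionVars false
set_option linter.unusedVariables false
set_option linter.style.haveILetI false

open HahnSeries ModularCurve Fermat.Agent.T1 Fermat.Agent.T2

noncomputable section

namespace Fermat.Agent.T4

section Tower

variable (L : Type) [Field L] [Algebra ℚ L] (N'' q : ℕ) [NeZero N''] [NeZero q]

/-- `α (a_n f) = a_n f` -/
theorem t4e_alpha_deg {i n : ℕ} (hn : n ≤ i) (f : ↥(TaF L N'')) :
    heckeAlphaBar L (t4eLev N'' q i) q (t4eDeg L N'' q i n f) = t4eDeg L N'' q (i + 1) n f :=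
  (t4eDeg_succ_of_le L N'' q hn f).symm

/-- `β (a_n f) = a_{n+1} f` -/
theorem t4e_beta_deg {i n : ℕ} (hn : n ≤ i) (f : ↥(TaF L N'')) :
    heckeBetaBar L (t4eLev N'' q i) q (t4eDeg L N'' q i n f) = t4eDeg L N'' q (i + 1) (n + 1) f := by
  apply Subtype.ext
  rw [coe_heckeBetaBar, coe_t4eDeg L N'' q i n hn f, coe_t4eDeg L N'' q (i + 1) (n + 1) (by omega) f,
    qExpand_qExpand]
  exact qExpand_congr (by rw [pow_succ, mul_comm]) _

/-- **induction principle**: `F_i` is generated as a field by the constants and the images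
`a_n F_0`, `n ≤ i` (`q` prime) -/
theorem t4e_induction (hq : q.Prime) : ∀ (i : ℕ) {P : ↥(TaF L (t4eLev N'' q i)) → Prop}
    (hc : ∀ c : L, P (algebraMap L ↥(TaF L (t4eLev N'' q i)) c))
    (hg : ∀ n ≤ i, ∀ f : ↥(TaF L N''), P (t4eDeg L N'' q i n f))
    (hadd : ∀ x y, P x → P y → P (x + y)) (hmul : ∀ x y, P x → P y → P (x * y))
    (hinv : ∀ x, P x → P x⁻¹) (x : ↥(TaF L (t4eLev N'' q i))), P x
  | 0, P, hc, hg, hadd, hmul, hinv, x => hg 0 le_rfl x
  | i + 1, P, hc, hg, hadd, hmul, hinv, x => by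
    induction x using t4v_induction1 L (t4eLev N'' q i) q hq with
    | hc c => exact hc c
    | hα b =>
      induction b using t4e_induction hq i with
      | hc c =>
        rw [AlgHom.commutes]
        exact hc c
      | hg n hn f =>
        rw [t4e_alpha_deg L N'' q hn f]
        exact hg n (by omega) f
      | hadd x y hx hy =>
        rw [map_add]
        exact hadd _ _ hx hy
      | hmul x y hx hy =>
        rw [map_mul]
        exact hmul _ _ hx hy
      | hinv x hx =>
        rw [map_inv₀]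
        exact hinv _ hx
    | hβ b =>
      induction b using t4e_induction hq i with
      | hc c =>
        rw [AlgHom.commutes]
        exact hc c
      | hg n hn f =>
        rw [t4e_beta_deg L N'' q hn f]
        exact hg (n + 1) (by omega) f
      | hadd x y hx hy =>
        rw [map_add]
        exact hadd _ _ hx hy
      | hmul x y hx hy =>
        rw [map_mul]
        exact hmul _ _ hx hy
      | hinv x hx =>
        rw [map_inv₀]
        exact hinv _ hx
    | hadd x y hx hy => exact hadd x y hx hy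
    | hmul x y hx hy => exact hmul x y hx hy
    | hinv x hx => exact hinv x hx

/-- ring homomorphisms on `F_i` into a division ring are determined by their values on the
constants and on the images `a_n F_0`, `n ≤ i` -/
theorem t4e_ringHom_ext (hq : q.Prime) (i : ℕ) {R : Type*} [DivisionRing R]
    (φ ψ : ↥(TaF L (t4eLev N'' q i)) →+* R)
    (hc : ∀ c : L, φ (algebraMap L ↥(TaF L (t4eLev N'' q i)) c)
      = ψ (algebraMap L ↥(TaF L (t4eLev N'' q i)) c))
    (hg : ∀ n ≤ i, ∀ f : ↥(TaF L N''), φ (t4eDeg L N'' q i n f) = ψ (t4eDeg L N'' q i n f)) :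
    φ = ψ := by
  ext x
  induction x using t4e_induction L N'' q hq i with
  | hc c => exact hc c
  | hg n hn f => exact hg n hn f
  | hadd x y hx hy => rw [map_add, map_add, hx, hy]
  | hmul x y hx hy => rw [map_mul, map_mul, hx, hy]
  | hinv x hx => rw [map_inv₀, map_inv₀, hx]

end Tower


/-! ### `qExpand` and the Gauss ring (no `ℚ`-algebra structure on the coefficient field) -/

section QExp

variable {L' : Type*} [Field L'] (O' : ValuationSubring L') {k : Type*} [Field k]
  (π' : ↥O' →+* k) (m : ℕ) [NeZero m]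

theorem t4e_taInc_qExpand (s : LaurentSeries ↥O') :
    taInc O' (qExpand ↥O' m s) = qExpand L' m (taInc O' s) := coeffMap_qExpand _ m s

theorem t4e_taRed_qExpand (s : LaurentSeries ↥O') :
    taRed π' (qExpand ↥O' m s) = qExpand k m (taRed π' s) := coeffMap_qExpand _ m s

theorem t4e_taGauss_qExpand {f : LaurentSeries L'} (hf : TaGauss O' π' f) :
    TaGauss O' π' (qExpand L' m f) := by
  obtain ⟨g, h, hh, e⟩ := hf
  refine ⟨qExpand ↥O' m g, qExpand ↥O' m h, ?_, ?_⟩
  · rw [t4e_taRed_qExpand]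
    intro h0
    apply hh
    apply qExpand_injective (R := k) (N := m)
    rw [h0, map_zero]
  · rw [t4e_taInc_qExpand, t4e_taInc_qExpand, ← map_mul, e]

theorem t4e_taRhoFun_qExpand {f : LaurentSeries L'} (hf : TaGauss O' π' f) :
    taRhoFun O' π' (qExpand L' m f) = qExpand k m (taRhoFun O' π' f) := by
  obtain ⟨g, h, hh, e⟩ := hf
  have hh' : taRed π' (qExpand ↥O' m h) ≠ 0 := by
    rw [t4e_taRed_qExpand]
    intro h0
    apply hh
    apply qExpand_injective (R := k) (N := m)
    rw [h0, map_zero]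
  have e' : qExpand L' m f * taInc O' (qExpand ↥O' m h) = taInc O' (qExpand ↥O' m g) := by
    rw [t4e_taInc_qExpand, t4e_taInc_qExpand, ← map_mul, e]
  rw [taRhoFun_eq O' π' hh' e', taRhoFun_eq O' π' hh e, t4e_taRed_qExpand, t4e_taRed_qExpand,
    map_div₀]

end QExp

/-! ### The embedding record of one component -/

section Emb

variable {L : Type} [Field L] [Algebra ℚ L] (O : ValuationSubring L) {k : Type*} [Field k]
  (π : ↥O →+* k) (N'' q : ℕ) [NeZero N''] [NeZero q]

/-- **the embedding record of the component `(w, i - w)`**: a DVR level `(L', O', π')` above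
`(L, O, π)` and an embedding `ι : F_i → L'((𝔮))` with the uniform table
`ι (a_n f) = f^{L'}(ζ_n 𝔮^{q^{t4eExp i w n}})`, `ζ_n ∈ O'ˣ` with `π' ζ_n = 1` -/
structure T4eEmb (i w : ℕ) {L' : Type*} [Field L'] [Algebra L L'] (O' : ValuationSubring L')
    (π' : ↥O' →+* k) where
  map_mem : ∀ a : ↥O, algebraMap L L' (a : L) ∈ O'
  π_map : ∀ a : ↥O, π' ⟨algebraMap L L' (a : L), map_mem a⟩ = π a
  /-- the embedding -/
  ι : ↥(TaF L (t4eLev N'' q i)) →+* LaurentSeries L'
  ι_const : ∀ c : L, ι (algebraMap L ↥(TaF L (t4eLev N'' q i)) c)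
    = HahnSeries.C (algebraMap L L' c)
  /-- the twisting roots of unity -/
  ζ : ℕ → (↥O')ˣ
  π_ζ : ∀ n, π' ((ζ n : (↥O')ˣ) : ↥O') = 1
  ι_deg : ∀ n ≤ i, ∀ f : ↥(TaF L N''),
    ι (t4eDeg L N'' q i n f) = qExpand L' (q ^ t4eExp i w n)
      (t4vSig (Units.map (O'.subtype : ↥O' →* L') (ζ n))
        (coeffMap (algebraMap L L') (f : LaurentSeries L)))

variable {O π N'' q}
variable {i w : ℕ} {L' : Type*} [Field L'] [Algebra L L'] {O' : ValuationSubring L'}
  {π' : ↥O' →+* k} (Em : T4eEmb O π N'' q i w O' π')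

/-- the values of `ι` lie in `Frac O'((𝔮))` -/
theorem T4eEmb.frac (hq : q.Prime) (x : ↥(TaF L (t4eLev N'' q i))) : TaFrac O' (Em.ι x) := by
  have hsub : ∀ y : LaurentSeries L', TaFrac O' y ↔ y ∈ taFracSubfield O' := fun y => Iff.rfl
  induction x using t4e_induction L N'' q hq i with
  | hc c =>
    rw [Em.ι_const]
    exact t4v_taFrac_C O' _
  | hg n hn f =>
    rw [Em.ι_deg n hn f]
    exact t4v_taFrac_qExpand O' _ (t4v_taFrac_sig O' _ (Em.ζ n) rfl
      (t4v_taFrac_coeffMap O O' Em.map_mem (ta_frac_of_mem O N'' _ f.2)))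
  | hadd x y hx hy =>
    rw [map_add, hsub] at *
    exact add_mem hx hy
  | hmul x y hx hy =>
    rw [map_mul, hsub] at *
    exact mul_mem hx hy
  | hinv x hx =>
    rw [map_inv₀, hsub] at *
    exact inv_mem hx

/-- `a_n f` is Gauss-integral when `f` is -/
theorem T4eEmb.gauss_deg {n : ℕ} (hn : n ≤ i) {f : ↥(TaF L N'')}
    (hf : TaGauss O π (f : LaurentSeries L)) : TaGauss O' π' (Em.ι (t4eDeg L N'' q i n f)) := by
  rw [Em.ι_deg n hn f]
  exact t4e_taGauss_qExpand O' π' _ (t4v_taGauss_sig O' π' _ (Em.ζ n) rfl (Em.π_ζ n)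
    (t4v_taGauss_coeffMap O O' π π' Em.map_mem Em.π_map hf))

/-- **the residue table** -/
theorem T4eEmb.rho_deg {n : ℕ} (hn : n ≤ i) {f : ↥(TaF L N'')}
    (hf : TaGauss O π (f : LaurentSeries L)) :
    taRhoFun O' π' (Em.ι (t4eDeg L N'' q i n f))
      = qExpand k (q ^ t4eExp i w n) (taRhoFun O π (f : LaurentSeries L)) := by
  rw [Em.ι_deg n hn f, t4e_taRhoFun_qExpand O' π' _ (t4v_taGauss_sig O' π' _ (Em.ζ n) rfl (Em.π_ζ n)
      (t4v_taGauss_coeffMap O O' π π' Em.map_mem Em.π_map hf)),
    t4v_taRhoFun_sig O' π' _ (Em.ζ n) rfl (Em.π_ζ n)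
      (t4v_taGauss_coeffMap O O' π π' Em.map_mem Em.π_map hf),
    t4v_taRhoFun_coeffMap O O' π π' Em.map_mem Em.π_map hf]

/-- the constants of `O` are Gauss-integral -/
theorem T4eEmb.gauss_const (c : ↥O) :
    TaGauss O' π' (Em.ι (algebraMap L ↥(TaF L (t4eLev N'' q i)) (c : L))) := by
  rw [Em.ι_const]
  have h : (HahnSeries.C (algebraMap L L' (c : L)) : LaurentSeries L')
      = taInc O' (HahnSeries.C ⟨algebraMap L L' (c : L), Em.map_mem c⟩) := by
    rw [taInc_C]
  rw [h]
  exact taGauss_taInc O' π' _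

/-- the residues of the constants -/
theorem T4eEmb.rho_const (c : ↥O) :
    taRhoFun O' π' (Em.ι (algebraMap L ↥(TaF L (t4eLev N'' q i)) (c : L)))
      = HahnSeries.C (π c) := by
  rw [Em.ι_const]
  have h : (HahnSeries.C (algebraMap L L' (c : L)) : LaurentSeries L') * taInc O' 1
      = taInc O' (HahnSeries.C ⟨algebraMap L L' (c : L), Em.map_mem c⟩) := by
    rw [taInc_C, map_one, mul_one]
  rw [taRhoFun_eq O' π' (by rw [map_one]; exact one_ne_zero) h, map_one, div_one, taRed_C,
    Em.π_map]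

end Emb

end Fermat.Agent.T4
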