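/-
T4E / P4 TOWER (helper9): **the embedding records of the components**.

* `t4eExp_flip` : `t4eExp i (i - w) n = t4eExp i w (i - n)`;
* `T4eEmb.flip` : from the record of the component `(w, i - w)` and the Atkin–Lehner involution
  `w_{q^i}` (`T4eAL`) the record of the component `(i - w, w)`: `ι' = ι ∘ w`, `ζ'_n = ζ_{i-n}`;
* `t4eEmbInf` : the record of the component `∞ = (i, 0)`: `ι` = the `q`-expansion at `∞`;
* `t4eEmbCusp` : the record of the component `(a, b)`, `1 ≤ b ≤ a`, from the cyclotomic level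
  `T4eCyc … b` and the cusp embedding `T4eCusp … a b ζ`.
-/
import Fermat.Agent.Lib.T4E.Tower.Emb

set_option autoImplicit false
set_option linter.unusedSectionVars false
set_option linter.unusedVariables false
set_option linter.style.haveILetI false

open HahnSeries ModularCurve Fermat.Agent.T1 Fermat.Agent.T2

noncomputable section

namespace Fermat.Agent.T4

theorem t4eExp_flip {i w n : ℕ} (hw : w ≤ i) (hn : n ≤ i) :
    t4eExp i (i - w) n = t4eExp i w (i - n) := by
  unfold t4eExp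
  (split_ifs; all_goals omega)

theorem t4eExp_top {i n : ℕ} (hn : n ≤ i) : t4eExp i i n = n := by
  unfold t4eExp
  (split_ifs; all_goals omega)

theorem t4eExp_low {a b n : ℕ} (hb : b ≤ a) (hn : n ≤ a) : t4eExp (a + b) a n = n := by
  unfold t4eExp
  (split_ifs; all_goals omega)

theorem t4eExp_high {a b j : ℕ} (hb : b ≤ a) (hj1 : 1 ≤ j) (hj : j ≤ b) :
    t4eExp (a + b) a (a + j) = a - j := by
  unfold t4eExp
  (split_ifs; all_goals omega)

section Flip

variable {L : Type} [Field L] [Algebra ℚ L] {O : ValuationSubring L} {k : Type*} [Field k]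
  {π : ↥O →+* k} {N'' q : ℕ} [NeZero N''] [NeZero q]
  {i w : ℕ} {L' : Type*} [Field L'] [Algebra L L'] {O' : ValuationSubring L'}
  {π' : ↥O' →+* k}

/-- **the flip**: the record of the component `(i - w, w)` from that of `(w, i - w)` and `w_{q^i}` -/
def T4eEmb.flip (Em : T4eEmb O π N'' q i w O' π') (hw : w ≤ i) (W : T4eAL L N'' q i) :
    T4eEmb O π N'' q i (i - w) O' π' where
  map_mem := Em.map_mem
  π_map := Em.π_map
  ι := Em.ι.comp (W.w : ↥(TaF L (t4eLev N'' q i)) →+* ↥(TaF L (t4eLev N'' q i)))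
  ι_const := fun c => by
    rw [RingHom.comp_apply]
    have h : (W.w : ↥(TaF L (t4eLev N'' q i)) →+* ↥(TaF L (t4eLev N'' q i)))
        (algebraMap L ↥(TaF L (t4eLev N'' q i)) c) = algebraMap L ↥(TaF L (t4eLev N'' q i)) c :=
      W.w.commutes c
    rw [h, Em.ι_const]
  ζ := fun n => Em.ζ (i - n)
  π_ζ := fun n => Em.π_ζ (i - n)
  ι_deg := fun n hn f => by
    rw [RingHom.comp_apply]
    have h : (W.w : ↥(TaF L (t4eLev N'' q i)) →+* ↥(TaF L (t4eLev N'' q i)))
        (t4eDeg L N'' q i n f) = t4eDeg L N'' q i (i - n) f := W.w_a n hn f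
    rw [h, Em.ι_deg (i - n) (Nat.sub_le i n) f]
    exact qExpand_congr (by rw [t4eExp_flip hw hn]) _

theorem T4eEmb.flip_ι (Em : T4eEmb O π N'' q i w O' π') (hw : w ≤ i) (W : T4eAL L N'' q i)
    (x : ↥(TaF L (t4eLev N'' q i))) : (Em.flip hw W).ι x = Em.ι (W.w x) := rfl

end Flip

section Inf

variable {L : Type} [Field L] [Algebra ℚ L] (O : ValuationSubring L) {k : Type*} [Field k]
  (π : ↥O →+* k) (N'' q : ℕ) [NeZero N''] [NeZero q]

/-- **the record of the component `∞ = (i, 0)`**: the `q`-expansion at `∞` -/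
def t4eEmbInf (i : ℕ) : T4eEmb O π N'' q i i O π where
  map_mem := fun a => a.2
  π_map := fun a => rfl
  ι := (TaF L (t4eLev N'' q i)).val.toRingHom
  ι_const := fun c => by
    show ((algebraMap L ↥(TaF L (t4eLev N'' q i)) c : ↥(TaF L (t4eLev N'' q i))) : LaurentSeries L)
      = HahnSeries.C (algebraMap L L c)
    rw [Algebra.algebraMap_self, RingHom.id_apply]
    exact algebraMap_laurentSeries_eq_single L c
  ζ := fun _ => 1
  π_ζ := fun _ => by rw [Units.val_one, map_one]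
  ι_deg := fun n hn f => by
    show ((t4eDeg L N'' q i n f : ↥(TaF L (t4eLev N'' q i))) : LaurentSeries L) = _
    rw [coe_t4eDeg L N'' q i n hn f, map_one, t4vSig_one, Algebra.algebraMap_self, coeffMap_id]
    exact qExpand_congr (by rw [t4eExp_top hn]) _

end Inf


section Cusp

variable {L : Type} [Field L] [Algebra ℚ L] {O : ValuationSubring L} {k : Type*} [Field k]
  {π : ↥O →+* k} {N'' q : ℕ} [NeZero N''] [NeZero q]
  {L' : Type*} [Field L'] [Algebra L L'] {O' : ValuationSubring L'} {π' : ↥O' →+* k} {b : ℕ}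

/-- `ζ ∈ O'` -/
theorem t4et_zeta_mem (C : T4eCyc O O' π π' q b) : ((C.ζ : L'ˣ) : L') ∈ O' := by
  have h : ((C.ζ : L'ˣ) : L') = 1 - ((C.lam : ↥O') : L') := by rw [C.lam_eq]; ring
  rw [h]
  exact sub_mem (one_mem _) C.lam.2

/-- `ζ⁻¹ ∈ O'` -/
theorem t4et_zeta_inv_mem (C : T4eCyc O O' π π' q b) : ((C.ζ⁻¹ : L'ˣ) : L') ∈ O' := by
  have h : (C.ζ⁻¹ : L'ˣ) = C.ζ ^ (q ^ b - 1) := by
    rw [inv_eq_iff_mul_eq_one, ← pow_succ', Nat.sub_add_cancel (Nat.pos_of_ne_zero
      (pow_ne_zero b (NeZero.ne q))), C.ζ_pow]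
  rw [h, Units.val_pow_eq_pow_val]
  exact pow_mem (t4et_zeta_mem C) _

/-- `ζ` as a unit of `O'` -/
def t4etZetaO (C : T4eCyc O O' π π' q b) : (↥O')ˣ where
  val := ⟨((C.ζ : L'ˣ) : L'), t4et_zeta_mem C⟩
  inv := ⟨((C.ζ⁻¹ : L'ˣ) : L'), t4et_zeta_inv_mem C⟩
  val_inv := Subtype.ext (by
    show ((C.ζ : L'ˣ) : L') * ((C.ζ⁻¹ : L'ˣ) : L') = 1
    rw [← Units.val_mul, mul_inv_cancel, Units.val_one])
  inv_val := Subtype.ext (by
    show ((C.ζ⁻¹ : L'ˣ) : L') * ((C.ζ : L'ˣ) : L') = 1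
    rw [← Units.val_mul, inv_mul_cancel, Units.val_one])

theorem t4et_map_zetaO (C : T4eCyc O O' π π' q b) : Units.map (O'.subtype : ↥O' →* L') (t4etZetaO C) = C.ζ :=
  Units.ext rfl

theorem t4et_pi_surjective (C : T4eCyc O O' π π' q b) (hπ : Function.Surjective π) : Function.Surjective π' := by
  intro t
  obtain ⟨a, rfl⟩ := hπ t
  exact ⟨_, C.π_map a⟩

theorem t4et_pi_lam (C : T4eCyc O O' π π' q b) (hπ : Function.Surjective π) : π' C.lam = 0 := by
  have hmax : (RingHom.ker π').IsMaximal :=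
    RingHom.ker_isMaximal_of_surjective π' (t4et_pi_surjective C hπ)
  have h1 : RingHom.ker π' = IsLocalRing.maximalIdeal ↥O' := IsLocalRing.eq_maximalIdeal hmax
  have h2 : C.lam ∈ IsLocalRing.maximalIdeal ↥O' :=
    (IsLocalRing.mem_maximalIdeal _).mpr C.unif.not_isUnit
  rw [← h1] at h2
  exact h2

theorem t4et_pi_zetaO (C : T4eCyc O O' π π' q b) (hπ : Function.Surjective π) : π' ((t4etZetaO C : (↥O')ˣ) : ↥O') = 1 := by
  have h : ((t4etZetaO C : (↥O')ˣ) : ↥O') = 1 - C.lam := by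
    apply Subtype.ext
    show ((C.ζ : L'ˣ) : L') = 1 - ((C.lam : ↥O') : L')
    rw [C.lam_eq]; ring
  rw [h, map_sub, map_one, t4et_pi_lam C hπ, sub_zero]

/-- the constants under a cusp embedding -/
theorem T4eCusp.ι_const (C : T4eCyc O O' π π' q b) {a : ℕ} (M : T4eCusp L L' N'' q a b C.ζ) (c : L) :
    M.ι (algebraMap L ↥(TaF L (t4eLev N'' q (a + b))) c) = HahnSeries.C (algebraMap L L' c) := by
  have h1 : algebraMap L ↥(TaF L (t4eLev N'' q (a + b))) c
      = t4eDeg L N'' q (a + b) 0 (algebraMap L ↥(TaF L N'') c) :=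
    ((t4eDeg L N'' q (a + b) 0).commutes c).symm
  rw [h1, M.ι_low 0 (Nat.zero_le a)]
  have h2 : ((algebraMap L ↥(TaF L N'') c : ↥(TaF L N'')) : LaurentSeries L)
      = HahnSeries.single 0 c := algebraMap_laurentSeries_eq_single L c
  rw [h2, qExpand_single, mul_zero, coeffMap_single]
  rfl

/-- **the record of the component `(a, b)`, `1 ≤ b ≤ a`** -/
def t4eEmbCusp (C : T4eCyc O O' π π' q b) {a : ℕ} (hb : b ≤ a) (hπ : Function.Surjective π)
    (M : T4eCusp L L' N'' q a b C.ζ) : T4eEmb O π N'' q (a + b) a O' π' where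
  map_mem := C.map_mem
  π_map := C.π_map
  ι := M.ι
  ι_const := M.ι_const C
  ζ := fun n => if n ≤ a then 1 else t4etZetaO C ^ (q ^ (b - (n - a)))
  π_ζ := fun n => by
    split_ifs
    · rw [Units.val_one, map_one]
    · rw [Units.val_pow_eq_pow_val, map_pow, t4et_pi_zetaO C hπ, one_pow]
  ι_deg := fun n hn f => by
    by_cases hna : n ≤ a
    · rw [if_pos hna, map_one, t4vSig_one, M.ι_low n hna f, coeffMap_qExpand]
      exact qExpand_congr (by rw [t4eExp_low hb hna]) _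
    · rw [if_neg hna]
      obtain ⟨j, rfl⟩ : ∃ j, n = a + j := ⟨n - a, by omega⟩
      have hj1 : 1 ≤ j := by omega
      have hj : j ≤ b := by omega
      rw [M.ι_high j hj1 hj f, map_pow, t4et_map_zetaO, Nat.add_sub_cancel_left]
      exact qExpand_congr (by rw [t4eExp_high hb hj1 hj]) _

theorem t4eEmbCusp_ι (C : T4eCyc O O' π π' q b) {a : ℕ} (hb : b ≤ a) (hπ : Function.Surjective π)
    (M : T4eCusp L L' N'' q a b C.ζ) : (t4eEmbCusp C hb hπ M).ι = M.ι := rfl

end Cusp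

end Fermat.Agent.T4
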