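/-
T4E / P4 TOWER support (lead): **separation of the components by their residue tables, and the
automatic link between layers**.

A valuation subring `V` of `F_i` "carries a table of type `w` shifted by `s`" (`T4esTab`) when it has a
residue map `ρ : V → k((𝔮))` (kernel = the maximal ideal) with `ρ (a_n j) = j̄(𝔮^{q^{t4eExp i w n + s}})`
for all `n ≤ i` (only the `j`-invariant enters).

* `t4es_unique` : the TYPE `w ≤ i` of a table is determined by `V` (the shifts need not agree): for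
  `w < w'` the element `a_{w+1} j - (a_w j)^q` is a non-unit for a table of type `w'` and a unit for a
  table of type `w` (`t4eExp i w ·` increases up to `w` and decreases afterwards);
* `t4es_inj` : the field `inj` of `T4eLayer` from the tables;
* `t4es_tab_comap` : restriction of tables along `α`, `β`, `w_{q^i}` (`t4es_exp_alpha`, `t4es_exp_beta`,
  `t4eExp_flip`);
* `t4es_comap_alpha`, `t4es_comap_beta`, `t4es_comap_w` : the fields `comap_α`, `comap_β` of `T4eLink` and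
  `comap_w` of `T4eSym` hold for ANY layers (completeness + `t4es_unique`);
* `t4es_rho_ext` : two residue maps on the same valuation ring which agree up to `Φ^s` on ONE column
  `a_{n₀} F_0` agree up to `Φ^s` everywhere (the residue function field `k(j̄(𝔮^d) : d ∣ N'')` is stable under
  the coefficientwise Frobenius, so `r^{q^e} = r'(𝔮^{q^e})` with `r'` in it: pure inseparability);
* `t4es_rho_alpha`, `t4es_rho_beta`, **`t4es_link`** : `T4eLink lo up` for ANY two consecutive layers (given the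
  degree `[F_{i+1} : F_i] = q`); **`t4es_sym`** : `T4eSym Y W` for ANY layer and ANY `T4eAL`.
-/
import Fermat.Agent.Lib.T4E.Tower.Flip
import Fermat.Agent.Lib.T4.Inst.ValOver
import Fermat.Agent.Lib.T4.Inst.ValTower
import Fermat.Agent.Lib.T2.Inst.KronSer
import Fermat.Agent.Lib.T1.GoodRed.Core
import Fermat.Agent.Lib.T1.Kron.Twist

set_option autoImplicit false
set_option linter.unusedSectionVars false
set_option linter.unusedVariables false
set_option linter.style.haveILetI false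

open HahnSeries ModularCurve Fermat.Agent.T1 Fermat.Agent.T2
noncomputable section
namespace Fermat.Agent.T4

theorem t4es_exp_up {i w n : ℕ} (hw : w ≤ i) (hn : n < w) :
    t4eExp i w (n + 1) = t4eExp i w n + 1 := by
  unfold t4eExp
  split_ifs <;> omega

theorem t4es_exp_down {i w n : ℕ} (hw : w ≤ n) (hn : n < i) :
    t4eExp i w (n + 1) + 1 = t4eExp i w n := by
  unfold t4eExp
  split_ifs <;> omega

theorem t4es_exp_alpha {i w n : ℕ} (hw : w ≤ i + 1) (hn : n ≤ i) :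
    t4eExp (i + 1) w n = t4eExp i (min w i) n + t4eShiftA i w := by
  unfold t4eExp t4eShiftA
  split_ifs <;> omega

theorem t4es_exp_beta {i w n : ℕ} (hw : w ≤ i + 1) (hn : n ≤ i) :
    t4eExp (i + 1) w (n + 1) = t4eExp i (w - 1) n + t4eShiftB i w := by
  unfold t4eExp t4eShiftB
  split_ifs <;> omega

section Frob

variable {k : Type*} [Field k] (q : ℕ) [hq : Fact q.Prime] [CharP k q]

/-- `j̄(𝔮^{q^t}) = j̄^{q^t}` in characteristic `q` -/
theorem t4es_qExpand_pow_jq : ∀ t : ℕ,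
    haveI : NeZero (q ^ t) := ⟨pow_ne_zero _ hq.out.ne_zero⟩
    qExpand k (q ^ t) (jqModC k) = jqModC k ^ (q ^ t)
  | 0 => by
    haveI : NeZero (q ^ 0) := ⟨pow_ne_zero _ hq.out.ne_zero⟩
    rw [qExpand_congr (pow_zero q) (jqModC k), qExpand_one_apply, pow_zero, pow_one]
  | t + 1 => by
    haveI : NeZero q := ⟨hq.out.ne_zero⟩
    haveI : NeZero (q ^ t) := ⟨pow_ne_zero _ hq.out.ne_zero⟩
    haveI : NeZero (q ^ (t + 1)) := ⟨pow_ne_zero _ hq.out.ne_zero⟩
    haveI : NeZero (q ^ t * q) := ⟨by rw [← pow_succ]; exact pow_ne_zero _ hq.out.ne_zero⟩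
    rw [qExpand_congr (pow_succ q t) (jqModC k), ← qExpand_qExpand, ← t2kr_jqModC_pow_char q,
      map_pow, t4es_qExpand_pow_jq t, ← pow_mul, ← pow_succ]

omit [CharP k q] hq in
theorem t4es_jq_pow_inj {a b : ℕ} (h : jqModC k ^ a = jqModC k ^ b) : a = b := by
  have h1 := congrArg HahnSeries.order h
  rw [t2kr_order_jqModC_pow, t2kr_order_jqModC_pow] at h1
  omega

end Frob

section Tab

variable (L : Type) [Field L] [Algebra ℚ L] (k : Type*) [Field k] (N'' q : ℕ) [NeZero N''] [NeZero q]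

/-- **a residue table of type `w` shifted by `s`** on a valuation subring `V` of `F_i`: a residue map
`ρ : V → k((𝔮))` (kernel = the maximal ideal) with `ρ (a_n j) = j̄(𝔮^{q^{t4eExp i w n + s}})` for all
`n ≤ i`.  Only the `j`-invariant enters. -/
def T4esTab (i w s : ℕ) (V : ValuationSubring ↥(TaF L (t4eLev N'' q i))) : Prop :=
  ∃ ρ : ↥V →+* LaurentSeries k,
    (∀ x : ↥V, ρ x = 0 ↔ V.valuation ((x : ↥V) : ↥(TaF L (t4eLev N'' q i))) < 1) ∧
    ∀ n ≤ i, ∃ h : t4eDeg L N'' q i n (taJ N'') ∈ V,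
      ρ ⟨_, h⟩ = qExpand k (q ^ (t4eExp i w n + s)) (jqModC k)

variable {L k N'' q}

/-- **the type of a residue table is determined by the valuation ring** (the shifts need not agree):
for `w < w'` the element `a_{w+1} j - (a_w j)^q` is a non-unit for a table of type `w'` and a unit
for a table of type `w`. -/
theorem t4es_unique_aux [hq : Fact q.Prime] [CharP k q] {i w w' s s' : ℕ}
    {V : ValuationSubring ↥(TaF L (t4eLev N'' q i))}
    (h : T4esTab L k N'' q i w s V) (h' : T4esTab L k N'' q i w' s' V) (hw' : w' ≤ i)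
    (hlt : w < w') : False := by
  obtain ⟨ρ, hρ0, hρ⟩ := h
  obtain ⟨ρ', hρ0', hρ'⟩ := h'
  have hwi : w < i := by omega
  obtain ⟨m0, e0⟩ := hρ w (by omega)
  obtain ⟨m1, e1⟩ := hρ (w + 1) (by omega)
  obtain ⟨m0', e0'⟩ := hρ' w (by omega)
  obtain ⟨m1', e1'⟩ := hρ' (w + 1) (by omega)
  set x : ↥V := ⟨_, m1⟩ - ⟨_, m0⟩ ^ q with hx
  -- type `w'`: `ρ' x = 0`
  have hz' : ρ' x = 0 := by
    rw [hx, map_sub, map_pow]
    have e1'' : ρ' ⟨_, m1⟩ = qExpand k (q ^ (t4eExp i w' (w + 1) + s')) (jqModC k) := e1'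
    have e0'' : ρ' ⟨_, m0⟩ = qExpand k (q ^ (t4eExp i w' w + s')) (jqModC k) := e0'
    rw [e1'', e0'', t4es_qExpand_pow_jq q, t4es_qExpand_pow_jq q, ← pow_mul, ← pow_succ,
      t4es_exp_up hw' hlt, sub_eq_zero]
    congr 2
    omega
  -- type `w`: `ρ x ≠ 0`
  have hnz : ρ x ≠ 0 := by
    rw [hx, map_sub, map_pow, e1, e0, t4es_qExpand_pow_jq q, t4es_qExpand_pow_jq q, ← pow_mul,
      ← pow_succ, sub_ne_zero]
    intro heq
    have h2 := t4es_jq_pow_inj heq
    have h3 := Nat.pow_right_injective hq.out.two_le h2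
    have h4 := t4es_exp_down (le_refl w) hwi
    omega
  exact hnz ((hρ0 x).mpr ((hρ0' x).mp hz'))

theorem t4es_unique [hq : Fact q.Prime] [CharP k q] {i w w' s s' : ℕ}
    {V : ValuationSubring ↥(TaF L (t4eLev N'' q i))}
    (h : T4esTab L k N'' q i w s V) (h' : T4esTab L k N'' q i w' s' V) (hw : w ≤ i) (hw' : w' ≤ i) :
    w = w' := by
  rcases lt_trichotomy w w' with hlt | heq | hgt
  · exact (t4es_unique_aux h h' hw' hlt).elim
  · exact heq
  · exact (t4es_unique_aux h' h hw hgt).elim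


/-- restriction of a residue table along a field embedding `φ : F_i → F_{i'}` which maps every
`a_n j` to some `a_m j` with matching exponents -/
theorem t4es_tab_comap {i i' w w' s s' : ℕ}
    (φ : ↥(TaF L (t4eLev N'' q i)) →+* ↥(TaF L (t4eLev N'' q i')))
    {V : ValuationSubring ↥(TaF L (t4eLev N'' q i'))} (h : T4esTab L k N'' q i' w' s' V)
    (hφ : ∀ n ≤ i, ∃ m ≤ i', φ (t4eDeg L N'' q i n (taJ N'')) = t4eDeg L N'' q i' m (taJ N'') ∧
      t4eExp i' w' m + s' = t4eExp i w n + s) :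
    T4esTab L k N'' q i w s (V.comap φ) := by
  obtain ⟨ρ, hρ0, hρ⟩ := h
  refine ⟨ρ.comp (φ.restrict (V.comap φ) V fun x hx => hx), fun x => ?_, fun n hn => ?_⟩
  · rw [RingHom.comp_apply, hρ0, t4vr_valuation_lt_one_iff_of_comap φ rfl]
    rfl
  · obtain ⟨m, hm, e, hexp⟩ := hφ n hn
    obtain ⟨hmem, hval⟩ := hρ m hm
    have hmem' : t4eDeg L N'' q i n (taJ N'') ∈ V.comap φ := by
      rw [ValuationSubring.mem_comap, e]
      exact hmem
    refine ⟨hmem', ?_⟩
    rw [RingHom.comp_apply]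
    have h1 : φ.restrict (V.comap φ) V (fun x hx => hx) ⟨_, hmem'⟩ = ⟨_, hmem⟩ :=
      Subtype.ext e
    rw [h1, hval]
    exact qExpand_congr (by rw [hexp]) _

section Layer

variable {O : ValuationSubring L} {π : ↥O →+* k} [IsDiscreteValuationRing ↥O]
  {hπ : Function.Surjective π}

/-- the component `V w` of a layer carries the table of type `w` (shift `0`) -/
theorem T4eLayer.t4es_tab {i : ℕ} (Y : T4eLayer O π hπ N'' q i) {w : ℕ} (hw : w ≤ i) :
    T4esTab L k N'' q i w 0 (Y.V w) := by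
  refine ⟨Y.ρ w, Y.ρ_eq_zero w hw, fun n hn => ?_⟩
  refine ⟨Y.a_mem w hw n hn _ (taJ_mem_taOv O π hπ N''), ?_⟩
  rw [Y.ρ_a w hw n hn _ (taJ_mem_taOv O π hπ N''), taResN_taJ]
  exact qExpand_congr (by rw [add_zero]) _

variable [hq : Fact q.Prime] [CharP k q]

/-- **the labels of a layer are determined by the tables**: `inj` from the tables -/
theorem t4es_inj {i : ℕ} (V : ℕ → ValuationSubring ↥(TaF L (t4eLev N'' q i)))
    (hV : ∀ w ≤ i, ∃ s, T4esTab L k N'' q i w s (V w)) :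
    ∀ w ≤ i, ∀ w' ≤ i, V w = V w' → w = w' := by
  intro w hw w' hw' heq
  obtain ⟨s, h⟩ := hV w hw
  obtain ⟨s', h'⟩ := hV w' hw'
  rw [← heq] at h'
  exact t4es_unique h h' hw hw'

/-- **restriction along `α`**: `V_w ∩ F_i = V_{min w i}` -/
theorem t4es_comap_alpha {i : ℕ} (lo : T4eLayer O π hπ N'' q i)
    (up : T4eLayer O π hπ N'' q (i + 1)) {w : ℕ} (hw : w ≤ i + 1) :
    (up.V w).comap (heckeAlphaBar L (t4eLev N'' q i) q).toRingHom = lo.V (min w i) := by
  have hover : ((up.V w).comap (heckeAlphaBar L (t4eLev N'' q i) q).toRingHom).comap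
      (t4eDeg L N'' q i 0).toRingHom = taOv O π hπ N'' := by
    rw [← up.lies_over w hw 0 (by omega)]
    ext f
    rw [ValuationSubring.mem_comap, ValuationSubring.mem_comap, ValuationSubring.mem_comap]
    show heckeAlphaBar L (t4eLev N'' q i) q (t4eDeg L N'' q i 0 f) ∈ _ ↔ _
    rw [t4e_alpha_deg L N'' q (Nat.zero_le i) f]
    rfl
  obtain ⟨w₀, hw₀, e⟩ := lo.complete _ hover
  have h1 : T4esTab L k N'' q i (min w i) (t4eShiftA i w)
      ((up.V w).comap (heckeAlphaBar L (t4eLev N'' q i) q).toRingHom) :=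
    t4es_tab_comap _ (up.t4es_tab hw) fun n hn =>
      ⟨n, by omega, t4e_alpha_deg L N'' q hn _, by rw [add_zero, t4es_exp_alpha hw hn]⟩
  have h2 := lo.t4es_tab hw₀
  rw [← e] at h2
  rw [e, t4es_unique h2 h1 hw₀ (by omega)]

/-- **restriction along `β`**: `β⁻¹ V_w = V_{w-1}` -/
theorem t4es_comap_beta {i : ℕ} (lo : T4eLayer O π hπ N'' q i)
    (up : T4eLayer O π hπ N'' q (i + 1)) {w : ℕ} (hw : w ≤ i + 1) :
    (up.V w).comap (heckeBetaBar L (t4eLev N'' q i) q).toRingHom = lo.V (w - 1) := by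
  have hover : ((up.V w).comap (heckeBetaBar L (t4eLev N'' q i) q).toRingHom).comap
      (t4eDeg L N'' q i 0).toRingHom = taOv O π hπ N'' := by
    rw [← up.lies_over w hw 1 (by omega)]
    ext f
    rw [ValuationSubring.mem_comap, ValuationSubring.mem_comap, ValuationSubring.mem_comap]
    show heckeBetaBar L (t4eLev N'' q i) q (t4eDeg L N'' q i 0 f) ∈ _ ↔ _
    rw [t4e_beta_deg L N'' q (Nat.zero_le i) f]
    rfl
  obtain ⟨w₀, hw₀, e⟩ := lo.complete _ hover
  have h1 : T4esTab L k N'' q i (w - 1) (t4eShiftB i w)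
      ((up.V w).comap (heckeBetaBar L (t4eLev N'' q i) q).toRingHom) :=
    t4es_tab_comap _ (up.t4es_tab hw) fun n hn =>
      ⟨n + 1, by omega, t4e_beta_deg L N'' q hn _, by rw [add_zero, t4es_exp_beta hw hn]⟩
  have h2 := lo.t4es_tab hw₀
  rw [← e] at h2
  rw [e, t4es_unique h2 h1 hw₀ (by omega)]

/-- **the Atkin–Lehner involution exchanges `V_w` and `V_{i-w}`** -/
theorem t4es_comap_w {i : ℕ} (Y : T4eLayer O π hπ N'' q i) (W : T4eAL L N'' q i) {w : ℕ}
    (hw : w ≤ i) :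
    (Y.V w).comap (W.w : ↥(TaF L (t4eLev N'' q i)) →+* ↥(TaF L (t4eLev N'' q i)))
      = Y.V (i - w) := by
  have hover : ((Y.V w).comap
      (W.w : ↥(TaF L (t4eLev N'' q i)) →+* ↥(TaF L (t4eLev N'' q i)))).comap
      (t4eDeg L N'' q i 0).toRingHom = taOv O π hπ N'' := by
    rw [← Y.lies_over w hw i le_rfl]
    ext f
    rw [ValuationSubring.mem_comap, ValuationSubring.mem_comap, ValuationSubring.mem_comap]
    show W.w (t4eDeg L N'' q i 0 f) ∈ _ ↔ _
    rw [W.w_a 0 (Nat.zero_le i) f, Nat.sub_zero]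
    rfl
  obtain ⟨w₀, hw₀, e⟩ := Y.complete _ hover
  have h1 : T4esTab L k N'' q i (i - w) 0 ((Y.V w).comap
      (W.w : ↥(TaF L (t4eLev N'' q i)) →+* ↥(TaF L (t4eLev N'' q i)))) :=
    t4es_tab_comap _ (Y.t4es_tab hw) fun n hn =>
      ⟨i - n, by omega, W.w_a n hn _, by
        rw [add_zero, add_zero, t4eExp_flip hw hn]⟩
  have h2 := Y.t4es_tab hw₀
  rw [← e] at h2
  rw [e, t4es_unique h2 h1 hw₀ (by omega)]

end Layer
end Tab

/-! ### Uniqueness of the residue maps -/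

section Frob2

variable {k : Type*} [Field k] (q : ℕ) [hq : Fact q.Prime] [CharP k q]

/-- the coefficientwise Frobenius preserves `k(j̄(𝔮^d) : d ∣ N)` -/
theorem t4es_frob_mem_full (N : ℕ) [NeZero N] {r : LaurentSeries k}
    (hr : r ∈ modularFunctionFieldFullC k N) :
    coeffMap (frobenius k q) r ∈ modularFunctionFieldFullC k N := by
  unfold modularFunctionFieldFullC at hr
  induction hr using IntermediateField.adjoin_induction with
  | mem x hx =>
    obtain ⟨d, hd0, hd, rfl⟩ := hx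
    rw [coeffMap_qExpand, coeffMap_jqModC]
    exact jqModCd_mem_full k N hd
  | algebraMap c =>
    rw [ta_algebraMap_eq_C, t4v_coeffMap_C, ← ta_algebraMap_eq_C]
    exact (modularFunctionFieldFullC k N).algebraMap_mem _
  | add x y _ _ hx hy =>
    rw [map_add]
    exact add_mem hx hy
  | inv x _ hx =>
    rw [map_inv₀]
    exact inv_mem hx
  | mul x y _ _ hx hy =>
    rw [map_mul]
    exact mul_mem hx hy

/-- `r^{q^e} = r'(𝔮^{q^e})` with `r' ∈ k(j̄(𝔮^d) : d ∣ N)` (`r'` is the `e`-fold coefficientwise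
Frobenius twist of `r`) -/
theorem t4es_pow_eq_qExpand (N : ℕ) [NeZero N] : ∀ (e : ℕ) {r : LaurentSeries k},
    r ∈ modularFunctionFieldFullC k N →
    haveI : NeZero (q ^ e) := ⟨pow_ne_zero _ hq.out.ne_zero⟩
    ∃ r' ∈ modularFunctionFieldFullC k N, r ^ (q ^ e) = qExpand k (q ^ e) r'
  | 0, r, hr => by
    haveI : NeZero (q ^ 0) := ⟨pow_ne_zero _ hq.out.ne_zero⟩
    refine ⟨r, hr, ?_⟩
    rw [qExpand_congr (pow_zero q) r, qExpand_one_apply, pow_zero, pow_one]
  | e + 1, r, hr => by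
    haveI : NeZero q := ⟨hq.out.ne_zero⟩
    haveI : NeZero (q ^ e) := ⟨pow_ne_zero _ hq.out.ne_zero⟩
    haveI : NeZero (q ^ (e + 1)) := ⟨pow_ne_zero _ hq.out.ne_zero⟩
    haveI : NeZero (q ^ e * q) := ⟨by rw [← pow_succ]; exact pow_ne_zero _ hq.out.ne_zero⟩
    obtain ⟨r', hr', e1⟩ := t4es_pow_eq_qExpand N e hr
    refine ⟨coeffMap (frobenius k q) r', t4es_frob_mem_full q N hr', ?_⟩
    have h0 : r ^ q ^ (e + 1) = (r ^ q ^ e) ^ q := by rw [← pow_mul, ← pow_succ]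
    rw [h0, e1, ← map_pow, tkr_pow_char q r', qExpand_qExpand]
    exact qExpand_congr (pow_succ q e).symm _

omit hq in
/-- the iterated Frobenius of `k((𝔮))` is injective -/
theorem t4es_pow_char_inj [hq' : Fact q.Prime] (e : ℕ) {a b : LaurentSeries k}
    (h : a ^ (q ^ e) = b ^ (q ^ e)) : a = b := by
  haveI : CharP (LaurentSeries k) q :=
    charP_of_injective_algebraMap (algebraMap k (LaurentSeries k)).injective q
  have h1 : (a - b) ^ (q ^ e) = 0 := by rw [sub_pow_char_pow, h, sub_self]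
  exact sub_eq_zero.mp (pow_eq_zero_iff (pow_ne_zero _ hq'.out.ne_zero) |>.mp h1)

end Frob2

section RhoExt

variable {L : Type} [Field L] [Algebra ℚ L] {k : Type*} [Field k] {N'' q : ℕ} [NeZero N''] [NeZero q]
  {O : ValuationSubring L} {π : ↥O →+* k} [IsDiscreteValuationRing ↥O]
  {hπ : Function.Surjective π} [hq : Fact q.Prime] [CharP k q] [IsAlgClosed k]

/-- **two residue maps of a valuation ring of `F_i` which agree (up to the shift `Φ^s`) on ONE
column `a_{n₀} F_0` of the table agree everywhere (up to `Φ^s`)**, provided the values of the second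
one lie in the residue function field `k(j̄(𝔮^d) : d ∣ N'')`: the residue field is purely inseparable
over the residue field of the column. -/
theorem t4es_rho_ext (hN : (N'' : k) ≠ 0) {i : ℕ}
    {V : ValuationSubring ↥(TaF L (t4eLev N'' q i))} (ρ₁ ρ₂ : ↥V →+* LaurentSeries k)
    (h₁ : ∀ x : ↥V, ρ₁ x = 0 ↔ V.valuation ((x : ↥V) : ↥(TaF L (t4eLev N'' q i))) < 1)
    (h₂ : ∀ x : ↥V, ρ₂ x = 0 ↔ V.valuation ((x : ↥V) : ↥(TaF L (t4eLev N'' q i))) < 1)
    (hr : ∀ x : ↥V, ∃ g : ↥(taOv O π hπ N''), ρ₂ x = taResN O π hπ N'' g)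
    {n₀ e s : ℕ}
    (hmem : ∀ f : ↥(TaF L N''), f ∈ taOv O π hπ N'' → t4eDeg L N'' q i n₀ f ∈ V)
    (ht₂ : ∀ (f : ↥(TaF L N'')) (hf : f ∈ taOv O π hπ N''),
      ρ₂ ⟨_, hmem f hf⟩ = qExpand k (q ^ e) (taResN O π hπ N'' ⟨f, hf⟩))
    (ht₁ : ∀ (f : ↥(TaF L N'')) (hf : f ∈ taOv O π hπ N''),
      ρ₁ ⟨_, hmem f hf⟩ = qExpand k (q ^ (e + s)) (taResN O π hπ N'' ⟨f, hf⟩))
    (x : ↥V) : ρ₁ x = qExpand k (q ^ s) (ρ₂ x) := by
  haveI : NeZero (q ^ e) := ⟨pow_ne_zero _ hq.out.ne_zero⟩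
  haveI : NeZero (q ^ s) := ⟨pow_ne_zero _ hq.out.ne_zero⟩
  haveI : NeZero (q ^ s * q ^ e) := ⟨mul_ne_zero (NeZero.ne _) (NeZero.ne _)⟩
  obtain ⟨g, hg⟩ := hr x
  obtain ⟨r', hr', e1⟩ := t4es_pow_eq_qExpand q N'' e (taResN_mem_full O π hπ N'' hN g)
  obtain ⟨g', hg'⟩ := exists_taResN_eq_of_mem_full O π hπ N'' hr'
  -- `x^{q^e} ≡ a_{n₀} g'`
  set y : ↥V := ⟨_, hmem g' g'.2⟩ with hy
  have hy₂ : ρ₂ y = ρ₂ (x ^ (q ^ e)) := by
    rw [map_pow, hg, e1, ← hg']
    exact ht₂ g' g'.2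
  have hker : ρ₁ (x ^ (q ^ e) - y) = 0 := by
    rw [h₁, ← h₂, map_sub, hy₂, sub_self]
  have hy₁ : ρ₁ (x ^ (q ^ e)) = ρ₁ y := by
    rw [map_sub] at hker
    exact sub_eq_zero.mp hker
  have h3 : ρ₁ y = qExpand k (q ^ (e + s)) (taResN O π hπ N'' ⟨g', g'.2⟩) := ht₁ g' g'.2
  have h4 : ρ₂ y = qExpand k (q ^ e) (taResN O π hπ N'' ⟨g', g'.2⟩) := ht₂ g' g'.2
  apply t4es_pow_char_inj q e
  calc ρ₁ x ^ (q ^ e) = ρ₁ y := by rw [← map_pow, hy₁]
    _ = qExpand k (q ^ s) (ρ₂ y) := by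
      rw [h3, h4, qExpand_qExpand]
      exact qExpand_congr (by rw [_root_.pow_add, mul_comm]) _
    _ = qExpand k (q ^ s) (ρ₂ x) ^ (q ^ e) := by rw [hy₂, map_pow, map_pow]

/-- **compatibility of the reductions of two layers along a field embedding `φ : F_i → F_{i'}`** with
`φ⁻¹ V'_{w'} = V_w`, from ONE column of the tables -/
theorem t4es_rho_comap (hN : (N'' : k) ≠ 0) {i i' : ℕ}
    (φ : ↥(TaF L (t4eLev N'' q i)) →+* ↥(TaF L (t4eLev N'' q i')))
    (Y : T4eLayer O π hπ N'' q i) (Y' : T4eLayer O π hπ N'' q i') {w w' s : ℕ}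
    (hw : w ≤ i) (hw' : w' ≤ i') (hV : (Y'.V w').comap φ = Y.V w) {n₀ m₀ : ℕ} (hn₀ : n₀ ≤ i)
    (hm₀ : m₀ ≤ i')
    (hφ : ∀ f : ↥(TaF L N''), φ (t4eDeg L N'' q i n₀ f) = t4eDeg L N'' q i' m₀ f)
    (hexp : t4eExp i' w' m₀ = t4eExp i w n₀ + s)
    (x : ↥(TaF L (t4eLev N'' q i))) (hx : x ∈ Y.V w) (hx' : φ x ∈ Y'.V w') :
    Y'.ρ w' ⟨_, hx'⟩ = qExpand k (q ^ s) (Y.ρ w ⟨x, hx⟩) := by
  have hmemφ : ∀ y ∈ Y.V w, φ y ∈ Y'.V w' := fun y hy => by
    rw [← hV] at hy
    exact hy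
  have key := t4es_rho_ext (O := O) (π := π) (hπ := hπ) hN
    ((Y'.ρ w').comp (φ.restrict (Y.V w) (Y'.V w') hmemφ)) (Y.ρ w)
    (fun y => by
      rw [RingHom.comp_apply, Y'.ρ_eq_zero w' hw', t4vr_valuation_lt_one_iff_of_comap φ hV]
      rfl)
    (Y.ρ_eq_zero w hw) (Y.ρ_range w hw) (n₀ := n₀) (e := t4eExp i w n₀) (s := s)
    (fun f hf => Y.a_mem w hw n₀ hn₀ f hf) (fun f hf => Y.ρ_a w hw n₀ hn₀ f hf)
    (fun f hf => by
      rw [RingHom.comp_apply]
      have h1 : φ.restrict (Y.V w) (Y'.V w') hmemφ ⟨_, Y.a_mem w hw n₀ hn₀ f hf⟩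
          = ⟨_, Y'.a_mem w' hw' m₀ hm₀ f hf⟩ := Subtype.ext (hφ f)
      rw [h1, Y'.ρ_a w' hw' m₀ hm₀ f hf]
      exact qExpand_congr (by rw [hexp]) _)
    ⟨x, hx⟩
  exact key

/-- **`ρ_α`** -/
theorem t4es_rho_alpha (hN : (N'' : k) ≠ 0) {i : ℕ} (lo : T4eLayer O π hπ N'' q i)
    (up : T4eLayer O π hπ N'' q (i + 1)) {w : ℕ} (hw : w ≤ i + 1)
    (x : ↥(TaF L (t4eLev N'' q i))) (hx : x ∈ lo.V (min w i))
    (hx' : heckeAlphaBar L (t4eLev N'' q i) q x ∈ up.V w) :
    up.ρ w ⟨_, hx'⟩ = qExpand k (q ^ t4eShiftA i w) (lo.ρ (min w i) ⟨x, hx⟩) := by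
  have hφ : ∀ f : ↥(TaF L N''), (heckeAlphaBar L (t4eLev N'' q i) q).toRingHom
      (t4eDeg L N'' q i 0 f) = t4eDeg L N'' q (i + 1) 0 f :=
    fun f => t4e_alpha_deg L N'' q (Nat.zero_le i) f
  have hx'' : (heckeAlphaBar L (t4eLev N'' q i) q).toRingHom x ∈ up.V w := hx'
  exact t4es_rho_comap (i := i) (i' := i + 1) (w := min w i) (w' := w) (s := t4eShiftA i w)
    (n₀ := 0) (m₀ := 0) hN (heckeAlphaBar L (t4eLev N'' q i) q).toRingHom lo up
    (Nat.min_le_right w i) hw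
    (t4es_comap_alpha lo up hw) (Nat.zero_le i) (Nat.zero_le (i + 1))
    hφ (t4es_exp_alpha hw (Nat.zero_le i)) x hx hx''

/-- **`ρ_β`** -/
theorem t4es_rho_beta (hN : (N'' : k) ≠ 0) {i : ℕ} (lo : T4eLayer O π hπ N'' q i)
    (up : T4eLayer O π hπ N'' q (i + 1)) {w : ℕ} (hw : w ≤ i + 1)
    (x : ↥(TaF L (t4eLev N'' q i))) (hx : x ∈ lo.V (w - 1))
    (hx' : heckeBetaBar L (t4eLev N'' q i) q x ∈ up.V w) :
    up.ρ w ⟨_, hx'⟩ = qExpand k (q ^ t4eShiftB i w) (lo.ρ (w - 1) ⟨x, hx⟩) := by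
  have hφ : ∀ f : ↥(TaF L N''), (heckeBetaBar L (t4eLev N'' q i) q).toRingHom
      (t4eDeg L N'' q i 0 f) = t4eDeg L N'' q (i + 1) (0 + 1) f :=
    fun f => t4e_beta_deg L N'' q (Nat.zero_le i) f
  have hx'' : (heckeBetaBar L (t4eLev N'' q i) q).toRingHom x ∈ up.V w := hx'
  exact t4es_rho_comap (i := i) (i' := i + 1) (w := w - 1) (w' := w) (s := t4eShiftB i w)
    (n₀ := 0) (m₀ := 0 + 1) hN (heckeBetaBar L (t4eLev N'' q i) q).toRingHom lo up
    (by omega) hw
    (t4es_comap_beta lo up hw) (Nat.zero_le i) (by omega)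
    hφ (t4es_exp_beta hw (Nat.zero_le i)) x hx hx''

/-- **the link between two consecutive layers is automatic** (given the degree) -/
theorem t4es_link (hN : (N'' : k) ≠ 0) {i : ℕ} (lo : T4eLayer O π hπ N'' q i)
    (up : T4eLayer O π hπ N'' q (i + 1))
    (hdeg : 1 ≤ i → @Module.finrank ↥(TaF L (t4eLev N'' q i)) ↥(TaF L (t4eLev N'' q (i + 1))) _ _
      (heckeAlphaBar L (t4eLev N'' q i) q).toRingHom.toAlgebra.toModule = q) :
    T4eLink lo up where
  comap_α := fun w hw => t4es_comap_alpha lo up hw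
  comap_β := fun w hw => t4es_comap_beta lo up hw
  ρ_α := fun w hw x hx hx' => t4es_rho_alpha hN lo up hw x hx hx'
  ρ_β := fun w hw x hx hx' => t4es_rho_beta hN lo up hw x hx hx'
  deg := hdeg

/-- **the symmetry of a layer under the Atkin–Lehner involution is automatic** -/
theorem t4es_sym (hN : (N'' : k) ≠ 0) {i : ℕ} (Y : T4eLayer O π hπ N'' q i)
    (W : T4eAL L N'' q i) : T4eSym Y W where
  comap_w := fun w hw => t4es_comap_w Y W hw
  ρ_w := fun w hw x hx hx' => by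
    have h := t4es_rho_comap hN
      (W.w : ↥(TaF L (t4eLev N'' q i)) →+* ↥(TaF L (t4eLev N'' q i))) Y Y (s := 0)
      (by omega : i - w ≤ i) hw (t4es_comap_w Y W hw) (Nat.zero_le i) (le_refl i)
      (fun f => by
        have := W.w_a 0 (Nat.zero_le i) f
        rwa [Nat.sub_zero] at this)
      (by rw [add_zero, t4eExp_flip hw (Nat.zero_le i), Nat.sub_zero]) x hx hx'
    haveI : NeZero (q ^ 0) := ⟨pow_ne_zero _ hq.out.ne_zero⟩
    rw [qExpand_congr (pow_zero q) _, qExpand_one_apply] at h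
    exact h

end RhoExt

end Fermat.Agent.T4
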