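/-
T4E (helper1), package P4 TOWER: **the degree `[F_i : a_0 F_0] = p^i + p^(i-1)` at the fixed-field
levels** `L_H = tbFix 𝔓 H` (from helper3's `t4e_finrank_lev`, `Top/Degree.lean`), i.e. the hypothesis
`hdeg` of `T4ePre.complete` (`Tower/Complete.lean`).

* `t4ek_psi_lev`: `ψ(N'' p^i) = ψ(N'') (p^i + p^(i-1))` for `p ∤ N''`, `i ≥ 1`;
* **`t4ek_finrank_fix`**: `Module.finrank F_0 F_i = p^i + p^(i-1)` (algebra structure `t4ebAlg`, along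
  `a_0`).
-/
import Fermat.Agent.Lib.T4E.Top.Degree
import Fermat.Agent.Lib.T4E.Tower.BaseLayer

set_option autoImplicit false
set_option linter.unusedSectionVars false
set_option linter.unusedVariables false
set_option linter.style.haveILetI false
set_option synthInstance.maxHeartbeats 400000

open HahnSeries ModularCurve IntermediateField Fermat.Agent.T1 Fermat.Agent.T2 Fermat.Agent.TW
  Fermat.Agent.Igusa

noncomputable section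

namespace Fermat.Agent.T4

theorem t4ek_dvd_lev (N'' q : ℕ) (i : ℕ) (hi : 1 ≤ i) : q ∣ t4eLev N'' q i := by
  obtain ⟨j, rfl⟩ : ∃ j, i = j + 1 := ⟨i - 1, by omega⟩
  rw [t4eLev_succ]
  exact Dvd.intro_left _ rfl

/-- `ψ(N'' p^i) = ψ(N'') (p^i + p^(i-1))` -/
theorem t4ek_psi_lev {N'' q : ℕ} [NeZero N''] [NeZero q] (hq : q.Prime) (hN'' : ¬ q ∣ N'') :
    ∀ i : ℕ, 1 ≤ i → dedekindPsi (t4eLev N'' q i) = dedekindPsi N'' * (q ^ i + q ^ (i - 1)) := by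
  intro i hi
  induction i, hi using Nat.le_induction with
  | base =>
    rw [t4eLev_succ, t4eLev_zero, igPsi_mul_prime_of_not_dvd hq hN'']
    norm_num
  | succ i hi ih =>
    rw [t4eLev_succ, igPsi_mul_prime_of_dvd hq (NeZero.ne _) (t4ek_dvd_lev N'' q i hi), ih,
      mul_assoc]
    congr 1
    rw [add_mul, ← pow_succ, ← pow_succ]
    congr 2
    omega

section Fix

variable (𝔓 : FFPlace) (H : Subgroup 𝔓.I) (N'' : ℕ) [NeZero N'']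

/-- **`[F_i : a_0 F_0] = p^i + p^(i-1)`** over `L_H` -/
theorem t4ek_finrank_fix (hN'' : ¬ 𝔓.p ∣ N'') (i : ℕ) (hi : 1 ≤ i) :
    haveI : NeZero 𝔓.p := ⟨𝔓.hp.ne_zero⟩
    letI := t4ebAlg ↥(tbFix 𝔓 H) N'' 𝔓.p i
    Module.finrank ↥(TaF ↥(tbFix 𝔓 H) N'') ↥(TaF ↥(tbFix 𝔓 H) (t4eLev N'' 𝔓.p i)) =
      𝔓.p ^ i + 𝔓.p ^ (i - 1) := by
  haveI : NeZero 𝔓.p := ⟨𝔓.hp.ne_zero⟩
  haveI : Fact 𝔓.p.Prime := ⟨𝔓.hp⟩
  letI := t4ebAlg ↥(tbFix 𝔓 H) N'' 𝔓.p i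
  have h1 := ta_finrank_tower (t4eDeg ↥(tbFix 𝔓 H) N'' 𝔓.p i 0) (taJ (L := ↥(tbFix 𝔓 H)) N'')
  rw [t4eDeg_zero_taJ] at h1
  have h2 := t4e_finrank_lev 𝔓 N'' H
  have h3 := t4e_finrank_lev 𝔓 (t4eLev N'' 𝔓.p i) H
  have h8 : 0 < dedekindPsi N'' := igPsi_pos (NeZero.ne N'')
  rw [h3, h2, t4ek_psi_lev 𝔓.hp hN'' i hi] at h1
  exact (Nat.eq_of_mul_eq_mul_left h8 h1).symm

end Fix

end Fermat.Agent.T4
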