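/-
T4E (helper1), package P4 TOWER: **the degree `[F_i : a_0 F_0] = q^i + q^(i-1)` over ANY field `L` of
characteristic zero** (from helper3's `t4e_finrank_gen`, `Top/DegreeGen.lean`), i.e. the hypothesis
`hdeg` of `T4ePre.complete` (`Tower/Complete.lean`) is free of charge in section Gen as well.

* **`t4ek_finrank_gen`**: `Module.finrank F_0 F_i = q^i + q^(i-1)` (algebra structure `t4ebAlg`, along
  `a_0`), `q` prime, `q ∤ N''`, `i ≥ 1`;
* `t4ek_finrank_gen_le`: the same as the inequality `≤` consumed by `T4ePre.complete`.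
-/
import Fermat.Agent.Lib.T4E.Top.DegreeGen
import Fermat.Agent.Lib.T4E.Tower.DegFix

set_option autoImplicit false
set_option linter.unusedSectionVars false
set_option linter.unusedVariables false
set_option linter.style.haveILetI false
set_option synthInstance.maxHeartbeats 400000

open HahnSeries ModularCurve IntermediateField Fermat.Agent.T1 Fermat.Agent.T2 Fermat.Agent.TW
  Fermat.Agent.Igusa

noncomputable section

namespace Fermat.Agent.T4

section Gen

variable (L : Type) [Field L] [Algebra ℚ L] (N'' q : ℕ) [NeZero N''] [NeZero q]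

/-- **`[F_i : a_0 F_0] = q^i + q^(i-1)`** over any field `L` of characteristic zero -/
theorem t4ek_finrank_gen (hq : q.Prime) (hN'' : ¬ q ∣ N'') (i : ℕ) (hi : 1 ≤ i) :
    letI := t4ebAlg L N'' q i
    Module.finrank ↥(TaF L N'') ↥(TaF L (t4eLev N'' q i)) = q ^ i + q ^ (i - 1) := by
  haveI : Fact q.Prime := ⟨hq⟩
  letI := t4ebAlg L N'' q i
  have h1 := ta_finrank_tower (t4eDeg L N'' q i 0) (taJ (L := L) N'')
  rw [t4eDeg_zero_taJ] at h1
  have h2 := t4e_finrank_gen L N''
  have h3 := t4e_finrank_gen L (t4eLev N'' q i)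
  have h8 : 0 < dedekindPsi N'' := igPsi_pos (NeZero.ne N'')
  rw [h3, h2, t4ek_psi_lev hq hN'' i hi] at h1
  exact (Nat.eq_of_mul_eq_mul_left h8 h1).symm

theorem t4ek_finrank_gen_le (hq : q.Prime) (hN'' : ¬ q ∣ N'') (i : ℕ) (hi : 1 ≤ i) :
    letI := t4ebAlg L N'' q i
    Module.finrank ↥(TaF L N'') ↥(TaF L (t4eLev N'' q i)) ≤ q ^ i + q ^ (i - 1) :=
  (t4ek_finrank_gen L N'' q hq hN'' i hi).le

end Gen

end Fermat.Agent.T4
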