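/-
T4E (helper1), package P4 TOWER, file (H1): **the Gauss valuation ring of `O'((𝔮))` pulled back along an
arbitrary embedding** `ι : F →+* L'((𝔮))` with values in `Frac O'((𝔮))`.  No modular curves inside.

Setting: `O'` a discrete valuation subring of `L'`, `π' : O' →+* k` onto, `F` a field,
`ι : F →+* LaurentSeries L'`, `hfrac : ∀ f, TaFrac O' (ι f)`.

* `t4egV O' π' hπ' ι hfrac : ValuationSubring F` (carrier `{f | TaGauss O' π' (ι f)}`), `mem_t4egV`;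
* `t4egRho … : ↥(t4egV …) →+* LaurentSeries k` (`= taRho ∘ ι`), `t4egRho_apply`,
  `t4egRho_inv_mem` (unit criterion), `t4egRho_eq_zero_iff : ρ x = 0 ↔ v x < 1`,
  `t4egRho_ne_zero_iff : ρ x ≠ 0 ↔ v x = 1`, `t4egRho_ker` (kernel `=` maximal ideal),
  `t4egRho_eq_iff`, values on constants `t4eg_const_mem`, `t4egRho_const`, on series with integral
  coefficients `t4eg_mem_of_eq_taInc`, `t4egRho_of_eq_taInc`;
* the DVR package relative to a uniformiser ELEMENT: `T4egUnif O' π' ι lam ϖ`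
  (`ι ϖ = C lam · u`, `u` a Gauss unit), constructor `t4egUnif_of_rho_ne_zero` (from `ρ u ≠ 0`);
  `T4egUnif.exists_zpow`, `.exists_zpow_val` (`f = ϖ ^ n * v`, `v v = 1`), `.dvr`, `.valuation_lt`,
  `.of_pow` (`ι c = C (lam ^ μ · U)`, `U` a unit of `O'` `⇒` `c = ϖ ^ μ · v`, `v v = 1`),
  `.rho_eq_zero_iff_dvd` (`ρ x = 0 ↔ ϖ ∣ x` in `V`), `.valuation_eq` (valuation from the
  `lam`-order of the image), `.niUnif : T4niUnif V.toSubring ϖ`;
* functoriality: `t4egV_comap` (comap along `φ : F₀ →+* F` is `t4egV` for `ι ∘ φ`), `t4egRho_comap`;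
* distinctness: `t4eg_ne_of_unit`, `t4eg_ne_of_rho`.
-/
import Fermat.Agent.Lib.T1.GoodRed.Gauss
import Fermat.Agent.Lib.T4.Inst.ValDvr
import Fermat.Agent.Lib.T4.New.Ord

set_option autoImplicit false
set_option linter.unusedSectionVars false
set_option linter.unusedVariables false
set_option linter.style.haveILetI false

open HahnSeries ModularCurve Fermat.Agent.T1

noncomputable section

namespace Fermat.Agent.T4

/-! ### Comparison of valuation subrings -/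

section Compare

variable {F : Type*} [Field F]

/-- a discrete valuation subring is a maximal proper subring: a valuation subring `W ≠ ⊤` containing
the discrete valuation subring `V` is equal to `V` -/
theorem t4eg_eq_of_le {V W : ValuationSubring F} [IsDiscreteValuationRing ↥V] (hle : V ≤ W)
    (hW : W ≠ ⊤) : V = W := by
  refine le_antisymm hle fun x hxW => ?_
  by_contra hxV
  apply hW
  obtain ⟨ϖ, hϖ⟩ := IsDiscreteValuationRing.exists_irreducible ↥V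
  have hϖ0 : (ϖ : F) ≠ 0 := fun h => hϖ.ne_zero (Subtype.ext h)
  have hx0 : x ≠ 0 := by
    rintro rfl
    exact hxV V.zero_mem
  have hxi : x⁻¹ ∈ V := (V.mem_or_inv_mem x).resolve_left hxV
  have hxi0 : (⟨x⁻¹, hxi⟩ : ↥V) ≠ 0 := fun h => inv_ne_zero hx0 (congrArg Subtype.val h)
  obtain ⟨n, u, e⟩ := IsDiscreteValuationRing.eq_unit_mul_pow_irreducible hxi0 hϖ
  have e' : x⁻¹ = ((u : ↥V) : F) * (ϖ : F) ^ n := by
    have := congrArg Subtype.val e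
    simpa using this
  have hu0 : ((u : ↥V) : F) ≠ 0 := fun h => u.ne_zero (Subtype.ext h)
  -- `n ≥ 1`, otherwise `x ∈ V`
  have hn : n ≠ 0 := by
    rintro rfl
    rw [pow_zero, mul_one] at e'
    apply hxV
    have h1 : x = (((u⁻¹ : (↥V)ˣ) : ↥V) : F) := by
      have h2 : ((u : ↥V) : F) * (((u⁻¹ : (↥V)ˣ) : ↥V) : F) = 1 := by
        have h4 : ((u : ↥V) * ((u⁻¹ : (↥V)ˣ) : ↥V) : ↥V) = 1 := u.mul_inv
        exact congrArg Subtype.val h4
      rw [← inv_inv x, e']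
      exact (eq_inv_of_mul_eq_one_right h2).symm
    rw [h1]
    exact (((u⁻¹ : (↥V)ˣ) : ↥V)).2
  obtain ⟨m, rfl⟩ : ∃ m, n = m + 1 := ⟨n - 1, by omega⟩
  -- `ϖ⁻¹ = x · u · ϖ ^ m ∈ W`
  have hϖi : (ϖ : F)⁻¹ ∈ W := by
    have h1 : (ϖ : F)⁻¹ = x * (((u : ↥V) : F) * (ϖ : F) ^ m) := by
      have h2 : x * x⁻¹ = 1 := mul_inv_cancel₀ hx0
      rw [e'] at h2
      rw [← mul_one (ϖ : F)⁻¹, ← h2, pow_succ]
      field_simp
    rw [h1]
    exact W.mul_mem _ _ hxW (hle (V.mul_mem _ _ (u : ↥V).2 (V.pow_mem ϖ.2 m)))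
  rw [eq_top_iff]
  intro y _
  by_cases hyV : y ∈ V
  · exact hle hyV
  · have hy0 : y ≠ 0 := by
      rintro rfl
      exact hyV V.zero_mem
    have hyi : y⁻¹ ∈ V := (V.mem_or_inv_mem y).resolve_left hyV
    have hyi0 : (⟨y⁻¹, hyi⟩ : ↥V) ≠ 0 := fun h => inv_ne_zero hy0 (congrArg Subtype.val h)
    obtain ⟨r, w, ey⟩ := IsDiscreteValuationRing.eq_unit_mul_pow_irreducible hyi0 hϖ
    have ey' : y⁻¹ = ((w : ↥V) : F) * (ϖ : F) ^ r := by
      have := congrArg Subtype.val ey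
      simpa using this
    have hw0 : ((w : ↥V) : F) ≠ 0 := fun h => w.ne_zero (Subtype.ext h)
    have h3 : y = (((w⁻¹ : (↥V)ˣ) : ↥V) : F) * ((ϖ : F)⁻¹) ^ r := by
      have h2 : ((w : ↥V) : F) * (((w⁻¹ : (↥V)ˣ) : ↥V) : F) = 1 := by
        have h4 : ((w : ↥V) * ((w⁻¹ : (↥V)ˣ) : ↥V) : ↥V) = 1 := w.mul_inv
        exact congrArg Subtype.val h4
      rw [← inv_inv y, ey', mul_inv, inv_pow, ← eq_inv_of_mul_eq_one_right h2]
    rw [h3]
    exact W.mul_mem _ _ (hle (((w⁻¹ : (↥V)ˣ) : ↥V)).2) (W.pow_mem hϖi r)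

/-- two valuation subrings are different as soon as some element is a unit in one and a non-unit in
the other -/
theorem t4eg_ne_of_unit {V₁ V₂ : ValuationSubring F} {x : F} (h1 : x⁻¹ ∈ V₁) (h2 : x⁻¹ ∉ V₂) :
    V₁ ≠ V₂ := fun h => h2 (h ▸ h1)

end Compare

section GaussVal

variable {L' : Type*} [Field L'] (O' : ValuationSubring L') [IsDiscreteValuationRing ↥O']
  {k : Type*} [Field k] (π' : ↥O' →+* k) (hπ' : Function.Surjective π')
  {F : Type*} [Field F] (ι : F →+* LaurentSeries L') (hfrac : ∀ f : F, TaFrac O' (ι f))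

/-- **the Gauss valuation ring of `F`** along the embedding `ι : F → Frac O'((𝔮))` -/
def t4egV : ValuationSubring F where
  toSubring := (taGaussSubring O' π').comap ι
  mem_or_inv_mem' := fun f => by
    obtain ⟨ϖ, hϖ⟩ := IsDiscreteValuationRing.exists_irreducible ↥O'
    rcases ta_gauss_or_inv hπ' hϖ (hfrac f) with h | h
    · exact Or.inl h
    · right
      show TaGauss O' π' (ι f⁻¹)
      rw [map_inv₀]
      exact h

theorem mem_t4egV (f : F) : f ∈ t4egV O' π' hπ' ι hfrac ↔ TaGauss O' π' (ι f) := Iff.rfl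

/-- the inclusion of `t4egV` into the Gauss subring of `L'((𝔮))` -/
def t4egIncl : ↥(t4egV O' π' hπ' ι hfrac) →+* ↥(taGaussSubring O' π') where
  toFun f := ⟨ι (f : F), f.2⟩
  map_one' := Subtype.ext (map_one ι)
  map_mul' x y := Subtype.ext (map_mul ι _ _)
  map_zero' := Subtype.ext (map_zero ι)
  map_add' x y := Subtype.ext (map_add ι _ _)

/-- **the residue map** `V → k((𝔮))` -/
def t4egRho : ↥(t4egV O' π' hπ' ι hfrac) →+* LaurentSeries k :=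
  (taRho O' π').comp (t4egIncl O' π' hπ' ι hfrac)

theorem t4egRho_apply (x : ↥(t4egV O' π' hπ' ι hfrac)) :
    t4egRho O' π' hπ' ι hfrac x = taRhoFun O' π' (ι (x : F)) := rfl

theorem t4egRho_mk {f : F} (hf : f ∈ t4egV O' π' hπ' ι hfrac) :
    t4egRho O' π' hπ' ι hfrac ⟨f, hf⟩ = taRhoFun O' π' (ι f) := rfl

theorem t4egRho_eq (x : ↥(t4egV O' π' hπ' ι hfrac)) {g h : LaurentSeries ↥O'}
    (hh : taRed π' h ≠ 0) (e : ι (x : F) * taInc O' h = taInc O' g) :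
    t4egRho O' π' hπ' ι hfrac x = taRed π' g / taRed π' h :=
  taRhoFun_eq O' π' hh e

/-- **unit criterion**: elements with non-zero residue are units of `V` -/
theorem t4egRho_inv_mem (x : ↥(t4egV O' π' hπ' ι hfrac))
    (hx : t4egRho O' π' hπ' ι hfrac x ≠ 0) : ((x : F))⁻¹ ∈ t4egV O' π' hπ' ι hfrac := by
  rw [mem_t4egV, map_inv₀]
  exact taGauss_inv_of_taRho_ne_zero O' π' (t4egIncl O' π' hπ' ι hfrac x) hx

/-- **`ρ x = 0 ↔ v x < 1`** -/
theorem t4egRho_eq_zero_iff (x : ↥(t4egV O' π' hπ' ι hfrac)) :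
    t4egRho O' π' hπ' ι hfrac x = 0 ↔ (t4egV O' π' hπ' ι hfrac).valuation (x : F) < 1 :=
  (t4vs_valuation_lt_one_iff_of_hom (t4egV O' π' hπ' ι hfrac) (t4egRho O' π' hπ' ι hfrac)
    (t4egRho_inv_mem O' π' hπ' ι hfrac) x).symm

theorem t4egRho_ne_zero_iff (x : ↥(t4egV O' π' hπ' ι hfrac)) :
    t4egRho O' π' hπ' ι hfrac x ≠ 0 ↔ (t4egV O' π' hπ' ι hfrac).valuation (x : F) = 1 := by
  rw [Ne, t4egRho_eq_zero_iff]
  have hle : (t4egV O' π' hπ' ι hfrac).valuation (x : F) ≤ 1 :=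
    ((t4egV O' π' hπ' ι hfrac).valuation_le_one_iff _).mpr x.2
  constructor
  · intro h
    exact le_antisymm hle (not_lt.mp h)
  · intro h
    rw [h]
    exact lt_irrefl _

/-- the kernel of the residue map is the maximal ideal -/
theorem t4egRho_ker : RingHom.ker (t4egRho O' π' hπ' ι hfrac) =
    IsLocalRing.maximalIdeal ↥(t4egV O' π' hπ' ι hfrac) := by
  ext x
  rw [RingHom.mem_ker, t4egRho_eq_zero_iff, IsLocalRing.mem_maximalIdeal, mem_nonunits_iff,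
    (t4egV O' π' hπ' ι hfrac).valuation_eq_one_iff]
  have hle : (t4egV O' π' hπ' ι hfrac).valuation (x : F) ≤ 1 :=
    ((t4egV O' π' hπ' ι hfrac).valuation_le_one_iff _).mpr x.2
  exact ⟨fun h => h.ne, fun h => lt_of_le_of_ne hle h⟩

/-- `ρ x = ρ y ↔ v (x - y) < 1` -/
theorem t4egRho_eq_iff (x y : ↥(t4egV O' π' hπ' ι hfrac)) :
    t4egRho O' π' hπ' ι hfrac x = t4egRho O' π' hπ' ι hfrac y ↔
      (t4egV O' π' hπ' ι hfrac).valuation ((x : F) - (y : F)) < 1 := by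
  rw [← sub_eq_zero, ← map_sub, t4egRho_eq_zero_iff]
  rfl

/-- the residue of a non-zero element of the field which is a unit of `V` is non-zero -/
theorem t4egRho_ne_zero_of_inv_mem {f : F} (hf0 : f ≠ 0) (hf : f ∈ t4egV O' π' hπ' ι hfrac)
    (hfi : f⁻¹ ∈ t4egV O' π' hπ' ι hfrac) : t4egRho O' π' hπ' ι hfrac ⟨f, hf⟩ ≠ 0 := by
  rw [t4egRho_ne_zero_iff]
  exact t4vs_valuation_unit _ hf0 hf hfi

/-! ### Values on series with integral coefficients -/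

theorem t4eg_mem_of_eq_taInc {f : F} {s : LaurentSeries ↥O'} (h : ι f = taInc O' s) :
    f ∈ t4egV O' π' hπ' ι hfrac := by
  rw [mem_t4egV, h]
  exact taGauss_taInc O' π' s

theorem t4egRho_of_eq_taInc {f : F} {s : LaurentSeries ↥O'} (h : ι f = taInc O' s) :
    t4egRho O' π' hπ' ι hfrac ⟨f, t4eg_mem_of_eq_taInc O' π' hπ' ι hfrac h⟩ = taRed π' s := by
  rw [t4egRho_eq O' π' hπ' ι hfrac _ (g := s) (h := 1) (by rw [map_one]; exact one_ne_zero)
    (by rw [map_one, mul_one]; exact h), map_one, div_one]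

theorem t4eg_const_mem {f : F} {a : ↥O'} (h : ι f = HahnSeries.C ((a : ↥O') : L')) :
    f ∈ t4egV O' π' hπ' ι hfrac :=
  t4eg_mem_of_eq_taInc O' π' hπ' ι hfrac (s := HahnSeries.C a) (by rw [h, taInc_C])

theorem t4egRho_const {f : F} {a : ↥O'} (h : ι f = HahnSeries.C ((a : ↥O') : L')) :
    t4egRho O' π' hπ' ι hfrac ⟨f, t4eg_const_mem O' π' hπ' ι hfrac h⟩ = HahnSeries.C (π' a) := by
  have h1 := t4egRho_of_eq_taInc O' π' hπ' ι hfrac (f := f) (s := HahnSeries.C a)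
    (by rw [h, taInc_C])
  rw [taRed_C] at h1
  exact h1

/-- the Gauss property of a constant of `O'` -/
theorem t4eg_gauss_C (a : ↥O') : TaGauss O' π' (HahnSeries.C ((a : ↥O') : L')) := by
  rw [← taInc_C]
  exact taGauss_taInc O' π' _

theorem t4eg_rhoFun_C (a : ↥O') :
    taRhoFun O' π' (HahnSeries.C ((a : ↥O') : L')) = HahnSeries.C (π' a) := by
  have h : (HahnSeries.C ((a : ↥O') : L') : LaurentSeries L') * taInc O' 1 =
      taInc O' (HahnSeries.C a) := by rw [map_one, mul_one, taInc_C]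
  rw [taRhoFun_eq O' π' (by rw [map_one]; exact one_ne_zero) h, map_one, div_one, taRed_C]

/-- the inverse of a unit constant -/
theorem t4eg_gauss_C_inv {a : ↥O'} (ha : IsUnit a) :
    TaGauss O' π' (HahnSeries.C ((a : ↥O') : L'))⁻¹ := by
  obtain ⟨b, hb⟩ := ha.exists_right_inv
  have h1 : ((a : ↥O') : L') * ((b : ↥O') : L') = 1 := congrArg Subtype.val hb
  have h2 : (HahnSeries.C ((a : ↥O') : L') : LaurentSeries L')⁻¹ =
      HahnSeries.C ((b : ↥O') : L') := by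
    rw [← map_inv₀]
    congr 1
    exact (eq_inv_of_mul_eq_one_right h1).symm
  rw [h2]
  exact t4eg_gauss_C O' π' b

/-! ### Gauss units -/

theorem t4eg_gauss_zpow {x : LaurentSeries L'} (hx : TaGauss O' π' x) (hxi : TaGauss O' π' x⁻¹)
    (m : ℤ) : TaGauss O' π' (x ^ m) := by
  cases m with
  | ofNat n =>
    rw [Int.ofNat_eq_natCast, zpow_natCast]
    exact (taGaussSubring O' π').pow_mem hx n
  | negSucc n =>
    rw [zpow_negSucc, ← inv_pow]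
    exact (taGaussSubring O' π').pow_mem hxi (n + 1)

include hπ' in
/-- an element of the Gauss ring divisible by the uniformiser has no Gauss-integral inverse -/
theorem t4eg_not_gauss_inv {lam : ↥O'} (hlam : Irreducible lam) {x y : LaurentSeries L'}
    (hy : TaGauss O' π' y) (hx : x = HahnSeries.C ((lam : ↥O') : L') * y) (hx0 : x ≠ 0) :
    ¬ TaGauss O' π' x⁻¹ := by
  intro h
  have hxG : TaGauss O' π' x := by
    rw [hx]
    exact (taGaussSubring O' π').mul_mem (t4eg_gauss_C O' π' lam) hy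
  have h1 : (⟨x, hxG⟩ : ↥(taGaussSubring O' π')) * ⟨x⁻¹, h⟩ = 1 :=
    Subtype.ext (mul_inv_cancel₀ hx0)
  have h0 : taRho O' π' ⟨x, hxG⟩ = 0 :=
    (taRho_eq_zero_iff hπ' hlam ⟨x, hxG⟩).mpr ⟨y, hy, hx⟩
  have h3 := congrArg (taRho O' π') h1
  rw [map_mul, h0, zero_mul, map_one] at h3
  exact zero_ne_one h3

/-! ### The DVR package relative to a uniformiser element -/

/-- `ϖ ∈ F` is a **Gauss uniformiser**: `ι ϖ = C lam · u` with `lam` a uniformiser of `O'` and `u` a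
unit of the Gauss ring of `L'((𝔮))` -/
structure T4egUnif (lam : ↥O') (ϖ : F) : Prop where
  irr : Irreducible lam
  ex : ∃ u : LaurentSeries L', u ≠ 0 ∧ TaGauss O' π' u ∧ TaGauss O' π' u⁻¹ ∧
    ι ϖ = HahnSeries.C ((lam : ↥O') : L') * u

variable {O' π' ι}

/-- constructor: `ι ϖ = C lam · u` with `u` Gauss-integral of non-zero residue -/
theorem t4egUnif_of_rho_ne_zero {lam : ↥O'} (hlam : Irreducible lam) {ϖ : F}
    {u : LaurentSeries L'} (hu : TaGauss O' π' u) (hρ : taRhoFun O' π' u ≠ 0)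
    (h : ι ϖ = HahnSeries.C ((lam : ↥O') : L') * u) : T4egUnif O' π' ι lam ϖ := by
  refine ⟨hlam, u, ?_, hu, ?_, h⟩
  · rintro rfl
    apply hρ
    have := map_zero (taRho O' π')
    exact this
  · exact taGauss_inv_of_taRho_ne_zero O' π' ⟨u, hu⟩ hρ

namespace T4egUnif

variable {lam : ↥O'} {ϖ : F} (H : T4egUnif O' π' ι lam ϖ)

include H

theorem C_lam_ne_zero : (HahnSeries.C ((lam : ↥O') : L') : LaurentSeries L') ≠ 0 :=
  ta_C_unif_ne_zero H.irr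

theorem ne_zero : ϖ ≠ 0 := by
  obtain ⟨u, hu0, hu, hui, e⟩ := H.ex
  rintro rfl
  rw [map_zero] at e
  exact mul_ne_zero H.C_lam_ne_zero hu0 e.symm

theorem mem : ϖ ∈ t4egV O' π' hπ' ι hfrac := by
  obtain ⟨u, hu0, hu, hui, e⟩ := H.ex
  rw [mem_t4egV, e]
  exact (taGaussSubring O' π').mul_mem (t4eg_gauss_C O' π' lam) hu

theorem inv_notMem : ϖ⁻¹ ∉ t4egV O' π' hπ' ι hfrac := by
  obtain ⟨u, hu0, hu, hui, e⟩ := H.ex
  intro h
  rw [mem_t4egV, map_inv₀] at h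
  refine t4eg_not_gauss_inv O' π' hπ' H.irr hu e ?_ h
  rw [Ne, map_eq_zero]
  exact H.ne_zero

/-- **every non-zero element of `F` is `ϖ ^ n · unit`** -/
theorem exists_zpow (f : F) (hf : f ≠ 0) :
    ∃ (n : ℤ) (v : F), v ∈ t4egV O' π' hπ' ι hfrac ∧ v⁻¹ ∈ t4egV O' π' hπ' ι hfrac ∧
      f = ϖ ^ n * v := by
  obtain ⟨u, hu0, hu, hui, e⟩ := H.ex
  have hne : ι f ≠ 0 := (map_ne_zero _).mpr hf
  obtain ⟨n, w, hw, hwi, ew⟩ := ta_exists_zpow_mul hπ' H.irr (hfrac f) hne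
  have hϖ0 := H.ne_zero
  have hP0 := H.C_lam_ne_zero
  have hι : ι ((ϖ ^ n)⁻¹ * f) = u ^ (-n) * w := by
    rw [map_mul, map_inv₀, map_zpow₀, e, ew, mul_zpow, zpow_neg]
    field_simp
  refine ⟨n, (ϖ ^ n)⁻¹ * f, ?_, ?_, ?_⟩
  · rw [mem_t4egV, hι]
    exact (taGaussSubring O' π').mul_mem (t4eg_gauss_zpow O' π' hu hui (-n)) hw
  · rw [mem_t4egV, map_inv₀, hι, mul_inv, ← zpow_neg, neg_neg]
    exact (taGaussSubring O' π').mul_mem (t4eg_gauss_zpow O' π' hu hui n) hwi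
  · rw [← mul_assoc, mul_inv_cancel₀ (zpow_ne_zero n hϖ0), one_mul]

/-- the same with `v v = 1` (the shape of `T4eLayer.ϖ_unif`) -/
theorem exists_zpow_val (f : F) (hf : f ≠ 0) :
    ∃ (n : ℤ) (v : F), (t4egV O' π' hπ' ι hfrac).valuation v = 1 ∧ f = ϖ ^ n * v := by
  obtain ⟨n, v, hv, hvi, e⟩ := H.exists_zpow hπ' hfrac f hf
  have hv0 : v ≠ 0 := by
    rintro rfl
    rw [mul_zero] at e
    exact hf e
  exact ⟨n, v, t4vs_valuation_unit _ hv0 hv hvi, e⟩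

/-- the uniformiser predicate of `T4/New/Ord.lean` -/
theorem niUnif : T4niUnif (t4egV O' π' hπ' ι hfrac).toSubring ϖ :=
  ⟨H.mem hπ' hfrac, H.inv_notMem hπ' hfrac, H.exists_zpow hπ' hfrac⟩

/-- **`V` is a discrete valuation ring** -/
theorem dvr : IsDiscreteValuationRing ↥(t4egV O' π' hπ' ι hfrac) :=
  t4vs_dvr_of_decomp _ (H.mem hπ' hfrac) (H.inv_notMem hπ' hfrac) (H.exists_zpow hπ' hfrac)

theorem valuation_lt : (t4egV O' π' hπ' ι hfrac).valuation ϖ < 1 :=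
  t4vs_valuation_lt_one _ (H.mem hπ' hfrac) (H.inv_notMem hπ' hfrac)

/-- the uniformiser as an element of `V` is irreducible -/
theorem irreducible : Irreducible (⟨ϖ, H.mem hπ' hfrac⟩ : ↥(t4egV O' π' hπ' ι hfrac)) := by
  haveI := H.dvr hπ' hfrac
  set V := t4egV O' π' hπ' ι hfrac with hV
  set p : ↥V := ⟨ϖ, H.mem hπ' hfrac⟩ with hp
  have hp0 : p ≠ 0 := fun h => H.ne_zero (congrArg Subtype.val h)
  have hnu : ¬ IsUnit p := by
    intro hu
    obtain ⟨b, hb⟩ := hu.exists_right_inv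
    have h1 : ϖ * (b : F) = 1 := congrArg Subtype.val hb
    apply H.inv_notMem hπ' hfrac
    rw [← eq_inv_of_mul_eq_one_right h1]
    exact b.2
  -- `p = ϖ₀ ^ m · unit` for an irreducible `ϖ₀`; `ϖ₀ = p ^ n · unit` in `F`; so `m n = 1`
  obtain ⟨ϖ₀, h₀⟩ := IsDiscreteValuationRing.exists_irreducible ↥V
  have h₀0 : (ϖ₀ : F) ≠ 0 := fun h => h₀.ne_zero (Subtype.ext h)
  obtain ⟨n, v, hv, hvi, e⟩ := H.exists_zpow hπ' hfrac (ϖ₀ : F) h₀0
  have hv0 : v ≠ 0 := by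
    rintro rfl
    rw [mul_zero] at e
    exact h₀0 e
  have hn : 0 ≤ n := t4vs_exponent_nonneg V (H.mem hπ' hfrac) (H.inv_notMem hπ' hfrac) h₀0 ϖ₀.2
    hv hvi e
  obtain ⟨m, rfl⟩ := Int.eq_ofNat_of_zero_le hn
  have hvu : IsUnit (⟨v, hv⟩ : ↥V) :=
    isUnit_iff_exists_inv.mpr ⟨⟨v⁻¹, hvi⟩, Subtype.ext (mul_inv_cancel₀ hv0)⟩
  have e' : ϖ₀ = p ^ m * ⟨v, hv⟩ := by
    apply Subtype.ext
    rw [e, zpow_natCast]
    rfl
  rcases Nat.eq_zero_or_pos m with hm | hm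
  · exfalso
    rw [hm, pow_zero, one_mul] at e'
    exact h₀.not_isUnit (e' ▸ hvu)
  · obtain ⟨m', rfl⟩ : ∃ m', m = m' + 1 := ⟨m - 1, by omega⟩
    have e'' : ϖ₀ = p * (p ^ m' * ⟨v, hv⟩) := by
      rw [e', pow_succ]
      ring
    have hu2 : IsUnit (p ^ m' * (⟨v, hv⟩ : ↥V)) := (h₀.isUnit_or_isUnit e'').resolve_left hnu
    have hass : Associated p ϖ₀ := ⟨hu2.unit, by rw [IsUnit.unit_spec]; exact e''.symm⟩
    exact hass.irreducible_iff.mpr h₀

/-- **the valuation from the `lam`-order of the image**: `ι c = C lam ^ n · w`, `w` a Gauss unit `⇒`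
`c = ϖ ^ n · v` with `v` a unit of `V` -/
theorem of_zpow_mul {c : F} {n : ℤ} {w : LaurentSeries L'} (hw0 : w ≠ 0) (hw : TaGauss O' π' w)
    (hwi : TaGauss O' π' w⁻¹) (hc : ι c = HahnSeries.C ((lam : ↥O') : L') ^ n * w) :
    ∃ v : F, v ∈ t4egV O' π' hπ' ι hfrac ∧ v⁻¹ ∈ t4egV O' π' hπ' ι hfrac ∧
      (t4egV O' π' hπ' ι hfrac).valuation v = 1 ∧ c = ϖ ^ n * v := by
  obtain ⟨u, hu0, hu, hui, e⟩ := H.ex
  have hϖ0 := H.ne_zero
  have hP0 := H.C_lam_ne_zero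
  have hι : ι ((ϖ ^ n)⁻¹ * c) = u ^ (-n) * w := by
    rw [map_mul, map_inv₀, map_zpow₀, e, hc, mul_zpow, zpow_neg]
    field_simp
  have hc0 : c ≠ 0 := by
    rintro rfl
    rw [map_zero] at hc
    exact mul_ne_zero (zpow_ne_zero n hP0) hw0 hc.symm
  have h1 : (ϖ ^ n)⁻¹ * c ∈ t4egV O' π' hπ' ι hfrac := by
    rw [mem_t4egV, hι]
    exact (taGaussSubring O' π').mul_mem (t4eg_gauss_zpow O' π' hu hui (-n)) hw
  have h2 : ((ϖ ^ n)⁻¹ * c)⁻¹ ∈ t4egV O' π' hπ' ι hfrac := by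
    rw [mem_t4egV, map_inv₀, hι, mul_inv, ← zpow_neg, neg_neg]
    exact (taGaussSubring O' π').mul_mem (t4eg_gauss_zpow O' π' hu hui n) hwi
  have h0 : (ϖ ^ n)⁻¹ * c ≠ 0 := mul_ne_zero (inv_ne_zero (zpow_ne_zero n hϖ0)) hc0
  refine ⟨(ϖ ^ n)⁻¹ * c, h1, h2, t4vs_valuation_unit _ h0 h1 h2, ?_⟩
  rw [← mul_assoc, mul_inv_cancel₀ (zpow_ne_zero n hϖ0), one_mul]

/-- `ι c = C (lam ^ μ · U)`, `U` a unit of `O'` `⇒` `c = ϖ ^ μ · v`, `v v = 1`
(the shape of `T4eLayer.q_eq`: `c = q`, `μ = φ(q^b)`) -/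
theorem of_pow {c : F} {μ : ℕ} {U : ↥O'} (hU : IsUnit U)
    (hc : ι c = HahnSeries.C (((lam : ↥O') : L') ^ μ * ((U : ↥O') : L'))) :
    ∃ v : F, (t4egV O' π' hπ' ι hfrac).valuation v = 1 ∧ c = ϖ ^ μ * v := by
  have hU0 : (HahnSeries.C ((U : ↥O') : L') : LaurentSeries L') ≠ 0 := by
    rw [Ne, map_eq_zero]
    exact fun h => hU.ne_zero (Subtype.ext h)
  obtain ⟨v, -, -, hv, e⟩ := H.of_zpow_mul hπ' hfrac (c := c) (n := (μ : ℤ)) hU0
    (t4eg_gauss_C O' π' U) (t4eg_gauss_C_inv O' π' hU)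
    (by rw [hc, map_mul, map_pow, zpow_natCast])
  exact ⟨v, hv, by rw [e, zpow_natCast]⟩

/-- the valuation of an element whose image has `lam`-order `n` -/
theorem valuation_eq {c : F} {n : ℤ} {w : LaurentSeries L'} (hw0 : w ≠ 0) (hw : TaGauss O' π' w)
    (hwi : TaGauss O' π' w⁻¹) (hc : ι c = HahnSeries.C ((lam : ↥O') : L') ^ n * w) :
    (t4egV O' π' hπ' ι hfrac).valuation c = (t4egV O' π' hπ' ι hfrac).valuation ϖ ^ n := by
  obtain ⟨v, -, -, hv, e⟩ := H.of_zpow_mul hπ' hfrac hw0 hw hwi hc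
  rw [e, map_mul, map_zpow₀, hv, mul_one]

/-- another Gauss uniformiser differs from `ϖ` by a unit of `V` -/
theorem valuation_eq_of_unif {ϖ' : F} (H' : T4egUnif O' π' ι lam ϖ') :
    (t4egV O' π' hπ' ι hfrac).valuation ϖ' = (t4egV O' π' hπ' ι hfrac).valuation ϖ := by
  obtain ⟨u, hu0, hu, hui, e⟩ := H'.ex
  have h := H.valuation_eq hπ' hfrac (c := ϖ') (n := 1) hu0 hu hui (by rw [zpow_one]; exact e)
  rw [zpow_one] at h
  exact h

theorem ne_top : t4egV O' π' hπ' ι hfrac ≠ ⊤ := fun h =>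
  H.inv_notMem hπ' hfrac (h ▸ ValuationSubring.mem_top _)

/-- a discrete valuation subring of `F` contained in `V` is equal to `V` -/
theorem eq_of_le {V₀ : ValuationSubring F} [IsDiscreteValuationRing ↥V₀]
    (hle : V₀ ≤ t4egV O' π' hπ' ι hfrac) : V₀ = t4egV O' π' hπ' ι hfrac :=
  t4eg_eq_of_le hle (H.ne_top hπ' hfrac)

/-- the maximal ideal of `V` is generated by `ϖ` -/
theorem maximalIdeal_eq : IsLocalRing.maximalIdeal ↥(t4egV O' π' hπ' ι hfrac) =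
    Ideal.span {(⟨ϖ, H.mem hπ' hfrac⟩ : ↥(t4egV O' π' hπ' ι hfrac))} := by
  haveI := H.dvr hπ' hfrac
  exact (H.irreducible hπ' hfrac).maximalIdeal_eq

/-- **`ρ x = 0 ↔ ϖ ∣ x` in `V`** -/
theorem rho_eq_zero_iff_dvd (x : ↥(t4egV O' π' hπ' ι hfrac)) :
    t4egRho O' π' hπ' ι hfrac x = 0 ↔
      ∃ y : ↥(t4egV O' π' hπ' ι hfrac), (x : F) = ϖ * (y : F) := by
  rw [← RingHom.mem_ker, t4egRho_ker, H.maximalIdeal_eq hπ' hfrac, Ideal.mem_span_singleton]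
  constructor
  · rintro ⟨y, rfl⟩
    exact ⟨y, rfl⟩
  · rintro ⟨y, e⟩
    exact ⟨y, Subtype.ext e⟩

end T4egUnif

/-! ### Functoriality -/

section Comap

variable {F₀ : Type*} [Field F₀] (φ : F₀ →+* F)

/-- the comap along a field embedding `φ : F₀ → F` is the Gauss valuation ring of `ι ∘ φ` -/
theorem t4egV_comap : (t4egV O' π' hπ' ι hfrac).comap φ =
    t4egV O' π' hπ' (ι.comp φ) (fun f => hfrac (φ f)) := rfl

theorem t4egRho_comap {x : F₀} (hx : φ x ∈ t4egV O' π' hπ' ι hfrac) :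
    t4egRho O' π' hπ' (ι.comp φ) (fun f => hfrac (φ f)) ⟨x, hx⟩ =
      t4egRho O' π' hπ' ι hfrac ⟨φ x, hx⟩ := rfl

theorem t4egUnif_comp_iff {lam : ↥O'} {ϖ₀ : F₀} :
    T4egUnif O' π' (ι.comp φ) lam ϖ₀ ↔ T4egUnif O' π' ι lam (φ ϖ₀) :=
  ⟨fun h => ⟨h.irr, h.ex⟩, fun h => ⟨h.irr, h.ex⟩⟩

end Comap

/-- two embeddings which agree give the same valuation ring -/
theorem t4egV_congr {ι₂ : F →+* LaurentSeries L'} (h : ι = ι₂) :
    t4egV O' π' hπ' ι hfrac = t4egV O' π' hπ' ι₂ (fun f => h ▸ hfrac f) := by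
  subst h
  rfl

end GaussVal

section Distinct

variable {L₁ : Type*} [Field L₁] (O₁ : ValuationSubring L₁) [IsDiscreteValuationRing ↥O₁]
  {L₂ : Type*} [Field L₂] (O₂ : ValuationSubring L₂) [IsDiscreteValuationRing ↥O₂]
  {k : Type*} [Field k] (π₁ : ↥O₁ →+* k) (hπ₁ : Function.Surjective π₁)
  (π₂ : ↥O₂ →+* k) (hπ₂ : Function.Surjective π₂)
  {F : Type*} [Field F] (ι₁ : F →+* LaurentSeries L₁) (hfrac₁ : ∀ f : F, TaFrac O₁ (ι₁ f))
  (ι₂ : F →+* LaurentSeries L₂) (hfrac₂ : ∀ f : F, TaFrac O₂ (ι₂ f))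

/-- two Gauss valuation rings of `F` are different as soon as some element has a non-zero residue
for one and a zero residue for the other -/
theorem t4eg_ne_of_rho {x : F} (hx0 : x ≠ 0) (hx₁ : x ∈ t4egV O₁ π₁ hπ₁ ι₁ hfrac₁)
    (hx₂ : x ∈ t4egV O₂ π₂ hπ₂ ι₂ hfrac₂) (h₁ : t4egRho O₁ π₁ hπ₁ ι₁ hfrac₁ ⟨x, hx₁⟩ ≠ 0)
    (h₂ : t4egRho O₂ π₂ hπ₂ ι₂ hfrac₂ ⟨x, hx₂⟩ = 0) :
    t4egV O₁ π₁ hπ₁ ι₁ hfrac₁ ≠ t4egV O₂ π₂ hπ₂ ι₂ hfrac₂ := by
  refine t4eg_ne_of_unit (x := x) (t4egRho_inv_mem O₁ π₁ hπ₁ ι₁ hfrac₁ ⟨x, hx₁⟩ h₁) ?_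
  intro hxi
  exact t4egRho_ne_zero_of_inv_mem O₂ π₂ hπ₂ ι₂ hfrac₂ hx0 hx₂ hxi h₂

end Distinct

end Fermat.Agent.T4
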