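/-
T4E (helper1), package P4 TOWER, file (H2): **completeness of a fibre by counting**, in the shape consumed
by the tower (on top of helper7's counting criterion `t4e_compl_of_count`, `Lib/T4E/Norm/Compl.lean`).

`K ⊆ F` finite (`char 0`), `R` a discrete valuation subring of `K`, `W : ι → ValuationSubring F` a finite
family of pairwise distinct discrete valuation subrings with `(W j).comap (algebraMap K F) = R`,
uniformiser ELEMENTS `π ∈ K`, `ϖ j ∈ F` (`T4niUnif`), `π = ϖ j ^ e j · unit`, elements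
`y j b ∈ W j` (`b < f j`) which are *residually independent* over `R` (`T4ekIndep`: an `R`-linear
combination of the `y j b` of valuation `< 1` has all its coefficients of valuation `< 1`), and
`[F : K] ≤ n ≤ ∑ e j · f j` (`structure T4ekData`).  Conclusions:

* `T4ekData.finrank_eq : [F : K] = n`, `T4ekData.sum_eq : ∑ e j · f j = n`;
* `T4ekData.fam : T4vnFam R ι F` with `fam_V : fam.V = W` (the family is complete);
* `T4ekData.exhaust`: every valuation subring of `F` with comap `R` is some `W j`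
  (general form `t4ek_exists_eq_of_fam` for any `T4vnFam`);
* `T4ekData.vnVal_pi : t4vnVal (W j) π = exp (-(e j))`, `T4ekData.f_eq : fam.f j = f j`;
* `T4ekData.span`: the residue field of `W j` is generated by the residues of the `y j b`.

Tools: `t4ek_indep_one` (the family `{1}` is residually independent), `t4ek_indep_of_rho` (residual
independence from residue maps `ρ_R`, `ρ_j` compatible along a field homomorphism),
`t4ekIncl`, the residue field extension `t4ekResAlgebra`.
-/
import Fermat.Agent.Lib.T4E.Norm.Compl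
import Fermat.Agent.Lib.T4E.Norm.Forms
import Fermat.Agent.Lib.T4E.Tower.GaussVal

set_option autoImplicit false
set_option linter.unusedSectionVars false
set_option linter.unusedVariables false
set_option linter.style.haveILetI false

open Function IsDedekindDomain WithZero Fermat.Agent.T3 Fermat.Agent.T4E

noncomputable section

namespace Fermat.Agent.T4

section Single

variable {K F : Type*} [Field K] [Field F] [Algebra K F]
  {R : ValuationSubring K} {W : ValuationSubring F}

/-- **residual independence** over `R` of a finite family of elements of `W`: an `R`-linear combination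
of valuation `< 1` has all its coefficients of valuation `< 1` -/
def T4ekIndep (R : ValuationSubring K) (W : ValuationSubring F) {m : ℕ} (y : Fin m → F) : Prop :=
  (∀ b, y b ∈ W) ∧ ∀ r : Fin m → K, (∀ b, r b ∈ R) →
    W.valuation (∑ b, algebraMap K F (r b) * y b) < 1 → ∀ b, R.valuation (r b) < 1

theorem t4ek_mem_of_comap (hW : W.comap (algebraMap K F) = R) {r : K} (hr : r ∈ R) :
    algebraMap K F r ∈ W := by
  rw [← hW] at hr
  exact hr

theorem t4ek_mem_iff (hW : W.comap (algebraMap K F) = R) (x : K) :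
    algebraMap K F x ∈ W ↔ x ∈ R := by
  rw [← hW]
  rfl

theorem t4ek_valuation_lt_iff (hW : W.comap (algebraMap K F) = R) (r : K) :
    W.valuation (algebraMap K F r) < 1 ↔ R.valuation r < 1 := by
  rcases eq_or_ne r 0 with rfl | hr0
  · simp
  have h1 : ∀ x : K, algebraMap K F x ∈ W ↔ x ∈ R := fun x => by rw [← hW]; rfl
  rw [← not_le, ← not_le, not_iff_not]
  have h2 : (1 : _) ≤ W.valuation (algebraMap K F r) ↔ (algebraMap K F r)⁻¹ ∈ W := by
    rw [← W.valuation_le_one_iff, map_inv₀, inv_le_one₀]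
    exact zero_lt_iff.mpr ((Valuation.ne_zero_iff _).mpr (by rwa [Ne, map_eq_zero]))
  have h3 : (1 : _) ≤ R.valuation r ↔ r⁻¹ ∈ R := by
    rw [← R.valuation_le_one_iff, map_inv₀, inv_le_one₀]
    exact zero_lt_iff.mpr ((Valuation.ne_zero_iff _).mpr hr0)
  rw [h2, h3, ← map_inv₀, h1]

/-- the family `{1}` is residually independent -/
theorem t4ek_indep_one (hW : W.comap (algebraMap K F) = R) :
    T4ekIndep R W (fun _ : Fin 1 => (1 : F)) := by
  refine ⟨fun _ => W.one_mem, fun r hr h b => ?_⟩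
  rw [Fin.sum_univ_one, mul_one, t4ek_valuation_lt_iff hW] at h
  have : b = 0 := Subsingleton.elim _ _
  rw [this]
  exact h

/-- residual independence from residue maps: `ρ_R`, `ρ_W` ring homomorphisms to fields with
`ρ = 0 ↔ v < 1`, compatible along `φ`, such that the `ρ_W (y b)` are linearly independent over
`φ (ρ_R R)` -/
theorem t4ek_indep_of_rho (hW : W.comap (algebraMap K F) = R) {κ κ' : Type*} [Field κ] [Field κ']
    (ρR : ↥R →+* κ) (hρR : ∀ r : ↥R, ρR r = 0 ↔ R.valuation (r : K) < 1)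
    (ρW : ↥W →+* κ') (hρW : ∀ x : ↥W, ρW x = 0 ↔ W.valuation (x : F) < 1) (φ : κ →+* κ')
    (hcomp : ∀ r : ↥R, ρW ⟨algebraMap K F (r : K), t4ek_mem_of_comap hW r.2⟩ = φ (ρR r))
    {m : ℕ} (y : Fin m → F) (hy : ∀ b, y b ∈ W)
    (hind : ∀ r : Fin m → ↥R, ∑ b, φ (ρR (r b)) * ρW ⟨y b, hy b⟩ = 0 → ∀ b, ρR (r b) = 0) :
    T4ekIndep R W y := by
  refine ⟨hy, fun r hr h b => ?_⟩
  have hmem : ∀ b, algebraMap K F (r b) * y b ∈ W := fun b =>
    W.mul_mem _ _ (t4ek_mem_of_comap hW (hr b)) (hy b)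
  have hsum : ∑ b, algebraMap K F (r b) * y b ∈ W := W.toSubring.sum_mem fun b _ => hmem b
  have h0 := (hρW ⟨_, hsum⟩).mpr h
  have h1 : (⟨∑ b, algebraMap K F (r b) * y b, hsum⟩ : ↥W) =
      ∑ b, (⟨algebraMap K F (r b), t4ek_mem_of_comap hW (hr b)⟩ : ↥W) * ⟨y b, hy b⟩ := by
    apply Subtype.ext
    rw [show ((∑ b, (⟨algebraMap K F (r b), t4ek_mem_of_comap hW (hr b)⟩ : ↥W) * ⟨y b, hy b⟩ : ↥W) : F)
      = W.subtype (∑ b, (⟨algebraMap K F (r b), t4ek_mem_of_comap hW (hr b)⟩ : ↥W) * ⟨y b, hy b⟩)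
      from rfl, map_sum]
    rfl
  rw [h1, map_sum] at h0
  have h2 := hind (fun b => ⟨r b, hr b⟩) (by
    rw [← h0]
    refine Finset.sum_congr rfl fun b _ => ?_
    rw [map_mul, ← hcomp])
  exact (hρR ⟨r b, hr b⟩).mp (h2 b)

/-! ### The residue field extension -/

/-- the inclusion `R → W` -/
def t4ekIncl (hW : W.comap (algebraMap K F) = R) : ↥R →+* ↥W :=
  ((algebraMap K F).comp R.subtype).codRestrict W.toSubring fun r => t4ek_mem_of_comap hW r.2

theorem coe_t4ekIncl (hW : W.comap (algebraMap K F) = R) (r : ↥R) :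
    ((t4ekIncl hW r : ↥W) : F) = algebraMap K F (r : K) := rfl

theorem t4ekIncl_isLocalHom (hW : W.comap (algebraMap K F) = R) : IsLocalHom (t4ekIncl hW) := by
  refine ⟨fun r hr => ?_⟩
  obtain ⟨b, hb⟩ := isUnit_iff_exists_inv.mp hr
  have h1 : algebraMap K F (r : K) * (b : F) = 1 := congrArg Subtype.val hb
  have hr0 : (r : K) ≠ 0 := by
    intro h0
    rw [h0, map_zero, zero_mul] at h1
    exact zero_ne_one h1
  have h2 : (b : F) = algebraMap K F ((r : K)⁻¹) := by
    rw [map_inv₀]
    exact eq_inv_of_mul_eq_one_right h1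
  have h3 : (r : K)⁻¹ ∈ R := by
    rw [← t4ek_mem_iff hW, ← h2]
    exact b.2
  exact isUnit_iff_exists_inv.mpr ⟨⟨(r : K)⁻¹, h3⟩, Subtype.ext (mul_inv_cancel₀ hr0)⟩

end Single

section Count

variable {K F : Type*} [Field K] [Field F] [Algebra K F] [FiniteDimensional K F] [CharZero K]
  {R : ValuationSubring K} [IsDiscreteValuationRing R]

attribute [local instance] t4vnS_isDedekindDomain t4vnS_isFractionRing t4vnS_moduleFinite
  t4vnS_isTorsionFree t4vnR_perfectField t4vnS_fintype

/-- **exhaustion from completeness**: every valuation subring of `F` lying over `R` is a member of a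
complete family -/
theorem t4ek_exists_eq_of_fam {ι : Type*} (𝒱 : T4vnFam R ι F) (W : ValuationSubring F)
    (hW : W.comap (algebraMap K F) = R) : ∃ j, W = 𝒱.V j := by
  classical
  -- the integral closure lies in `W`
  have hS : ∀ s : t4vnS F R, (s : F) ∈ W := by
    intro s
    obtain ⟨p, hp, hp0⟩ := s.2
    have h1 : IsIntegral ↥W (s : F) := by
      refine ⟨p.map (t4ekIncl hW), hp.map _, ?_⟩
      rw [Polynomial.eval₂_map]
      exact hp0
    obtain ⟨g, hg⟩ := IsIntegrallyClosed.isIntegral_iff.mp h1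
    rw [← hg]
    exact g.2
  let toW : t4vnS F R →+* ↥W := (algebraMap (t4vnS F R) F).codRestrict W.toSubring hS
  -- the centre of `W`
  obtain ⟨π, hπ⟩ := IsDiscreteValuationRing.exists_irreducible ↥R
  have hπ0 : (π : K) ≠ 0 := fun h => hπ.ne_zero (Subtype.ext h)
  have hπlt : R.valuation (π : K) < 1 := by
    rw [← R.valuation_lt_one_iff, IsLocalRing.mem_maximalIdeal, mem_nonunits_iff]
    exact hπ.not_isUnit
  have hπW : W.valuation (algebraMap K F (π : K)) < 1 := (t4ek_valuation_lt_iff hW _).mpr hπlt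
  have hne : Ideal.comap toW (IsLocalRing.maximalIdeal ↥W) ≠ ⊥ := by
    intro hbot
    have hmem : algebraMap ↥R (t4vnS F R) π ∈ Ideal.comap toW (IsLocalRing.maximalIdeal ↥W) := by
      rw [Ideal.mem_comap, W.valuation_lt_one_iff]
      exact hπW
    rw [hbot, Ideal.mem_bot] at hmem
    have h2 : ((algebraMap ↥R (t4vnS F R) π : t4vnS F R) : F) = 0 := by rw [hmem]; rfl
    have h3 : ((algebraMap ↥R (t4vnS F R) π : t4vnS F R) : F) = algebraMap K F (π : K) := rfl
    rw [h3, map_eq_zero] at h2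
    exact hπ0 h2
  let Q : HeightOneSpectrum (t4vnS F R) :=
    ⟨Ideal.comap toW (IsLocalRing.maximalIdeal ↥W), Ideal.comap_isPrime _ _, hne⟩
  obtain ⟨j, hj⟩ := 𝒱.centre_surjective Q
  refine ⟨j, (t4eg_eq_of_le (V := 𝒱.V j) (W := W) ?_ ?_).symm⟩
  · intro x hx
    have h1 : (𝒱.centre j).valuation F x ≤ 1 := by
      rw [𝒱.centre_valuation, t4vnVal_le_one_iff]
      exact hx
    rw [hj] at h1
    obtain ⟨n, d, hnd⟩ := Q.exists_primeCompl_mul_eq_of_integer x h1
    have hd : (d : t4vnS F R) ∉ Q.asIdeal := d.2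
    have hdu : IsUnit (toW (d : t4vnS F R)) := by
      by_contra hnu
      exact hd hnu
    obtain ⟨b, hb⟩ := isUnit_iff_exists_inv.mp hdu
    have h2 : (((d : t4vnS F R) : t4vnS F R) : F) * (b : F) = 1 := congrArg Subtype.val hb
    have h3 : x = (n : F) * (b : F) := by
      have h4 : x * (((d : t4vnS F R) : t4vnS F R) : F) = (n : F) := hnd
      rw [← h4, mul_assoc, h2, mul_one]
    rw [h3]
    exact W.mul_mem _ _ (hS n) b.2
  · intro htop
    have h1 : ((π : K))⁻¹ ∈ R := by
      rw [← t4ek_mem_iff hW, htop]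
      exact ValuationSubring.mem_top _
    apply hπ.not_isUnit
    exact isUnit_iff_exists_inv.mpr ⟨⟨_, h1⟩, Subtype.ext (mul_inv_cancel₀ hπ0)⟩

/-! ### One discrete valuation subring over `R` -/

section One

variable (W : ValuationSubring F) [IsDiscreteValuationRing W] (hW : W.comap (algebraMap K F) = R)

include hW

theorem t4ek_le (r : ↥R) : algebraMap ↥R F r ∈ W := t4ek_mem_of_comap hW r.2

/-- the residue field extension of `W / R` -/
@[reducible] def t4ekResAlgebra :
    Algebra (IsLocalRing.ResidueField ↥R) (IsLocalRing.ResidueField ↥W) :=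
  haveI := t4ekIncl_isLocalHom hW
  (IsLocalRing.ResidueField.map (t4ekIncl hW)).toAlgebra

theorem t4ek_res_comp (r : ↥R) :
    IsLocalRing.residue ↥W ⟨algebraMap ↥R F r, t4ek_le W hW r⟩ =
      letI := t4ekResAlgebra W hW
      algebraMap (IsLocalRing.ResidueField ↥R) (IsLocalRing.ResidueField ↥W)
        (IsLocalRing.residue ↥R r) := rfl

/-- the residue degree is the inertia degree of the centre (helper7), hence positive -/
theorem t4ek_finrank_res :
    letI := t4ekResAlgebra W hW
    (t4vnCentre R W (t4ek_le W hW)).asIdeal.inertiaDeg ↥R =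
      Module.finrank (IsLocalRing.ResidueField ↥R) (IsLocalRing.ResidueField ↥W) := by
  letI := t4ekResAlgebra W hW
  exact t4e_inertiaDeg_centre W (t4ek_le W hW) (IsLocalRing.residue ↥R)
    IsLocalRing.residue_surjective (IsLocalRing.residue ↥W) IsLocalRing.residue_surjective
    (t4ek_res_comp W hW)

theorem t4ek_finite_res :
    letI := t4ekResAlgebra W hW
    Module.Finite (IsLocalRing.ResidueField ↥R) (IsLocalRing.ResidueField ↥W) := by
  letI := t4ekResAlgebra W hW
  apply Module.finite_of_finrank_pos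
  rw [← t4ek_finrank_res W hW]
  haveI : (t4vnCentre R W (t4ek_le W hW)).asIdeal.IsPrime := (t4vnCentre R W (t4ek_le W hW)).isPrime
  exact Ideal.inertiaDeg_pos (t4vnCentre R W (t4ek_le W hW)).asIdeal ↥R

/-- a residually independent family gives a linearly independent family of residues -/
theorem t4ek_linearIndependent {m : ℕ} {y : Fin m → F} (hy : T4ekIndep R W y) :
    letI := t4ekResAlgebra W hW
    LinearIndependent (IsLocalRing.ResidueField ↥R)
      (fun b => IsLocalRing.residue ↥W ⟨y b, hy.1 b⟩) := by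
  letI := t4ekResAlgebra W hW
  rw [Fintype.linearIndependent_iff]
  intro g hg b
  choose r hr using fun b => IsLocalRing.residue_surjective (g b)
  have h1 : IsLocalRing.residue ↥W (∑ b, t4ekIncl hW (r b) * ⟨y b, hy.1 b⟩) = 0 := by
    rw [map_sum, ← hg]
    refine Finset.sum_congr rfl fun b _ => ?_
    rw [map_mul, Algebra.smul_def, ← hr b]
    rfl
  have h2 : W.valuation ((∑ b, t4ekIncl hW (r b) * ⟨y b, hy.1 b⟩ : ↥W) : F) < 1 := by
    rw [← W.valuation_lt_one_iff, ← IsLocalRing.residue_eq_zero_iff]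
    exact h1
  have h3 : ((∑ b, t4ekIncl hW (r b) * ⟨y b, hy.1 b⟩ : ↥W) : F) =
      ∑ b, algebraMap K F ((r b : ↥R) : K) * y b := by
    rw [show ((∑ b, t4ekIncl hW (r b) * ⟨y b, hy.1 b⟩ : ↥W) : F) =
      W.subtype (∑ b, t4ekIncl hW (r b) * ⟨y b, hy.1 b⟩) from rfl, map_sum]
    rfl
  rw [h3] at h2
  have h4 := hy.2 (fun b => ((r b : ↥R) : K)) (fun b => (r b).2) h2 b
  rw [← hr b, IsLocalRing.residue_eq_zero_iff, R.valuation_lt_one_iff]
  exact h4

theorem t4ek_le_finrank {m : ℕ} {y : Fin m → F} (hy : T4ekIndep R W y) :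
    letI := t4ekResAlgebra W hW
    m ≤ Module.finrank (IsLocalRing.ResidueField ↥R) (IsLocalRing.ResidueField ↥W) := by
  letI := t4ekResAlgebra W hW
  haveI := t4ek_finite_res W hW
  have h := (t4ek_linearIndependent W hW hy).fintype_card_le_finrank
  rwa [Fintype.card_fin] at h

end One

section Unif

variable (W : ValuationSubring F) [IsDiscreteValuationRing W]

/-- the normalised valuation of `c = ϖ ^ e · unit` -/
theorem t4ek_vnVal_of_ram {ϖ : F} (hϖ : T4niUnif W.toSubring ϖ) {c : F} {e : ℕ}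
    (hc : ∃ u : F, W.valuation u = 1 ∧ c = ϖ ^ e * u) :
    t4vnVal W c = exp (-(e : ℤ)) := by
  obtain ⟨u, hu, rfl⟩ := hc
  rw [map_mul, map_pow, (t4vnVal_eq_one_iff W u).mpr hu, mul_one, t4e_vnVal_unif W hϖ,
    ← exp_nsmul]
  congr 1
  simp

/-- the uniformiser predicate from the valuation form (`T4eLayer.ϖ_lt`, `T4eLayer.ϖ_unif`) -/
theorem t4ek_niUnif_of_val {ϖ : F} (hlt : W.valuation ϖ < 1)
    (hun : ∀ f : F, f ≠ 0 → ∃ (n : ℤ) (u : F), W.valuation u = 1 ∧ f = ϖ ^ n * u) :
    T4niUnif W.toSubring ϖ := by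
  have hunit : ∀ u : F, W.valuation u = 1 → u ∈ W ∧ u⁻¹ ∈ W := by
    intro u hu
    constructor
    · rw [← W.valuation_le_one_iff, hu]
    · rw [← W.valuation_le_one_iff, map_inv₀, hu, inv_one]
  have hϖ0 : ϖ ≠ 0 := by
    rintro rfl
    obtain ⟨t, ht⟩ := IsDiscreteValuationRing.exists_irreducible ↥W
    have ht0 : (t : F) ≠ 0 := fun h => ht.ne_zero (Subtype.ext h)
    obtain ⟨n, u, hu, e⟩ := hun (t : F) ht0
    have hn : n = 0 := by
      by_contra hn
      rw [zero_zpow n hn, zero_mul] at e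
      exact ht0 e
    rw [hn, zpow_zero, one_mul] at e
    apply ht.not_isUnit
    rw [W.valuation_eq_one_iff, e]
    exact hu
  refine ⟨?_, ?_, fun f hf => ?_⟩
  · show ϖ ∈ W
    rw [← W.valuation_le_one_iff]
    exact hlt.le
  · show ϖ⁻¹ ∉ W
    rw [← W.valuation_le_one_iff, map_inv₀, not_le]
    exact one_lt_inv_iff₀.mpr ⟨zero_lt_iff.mpr ((Valuation.ne_zero_iff _).mpr hϖ0), hlt⟩
  · obtain ⟨n, u, hu, e⟩ := hun f hf
    exact ⟨n, u, (hunit u hu).1, (hunit u hu).2, e⟩

end Unif

/-! ### The counting criterion in tower form -/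

section Data

variable {ι : Type*} [Fintype ι]

/-- **the counting data** of a fibre: pairwise distinct discrete valuation subrings `W j` of `F` lying
over `R`, uniformiser elements `π`, `ϖ j`, ramification indices `e j` (`π = ϖ j ^ e j · unit`),
residually independent families `y j` of cardinality `f j`, and `[F : K] ≤ n ≤ ∑ e j · f j` -/
structure T4ekData (R : ValuationSubring K) (W : ι → ValuationSubring F) (π : K) (ϖ : ι → F)
    (e f : ι → ℕ) (y : ∀ j, Fin (f j) → F) (n : ℕ) : Prop where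
  dvr : ∀ j, IsDiscreteValuationRing ↥(W j)
  inj : Function.Injective W
  comap : ∀ j, (W j).comap (algebraMap K F) = R
  unifR : T4niUnif R.toSubring π
  unif : ∀ j, T4niUnif (W j).toSubring (ϖ j)
  ram : ∀ j, ∃ u : F, (W j).valuation u = 1 ∧ algebraMap K F π = ϖ j ^ e j * u
  indep : ∀ j, T4ekIndep R (W j) (y j)
  deg_le : Module.finrank K F ≤ n
  count : n ≤ ∑ j, e j * f j

namespace T4ekData

variable {W : ι → ValuationSubring F} {π : K} {ϖ : ι → F} {e f : ι → ℕ}
  {y : ∀ j, Fin (f j) → F} {n : ℕ} (D : T4ekData R W π ϖ e f y n)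

include D

theorem le (j : ι) (r : ↥R) : algebraMap ↥R F r ∈ W j := t4ek_mem_of_comap (D.comap j) r.2

theorem vnVal_piR : t4vnVal R π = exp (-1 : ℤ) := t4e_vnVal_unif R D.unifR

theorem vnVal_pi (j : ι) : haveI := D.dvr j
    t4vnVal (W j) (algebraMap K F π) = exp (-(e j : ℤ)) :=
  haveI := D.dvr j
  t4ek_vnVal_of_ram (W j) (D.unif j) (D.ram j)

/-- the residue degrees are at least `f j` -/
theorem f_le (j : ι) : haveI := D.dvr j
    letI := t4ekResAlgebra (W j) (D.comap j)
    f j ≤ Module.finrank (IsLocalRing.ResidueField ↥R) (IsLocalRing.ResidueField ↥(W j)) :=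
  haveI := D.dvr j
  t4ek_le_finrank (W j) (D.comap j) (D.indep j)

theorem count' : haveI := D.dvr
    letI := fun j => t4ekResAlgebra (W j) (D.comap j)
    Module.finrank K F ≤ ∑ j, e j *
      Module.finrank (IsLocalRing.ResidueField ↥R) (IsLocalRing.ResidueField ↥(W j)) := by
  haveI := D.dvr
  letI := fun j => t4ekResAlgebra (W j) (D.comap j)
  refine D.deg_le.trans (D.count.trans (Finset.sum_le_sum fun j _ => ?_))
  exact Nat.mul_le_mul_left _ (D.f_le j)

/-- **the complete family** -/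
def fam : T4vnFam R ι F :=
  haveI := D.dvr
  letI := fun j => t4ekResAlgebra (W j) (D.comap j)
  t4eFamOfCount W D.inj D.le (IsLocalRing.residue ↥R) IsLocalRing.residue_surjective
    (fun j => IsLocalRing.residue ↥(W j)) (fun j => IsLocalRing.residue_surjective)
    (fun j => t4ek_res_comp (W j) (D.comap j)) D.vnVal_piR e D.vnVal_pi D.count'

theorem fam_V : D.fam.V = W := rfl

/-- **exhaustion**: every valuation subring of `F` lying over `R` is some `W j` -/
theorem exhaust (W' : ValuationSubring F) (hW' : W'.comap (algebraMap K F) = R) :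
    ∃ j, W' = W j :=
  t4ek_exists_eq_of_fam D.fam W' hW'

/-- the residue degree of the family is the degree of the residue field extension -/
theorem fam_f (j : ι) : haveI := D.dvr j
    letI := t4ekResAlgebra (W j) (D.comap j)
    D.fam.f j =
      Module.finrank (IsLocalRing.ResidueField ↥R) (IsLocalRing.ResidueField ↥(W j)) :=
  haveI := D.dvr j
  t4ek_finrank_res (W j) (D.comap j)

theorem sum_fam : ∑ j, e j * D.fam.f j = Module.finrank K F :=
  D.fam.sum_e_mul_f D.vnVal_piR e D.vnVal_pi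

theorem f_le_fam (j : ι) : f j ≤ D.fam.f j := by
  rw [D.fam_f j]
  exact D.f_le j

/-- **`∑ e j · f j = n`** -/
theorem sum_eq : ∑ j, e j * f j = n := by
  apply le_antisymm _ D.count
  calc ∑ j, e j * f j ≤ ∑ j, e j * D.fam.f j :=
        Finset.sum_le_sum fun j _ => Nat.mul_le_mul_left _ (D.f_le_fam j)
    _ = Module.finrank K F := D.sum_fam
    _ ≤ n := D.deg_le

/-- **`[F : K] = n`** -/
theorem finrank_eq : Module.finrank K F = n := by
  apply le_antisymm D.deg_le
  calc n ≤ ∑ j, e j * f j := D.count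
    _ ≤ ∑ j, e j * D.fam.f j :=
        Finset.sum_le_sum fun j _ => Nat.mul_le_mul_left _ (D.f_le_fam j)
    _ = Module.finrank K F := D.sum_fam

theorem e_pos (j : ι) : 0 < e j := D.fam.e_pos D.vnVal_piR e D.vnVal_pi j

/-- **the residue degrees are exactly the `f j`** -/
theorem f_eq (j : ι) : D.fam.f j = f j := by
  have h1 : ∑ j, e j * f j = ∑ j, e j * D.fam.f j := by
    rw [D.sum_eq, D.sum_fam, D.finrank_eq]
  have hle : ∀ j ∈ Finset.univ, e j * f j ≤ e j * D.fam.f j := fun j _ =>
    Nat.mul_le_mul_left _ (D.f_le_fam j)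
  have h2 := (Finset.sum_eq_sum_iff_of_le hle).mp h1 j (Finset.mem_univ j)
  exact (Nat.eq_of_mul_eq_mul_left (D.e_pos j) h2).symm

theorem finrank_res (j : ι) : haveI := D.dvr j
    letI := t4ekResAlgebra (W j) (D.comap j)
    Module.finrank (IsLocalRing.ResidueField ↥R) (IsLocalRing.ResidueField ↥(W j)) = f j := by
  rw [← D.fam_f j, D.f_eq j]

/-- **the residue field of `W j` is generated over that of `R` by the residues of the `y j b`**:
every element of `W j` is congruent to an `R`-linear combination of the `y j b` -/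
theorem span (j : ι) (x : F) (hx : x ∈ W j) :
    ∃ r : Fin (f j) → K, (∀ b, r b ∈ R) ∧
      (W j).valuation (x - ∑ b, algebraMap K F (r b) * y j b) < 1 := by
  haveI := D.dvr j
  letI := t4ekResAlgebra (W j) (D.comap j)
  haveI := t4ek_finite_res (W j) (D.comap j)
  have hli := t4ek_linearIndependent (W j) (D.comap j) (D.indep j)
  have hcard : Fintype.card (Fin (f j)) =
      Module.finrank (IsLocalRing.ResidueField ↥R) (IsLocalRing.ResidueField ↥(W j)) := by
    rw [Fintype.card_fin, D.finrank_res j]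
  have hspan := hli.span_eq_top_of_card_eq_finrank' hcard
  have hmem : IsLocalRing.residue ↥(W j) ⟨x, hx⟩ ∈
      Submodule.span (IsLocalRing.ResidueField ↥R)
        (Set.range fun b => IsLocalRing.residue ↥(W j) ⟨y j b, (D.indep j).1 b⟩) := by
    rw [hspan]
    exact Submodule.mem_top
  obtain ⟨g, hg⟩ := (Submodule.mem_span_range_iff_exists_fun _).mp hmem
  choose r hr using fun b => IsLocalRing.residue_surjective (g b)
  refine ⟨fun b => ((r b : ↥R) : K), fun b => (r b).2, ?_⟩
  have h1 : IsLocalRing.residue ↥(W j)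
      (⟨x, hx⟩ - ∑ b, t4ekIncl (D.comap j) (r b) * ⟨y j b, (D.indep j).1 b⟩) = 0 := by
    rw [map_sub, map_sum, ← hg, sub_eq_zero]
    refine Finset.sum_congr rfl fun b _ => ?_
    rw [map_mul, Algebra.smul_def, ← hr b]
    rfl
  rw [IsLocalRing.residue_eq_zero_iff, (W j).valuation_lt_one_iff] at h1
  have h3 : ((⟨x, hx⟩ - ∑ b, t4ekIncl (D.comap j) (r b) * ⟨y j b, (D.indep j).1 b⟩ : ↥(W j)) : F)
      = x - ∑ b, algebraMap K F ((r b : ↥R) : K) * y j b := by
    rw [show ((⟨x, hx⟩ - ∑ b, t4ekIncl (D.comap j) (r b) * ⟨y j b, (D.indep j).1 b⟩ : ↥(W j)) : F)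
      = (W j).subtype (⟨x, hx⟩ - ∑ b, t4ekIncl (D.comap j) (r b) * ⟨y j b, (D.indep j).1 b⟩)
      from rfl, map_sub, map_sum]
    rfl
  rw [h3] at h1
  exact h1

/-- the same in terms of residue maps -/
theorem span_rho (j : ι) {κ κ' : Type*} [Field κ] [Field κ'] (ρR : ↥R →+* κ)
    (ρW : ↥(W j) →+* κ') (hρW : ∀ x : ↥(W j), ρW x = 0 ↔ (W j).valuation (x : F) < 1)
    (φ : κ →+* κ')
    (hcomp : ∀ r : ↥R, ρW ⟨algebraMap K F (r : K), t4ek_mem_of_comap (D.comap j) r.2⟩ = φ (ρR r))
    (x : ↥(W j)) :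
    ∃ r : Fin (f j) → ↥R, ρW x = ∑ b, φ (ρR (r b)) * ρW ⟨y j b, (D.indep j).1 b⟩ := by
  obtain ⟨r, hr, h⟩ := D.span j (x : F) x.2
  refine ⟨fun b => ⟨r b, hr b⟩, ?_⟩
  have hsum : ∑ b, algebraMap K F (r b) * y j b ∈ W j := (W j).toSubring.sum_mem fun b _ =>
    (W j).mul_mem _ _ (t4ek_mem_of_comap (D.comap j) (hr b)) ((D.indep j).1 b)
  have h0 := (hρW (x - ⟨_, hsum⟩)).mpr h
  rw [map_sub, sub_eq_zero] at h0
  rw [h0]
  have h1 : (⟨∑ b, algebraMap K F (r b) * y j b, hsum⟩ : ↥(W j)) =
      ∑ b, (⟨algebraMap K F (r b), t4ek_mem_of_comap (D.comap j) (hr b)⟩ : ↥(W j)) *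
        ⟨y j b, (D.indep j).1 b⟩ := by
    apply Subtype.ext
    rw [show ((∑ b, (⟨algebraMap K F (r b), t4ek_mem_of_comap (D.comap j) (hr b)⟩ : ↥(W j)) *
        ⟨y j b, (D.indep j).1 b⟩ : ↥(W j)) : F)
      = (W j).subtype (∑ b, (⟨algebraMap K F (r b), t4ek_mem_of_comap (D.comap j) (hr b)⟩ :
        ↥(W j)) * ⟨y j b, (D.indep j).1 b⟩) from rfl, map_sum]
    rfl
  rw [h1, map_sum]
  refine Finset.sum_congr rfl fun b _ => ?_
  rw [map_mul, ← hcomp]

end T4ekData

end Data

end Count

end Fermat.Agent.T4
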