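/-
T4E (helper1), package P4 TOWER: **completeness of the vertical layer by the GLOBAL count over `F_0`**.

`T4ePre O π hπ N'' q i` is the part of `T4eLayer` which is read off the embedding records (the `i + 1`
valuation rings `V w`, discreteness, distinctness, `lies_over`, uniformisers, multiplicities, reductions
and the residue table), WITHOUT completeness.  For `n₀ ∈ {0, i}` (any `n₀ ≤ i` in fact), `F_i` is an
extension of `F_0` along `a_{n₀}`; over the Gauss valuation ring `taOv N''` of `F_0` the component `w`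
has ramification index `μ_w = φ(q^min(w, i-w))` (`q = ϖ_w ^ μ_w · unit`) and its residue field contains
`1, j̄, …, j̄^(q^x - 1)`, `x = t4eExp i w n₀`, linearly independent over `Φ^x(Ē)` (`t2kr_indep`), where
`j̄ = ρ_w (a_m j)` for an `m` with `t4eExp i w m = 0`.  Hence, if
`[F_i : a_{n₀} F_0] ≤ ∑_w μ_w q^(t4eExp i w n₀)`, the counting criterion (`T4ekData.exhaust`) shows that
every valuation ring of `F_i` over `taOv N''` along `a_{n₀}` is one of the `V w`.

* `t4ek_sum_mult`, `t4ek_sum_mult_top`: `∑_w μ_w q^(t4eExp i w 0) = ∑_w μ_w q^(t4eExp i w i)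
  = q^i + q^(i-1)` (`i ≥ 1`);
* `T4ePre`, `T4ePre.ofLayer`;
* `T4ePre.data` (the counting data), **`T4ePre.complete_of_deg`** (general `n₀`), `T4ePre.complete`
  (`n₀ = 0`, finite-dimensionality discharged), `T4ePre.finrank_eq_of_deg`;
* `T4ePre.complete_top_of_sym`: completeness along `a_i` from completeness along `a_0` and the
  Atkin–Lehner symmetry.
-/
import Fermat.Agent.Lib.T4E.Tower.Count
import Fermat.Agent.Lib.T4E.Tower.BaseLayer
import Fermat.Agent.Lib.T2.Inst.KronSer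

set_option autoImplicit false
set_option linter.unusedSectionVars false
set_option linter.unusedVariables false
set_option linter.style.haveILetI false

open HahnSeries ModularCurve Fermat.Agent.T1 Fermat.Agent.T2 IntermediateField

noncomputable section

namespace Fermat.Agent.T4

/-! ### The degree of the special fibre -/

section Sum

variable {q : ℕ}

theorem t4ek_mult_self (i : ℕ) : t4eMult q i i = 1 := by
  unfold t4eMult
  rw [Nat.sub_self, Nat.min_zero, pow_zero, Nat.totient_one]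

theorem t4ek_mult_zero (i : ℕ) : t4eMult q i 0 = 1 := by
  unfold t4eMult
  rw [Nat.zero_min, pow_zero, Nat.totient_one]

theorem t4ek_mult_symm {i w : ℕ} (hw : w ≤ i) : t4eMult q i (i - w) = t4eMult q i w := by
  unfold t4eMult
  rw [Nat.sub_sub_self hw, Nat.min_comm]

/-- the term of the component `w` of the degree of the special fibre (along `a_0`) -/
def t4ekTerm (q i w : ℕ) : ℕ := t4eMult q i w * q ^ ((i - w) - w)

theorem t4ekTerm_self (i : ℕ) : t4ekTerm q i i = 1 := by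
  unfold t4ekTerm
  rw [t4ek_mult_self, Nat.sub_self, Nat.zero_sub, pow_zero, mul_one]

theorem t4ekTerm_succ_of_lt (hq : q.Prime) {i w : ℕ} (hw : w < i) :
    t4ekTerm q (i + 1) w = q * t4ekTerm q i w := by
  unfold t4ekTerm t4eMult
  rcases le_or_gt (2 * w) i with h | h
  · -- `b ≥ a`
    have h1 : min w (i + 1 - w) = w := by omega
    have h2 : min w (i - w) = w := by omega
    have h3 : (i + 1 - w) - w = ((i - w) - w) + 1 := by omega
    rw [h1, h2, h3, pow_succ]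
    ring
  · -- `1 ≤ b < a`
    have h1 : min w (i + 1 - w) = (i - w - 1) + 1 + 1 := by omega
    have h2 : min w (i - w) = (i - w - 1) + 1 := by omega
    have h3 : (i + 1 - w) - w = 0 := by omega
    have h4 : (i - w) - w = 0 := by omega
    rw [h1, h2, h3, h4, pow_zero, mul_one, mul_one, Nat.totient_prime_pow_succ hq,
      Nat.totient_prime_pow_succ hq, pow_succ]
    ring

theorem t4ekTerm_succ_self (hq : q.Prime) {i : ℕ} (hi : 1 ≤ i) : t4ekTerm q (i + 1) i = q - 1 := by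
  unfold t4ekTerm t4eMult
  have h1 : min i (i + 1 - i) = 1 := by omega
  have h3 : (i + 1 - i) - i = 0 := by omega
  rw [h1, h3, pow_zero, mul_one, pow_one, Nat.totient_prime hq]

/-- **`∑_w φ(q^min(w, i-w)) q^max(i-2w, 0) = q^i + q^(i-1)`** -/
theorem t4ek_sum_term (hq : q.Prime) : ∀ i : ℕ, 1 ≤ i →
    ∑ w ∈ Finset.range (i + 1), t4ekTerm q i w = q ^ i + q ^ (i - 1) := by
  intro i hi
  induction i, hi using Nat.le_induction with
  | base =>
    rw [Finset.sum_range_succ, Finset.sum_range_one, t4ekTerm_self]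
    unfold t4ekTerm
    rw [t4ek_mult_zero]
    norm_num
  | succ i hi ih =>
    rw [Finset.sum_range_succ, t4ekTerm_self] at ih
    rw [Finset.sum_range_succ, Finset.sum_range_succ, t4ekTerm_self, t4ekTerm_succ_self hq hi,
      Finset.sum_congr rfl (fun w hw => t4ekTerm_succ_of_lt hq (Finset.mem_range.mp hw)),
      ← Finset.mul_sum]
    have hq1 : 1 ≤ q := hq.one_lt.le
    have h1 : q * ∑ w ∈ Finset.range i, t4ekTerm q i w + (q - 1) + 1 =
        q * (∑ w ∈ Finset.range i, t4ekTerm q i w + 1) := by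
      rw [mul_add, mul_one]
      omega
    rw [h1, ih, mul_add, ← pow_succ', ← pow_succ']
    congr 2
    omega

theorem t4ek_exp_zero (i w : ℕ) : t4eExp i w 0 = (i - w) - w := by
  unfold t4eExp
  rw [if_pos (Nat.zero_le w), zero_add]

theorem t4ek_exp_top {i w : ℕ} (hw : w ≤ i) : t4eExp i w i = w - (i - w) := by
  unfold t4eExp
  split_ifs with h
  · obtain rfl : w = i := le_antisymm hw h
    simp
  · omega

theorem t4ek_sum_mult (hq : q.Prime) (i : ℕ) (hi : 1 ≤ i) :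
    ∑ w ∈ Finset.range (i + 1), t4eMult q i w * q ^ t4eExp i w 0 = q ^ i + q ^ (i - 1) := by
  rw [← t4ek_sum_term hq i hi]
  refine Finset.sum_congr rfl fun w _ => ?_
  rw [t4ek_exp_zero]
  rfl

theorem t4ek_sum_mult_top (hq : q.Prime) (i : ℕ) (hi : 1 ≤ i) :
    ∑ w ∈ Finset.range (i + 1), t4eMult q i w * q ^ t4eExp i w i = q ^ i + q ^ (i - 1) := by
  rw [← t4ek_sum_term hq i hi, ← Finset.sum_range_reflect]
  refine Finset.sum_congr rfl fun w hw => ?_
  have hw' : w ≤ i := Nat.lt_succ_iff.mp (Finset.mem_range.mp hw)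
  have h1 : i + 1 - 1 - w = i - w := by omega
  rw [h1]
  unfold t4ekTerm
  rw [t4ek_mult_symm hw', t4ek_exp_top (Nat.sub_le i w), Nat.sub_sub_self hw']

end Sum

/-! ### The pre-layer -/

section Pre

variable {L : Type} [Field L] [Algebra ℚ L] (O : ValuationSubring L) {k : Type*} [Field k]
  (π : ↥O →+* k) [IsDiscreteValuationRing ↥O] (hπ : Function.Surjective π)
  (N'' q : ℕ) [NeZero N''] [NeZero q]

/-- **the pre-layer of level `i`**: the part of `T4eLayer` used by the counting argument (everything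
is read off the embedding records; no completeness) -/
structure T4ePre (i : ℕ) where
  /-- the vertical valuation rings -/
  V : ℕ → ValuationSubring ↥(TaF L (t4eLev N'' q i))
  dvr : ∀ w ≤ i, IsDiscreteValuationRing ↥(V w)
  inj : ∀ w ≤ i, ∀ w' ≤ i, V w = V w' → w = w'
  lies_over : ∀ w ≤ i, ∀ n ≤ i, (V w).comap (t4eDeg L N'' q i n).toRingHom = taOv O π hπ N''
  /-- the uniformisers -/
  ϖ : ℕ → ↥(TaF L (t4eLev N'' q i))
  ϖ_lt : ∀ w ≤ i, (V w).valuation (ϖ w) < 1
  ϖ_unif : ∀ w ≤ i, ∀ f : ↥(TaF L (t4eLev N'' q i)), f ≠ 0 →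
    ∃ (n : ℤ) (u : ↥(TaF L (t4eLev N'' q i))), (V w).valuation u = 1 ∧ f = ϖ w ^ n * u
  q_eq : ∀ w ≤ i, ∃ u : ↥(TaF L (t4eLev N'' q i)), (V w).valuation u = 1 ∧
    ((q : ℕ) : ↥(TaF L (t4eLev N'' q i))) = ϖ w ^ t4eMult q i w * u
  /-- the reductions -/
  ρ : ∀ w : ℕ, ↥(V w) →+* LaurentSeries k
  ρ_eq_zero : ∀ w ≤ i, ∀ x : ↥(V w),
    ρ w x = 0 ↔ (V w).valuation ((x : ↥(V w)) : ↥(TaF L (t4eLev N'' q i))) < 1
  a_mem : ∀ w ≤ i, ∀ n ≤ i, ∀ f : ↥(TaF L N''), f ∈ taOv O π hπ N'' →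
    t4eDeg L N'' q i n f ∈ V w
  ρ_a : ∀ w (hw : w ≤ i) (n : ℕ) (hn : n ≤ i) (f : ↥(TaF L N'')) (hf : f ∈ taOv O π hπ N''),
    ρ w ⟨_, a_mem w hw n hn f hf⟩
      = qExpand k (q ^ t4eExp i w n) (taResN O π hπ N'' ⟨f, hf⟩)

variable {O π hπ N'' q}

/-- the pre-layer of a layer -/
def T4ePre.ofLayer {i : ℕ} (Y : T4eLayer O π hπ N'' q i) : T4ePre O π hπ N'' q i where
  V := Y.V
  dvr := Y.dvr
  inj := Y.inj
  lies_over := Y.lies_over
  ϖ := Y.ϖ
  ϖ_lt := Y.ϖ_lt
  ϖ_unif := Y.ϖ_unif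
  q_eq := Y.q_eq
  ρ := Y.ρ
  ρ_eq_zero := Y.ρ_eq_zero
  a_mem := Y.a_mem
  ρ_a := Y.ρ_a

end Pre

/-! ### The count -/

section Count

variable {L : Type} [Field L] [Algebra ℚ L] {O : ValuationSubring L} {k : Type*} [Field k]
  {π : ↥O →+* k} [IsDiscreteValuationRing ↥O] {hπ : Function.Surjective π} [IsAlgClosed k]
  {N'' q : ℕ} [NeZero N''] [hq : Fact q.Prime] [CharP k q] {i : ℕ}
  (P : T4ePre O π hπ N'' q i) (hqO : Irreducible ((q : ℕ) : ↥O))

/-- `F_i` as an algebra over `F_0` along `a_n` -/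
@[reducible] def t4ekAlg (L : Type) [Field L] [Algebra ℚ L] (N'' q : ℕ) [NeZero N''] [NeZero q]
    (i n : ℕ) : Algebra ↥(TaF L N'') ↥(TaF L (t4eLev N'' q i)) :=
  (t4eDeg L N'' q i n).toRingHom.toAlgebra

/-- an index `m` with `t4eExp i w m = 0`: `ρ_w (a_m j) = j̄` -/
def t4ekGen (i w : ℕ) : ℕ := if 2 * w ≤ i then i else 0

theorem t4ekGen_le (i w : ℕ) : t4ekGen i w ≤ i := by
  unfold t4ekGen
  split_ifs <;> omega

theorem t4ek_exp_gen {i w : ℕ} (hw : w ≤ i) : t4eExp i w (t4ekGen i w) = 0 := by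
  unfold t4eExp t4ekGen
  split_ifs <;> omega

include hqO in
/-- the constant `q` is a uniformiser of the Gauss valuation ring of level `N''` -/
theorem t4ek_unifR : T4niUnif (taOv O π hπ N'').toSubring
    (algebraMap L ↥(TaF L N'') ((q : ℕ) : L)) :=
  ⟨t4vwQ_mem O π hπ N'', t4vwQ_inv_notMem O π hπ hqO N'', t4vw_taOv_exists_zpow O π hπ hqO N''⟩

theorem t4ek_taResN_eq_zero_iff (r : ↥(taOv O π hπ N'')) :
    taResN O π hπ N'' r = 0 ↔ (taOv O π hπ N'').valuation (r : ↥(TaF L N'')) < 1 :=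
  (t4vs_valuation_lt_one_iff_of_hom (taOv O π hπ N'') (taResN O π hπ N'')
    (inv_mem_taOv_of_taResN_ne_zero O π hπ N'') r).symm

/-- the generator `t_w = a_m j` with `ρ_w t_w = j̄` -/
def t4ekT (L : Type) [Field L] [Algebra ℚ L] (N'' q : ℕ) [NeZero N''] [NeZero q] (i w : ℕ) :
    ↥(TaF L (t4eLev N'' q i)) :=
  t4eDeg L N'' q i (t4ekGen i w) (taJ N'')

theorem T4ePre.gen_mem {w : ℕ} (hw : w ≤ i) : t4ekT L N'' q i w ∈ P.V w :=
  P.a_mem w hw _ (t4ekGen_le i w) _ (taJ_mem_taOv O π hπ N'')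

theorem T4ePre.ρ_gen {w : ℕ} (hw : w ≤ i) : P.ρ w ⟨t4ekT L N'' q i w, P.gen_mem hw⟩ = jqModC k := by
  have h := P.ρ_a w hw _ (t4ekGen_le i w) _ (taJ_mem_taOv O π hπ N'')
  rw [taResN_taJ, qExpand_congr (by rw [t4ek_exp_gen hw, pow_zero] : q ^ t4eExp i w (t4ekGen i w) = 1)
    (jqModC k), qExpand_one_apply] at h
  exact h

/-- **residual independence of `1, t_w, …, t_w^(q^x - 1)`** over the Gauss valuation ring of level
`N''` along `a_n`, `x = t4eExp i w n` -/
theorem T4ePre.indep {w : ℕ} (hw : w ≤ i) {n : ℕ} (hn : n ≤ i) :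
    letI := t4ekAlg L N'' q i n
    T4ekIndep (taOv O π hπ N'') (P.V w)
      (fun b : Fin (q ^ t4eExp i w n) => t4ekT L N'' q i w ^ (b : ℕ)) := by
  letI := t4ekAlg L N'' q i n
  have hpow : ∀ b : ℕ, t4ekT L N'' q i w ^ b ∈ P.V w := fun b => (P.V w).pow_mem (P.gen_mem hw) b
  refine t4ek_indep_of_rho (P.lies_over w hw n hn) (taResN O π hπ N'')
    t4ek_taResN_eq_zero_iff (P.ρ w) (P.ρ_eq_zero w hw) (qExpand k (q ^ t4eExp i w n))
    (fun r => P.ρ_a w hw n hn r r.2) _ (fun b => hpow b) ?_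
  intro r hr b
  have hρpow : ∀ b : ℕ, P.ρ w ⟨t4ekT L N'' q i w ^ b, hpow b⟩ = jqModC k ^ b := by
    intro b
    have h1 : (⟨t4ekT L N'' q i w ^ b, hpow b⟩ : ↥(P.V w)) = ⟨t4ekT L N'' q i w, P.gen_mem hw⟩ ^ b := rfl
    rw [h1, map_pow, P.ρ_gen hw]
  have h2 : ∑ l ∈ Finset.range (q ^ t4eExp i w n),
      qExpand k (q ^ t4eExp i w n)
        ((fun l => if h : l < q ^ t4eExp i w n then taResN O π hπ N'' (r ⟨l, h⟩) else 0) l) *
        jqModC k ^ l = 0 := by
    rw [← Fin.sum_univ_eq_sum_range (fun l =>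
      qExpand k (q ^ t4eExp i w n)
        ((fun l => if h : l < q ^ t4eExp i w n then taResN O π hπ N'' (r ⟨l, h⟩) else 0) l) *
        jqModC k ^ l) (q ^ t4eExp i w n), ← hr]
    refine Finset.sum_congr rfl fun b _ => ?_
    rw [hρpow]
    simp only [b.2, dif_pos]
  have h3 := t2kr_indep (q ^ t4eExp i w n) _ h2 (b : ℕ) (Finset.mem_range.mpr b.2)
  simp only [b.2, dif_pos] at h3
  exact h3

/-- the degree of the special fibre along `a_n` -/
def t4ekDeg (q i n : ℕ) : ℕ := ∑ w ∈ Finset.range (i + 1), t4eMult q i w * q ^ t4eExp i w n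

include hqO in
/-- **the counting data of the layer along `a_n`** -/
theorem T4ePre.data {n : ℕ} (hn : n ≤ i)
    (hfin : letI := t4ekAlg L N'' q i n
      FiniteDimensional ↥(TaF L N'') ↥(TaF L (t4eLev N'' q i)))
    (hdeg : letI := t4ekAlg L N'' q i n
      Module.finrank ↥(TaF L N'') ↥(TaF L (t4eLev N'' q i)) ≤ t4ekDeg q i n) :
    letI := t4ekAlg L N'' q i n
    haveI := hfin
    haveI := t4eb_charZero (L := L) (N'' := N'')
    haveI := t4vw_taOv_dvr O π hπ hqO N''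
    T4ekData (taOv O π hπ N'') (fun j : Fin (i + 1) => P.V j)
      (algebraMap L ↥(TaF L N'') ((q : ℕ) : L)) (fun j => P.ϖ j) (fun j => t4eMult q i j)
      (fun j => q ^ t4eExp i j n) (fun j b => t4ekT L N'' q i j ^ (b : ℕ)) (t4ekDeg q i n) := by
  letI := t4ekAlg L N'' q i n
  haveI := hfin
  haveI := t4eb_charZero (L := L) (N'' := N'')
  haveI := t4vw_taOv_dvr O π hπ hqO N''
  have hj : ∀ j : Fin (i + 1), (j : ℕ) ≤ i := fun j => Nat.lt_succ_iff.mp j.2
  refine
    { dvr := fun j => P.dvr j (hj j)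
      inj := fun j j' h => Fin.ext (P.inj j (hj j) j' (hj j') h)
      comap := fun j => P.lies_over j (hj j) n hn
      unifR := t4ek_unifR hqO
      unif := fun j => ?_
      ram := fun j => ?_
      indep := fun j => P.indep (hj j) hn
      deg_le := hdeg
      count := ?_ }
  · haveI := P.dvr j (hj j)
    exact t4ek_niUnif_of_val (P.V j) (P.ϖ_lt j (hj j)) (P.ϖ_unif j (hj j))
  · obtain ⟨u, hu, e⟩ := P.q_eq j (hj j)
    refine ⟨u, hu, ?_⟩
    rw [← e]
    show t4eDeg L N'' q i n (algebraMap L ↥(TaF L N'') ((q : ℕ) : L)) = _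
    rw [AlgHom.commutes, map_natCast]
  · unfold t4ekDeg
    rw [Fin.sum_univ_eq_sum_range (fun w => t4eMult q i w * q ^ t4eExp i w n) (i + 1)]

include hqO in
/-- **completeness along `a_n`** from the degree bound `[F_i : a_n F_0] ≤ ∑_w μ_w q^(t4eExp i w n)` -/
theorem T4ePre.complete_of_deg {n : ℕ} (hn : n ≤ i)
    (hfin : letI := t4ekAlg L N'' q i n
      FiniteDimensional ↥(TaF L N'') ↥(TaF L (t4eLev N'' q i)))
    (hdeg : letI := t4ekAlg L N'' q i n
      Module.finrank ↥(TaF L N'') ↥(TaF L (t4eLev N'' q i)) ≤ t4ekDeg q i n)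
    (W : ValuationSubring ↥(TaF L (t4eLev N'' q i)))
    (hW : W.comap (t4eDeg L N'' q i n).toRingHom = taOv O π hπ N'') : ∃ w ≤ i, W = P.V w := by
  letI := t4ekAlg L N'' q i n
  haveI := hfin
  haveI := t4eb_charZero (L := L) (N'' := N'')
  haveI := t4vw_taOv_dvr O π hπ hqO N''
  obtain ⟨j, hj⟩ := (P.data hqO hn hfin hdeg).exhaust W hW
  exact ⟨j, Nat.lt_succ_iff.mp j.2, hj⟩

include P hqO in
/-- the degree is then exactly the degree of the special fibre -/
theorem T4ePre.finrank_eq_of_deg {n : ℕ} (hn : n ≤ i)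
    (hfin : letI := t4ekAlg L N'' q i n
      FiniteDimensional ↥(TaF L N'') ↥(TaF L (t4eLev N'' q i)))
    (hdeg : letI := t4ekAlg L N'' q i n
      Module.finrank ↥(TaF L N'') ↥(TaF L (t4eLev N'' q i)) ≤ t4ekDeg q i n) :
    letI := t4ekAlg L N'' q i n
    Module.finrank ↥(TaF L N'') ↥(TaF L (t4eLev N'' q i)) = t4ekDeg q i n := by
  letI := t4ekAlg L N'' q i n
  haveI := hfin
  haveI := t4eb_charZero (L := L) (N'' := N'')
  haveI := t4vw_taOv_dvr O π hπ hqO N''
  exact (P.data hqO hn hfin hdeg).finrank_eq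

theorem t4ekDeg_zero (i : ℕ) (hi : 1 ≤ i) : t4ekDeg q i 0 = q ^ i + q ^ (i - 1) :=
  t4ek_sum_mult hq.out i hi

theorem t4ekDeg_top (i : ℕ) (hi : 1 ≤ i) : t4ekDeg q i i = q ^ i + q ^ (i - 1) :=
  t4ek_sum_mult_top hq.out i hi

include hqO in
/-- **completeness along `a_0`** (the field `complete` of `T4eLayer`) from
`[F_i : a_0 F_0] ≤ q^i + q^(i-1)` -/
theorem T4ePre.complete (hi : 1 ≤ i)
    (hdeg : letI := t4ebAlg L N'' q i
      Module.finrank ↥(TaF L N'') ↥(TaF L (t4eLev N'' q i)) ≤ q ^ i + q ^ (i - 1))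
    (W : ValuationSubring ↥(TaF L (t4eLev N'' q i)))
    (hW : W.comap (t4eDeg L N'' q i 0).toRingHom = taOv O π hπ N'') : ∃ w ≤ i, W = P.V w :=
  P.complete_of_deg hqO (Nat.zero_le i) t4eb_finiteDimensional
    (by rw [t4ekDeg_zero i hi]; exact hdeg) W hW

/-- **completeness along `a_i`** (the field `complete_top` of `T4eLayer`) from completeness along
`a_0` and the Atkin–Lehner symmetry of the family -/
theorem T4ePre.complete_top_of_sym (A : T4eAL L N'' q i)
    (hsym : ∀ w ≤ i, (P.V w).comap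
      (A.w : ↥(TaF L (t4eLev N'' q i)) →+* ↥(TaF L (t4eLev N'' q i))) = P.V (i - w))
    (hcomp : ∀ W : ValuationSubring ↥(TaF L (t4eLev N'' q i)),
      W.comap (t4eDeg L N'' q i 0).toRingHom = taOv O π hπ N'' → ∃ w ≤ i, W = P.V w)
    (W : ValuationSubring ↥(TaF L (t4eLev N'' q i)))
    (hW : W.comap (t4eDeg L N'' q i i).toRingHom = taOv O π hπ N'') : ∃ w ≤ i, W = P.V w := by
  set σ : ↥(TaF L (t4eLev N'' q i)) →+* ↥(TaF L (t4eLev N'' q i)) :=
    (A.w : ↥(TaF L (t4eLev N'' q i)) →+* ↥(TaF L (t4eLev N'' q i))) with hσ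
  have h1 : (W.comap σ).comap (t4eDeg L N'' q i 0).toRingHom = taOv O π hπ N'' := by
    rw [← hW]
    ext f
    show σ (t4eDeg L N'' q i 0 f) ∈ W ↔ t4eDeg L N'' q i i f ∈ W
    have h2 : σ (t4eDeg L N'' q i 0 f) = t4eDeg L N'' q i i f := by
      have := A.w_a 0 (Nat.zero_le i) f
      rw [Nat.sub_zero] at this
      exact this
    rw [h2]
  obtain ⟨w, hw, e⟩ := hcomp _ h1
  refine ⟨i - w, Nat.sub_le i w, ?_⟩
  rw [← hsym w hw, ← e]
  ext f
  show f ∈ W ↔ σ (σ f) ∈ W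
  have h3 : σ (σ f) = f := A.w_w f
  rw [h3]

end Count

end Fermat.Agent.T4
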