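/-
T4E / P4 TOWER (helper9): **the component record with its uniformiser data, and the pre-layer of a
family of records**.

* `T4eRec O π N'' q i w` : a bundled embedding record of the component `(w, i - w)` (a DVR level
  `(L', O', π')` above `(L, O, π)`, `Em : T4eEmb O π N'' q i w O' π'`) together with a uniformiser
  `lam` of `O'`, a uniformiser ELEMENT `ϖ ∈ F_i` (`T4egUnif`: `ι ϖ = C lam · Gauss unit`) and the
  Wilson relation `q = lam ^ φ(q^min(w, i-w)) · U`;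
* for a record `R`: `R.V hπ` (the Gauss valuation ring of `F_i` along `R.Em.ι`), `R.ρ hπ` (the residue
  map into `k((𝔮))`), and ALL pointwise fields of `T4eLayer`: `R.dvr`, `R.ϖ_lt`, `R.ϖ_unif`, `R.q_eq`,
  `R.ρ_eq_zero`, `R.const_mem`, `R.ρ_const`, `R.a_mem`, `R.ρ_a`, `R.lies_over`;
* constructors: `t4eRecTop` (component `∞`), `t4eRecCusp` (component `(a, b)`, `1 ≤ b ≤ a`, from
  `T4eCyc` + `T4eCusp`), `T4eRec.flip` (component `(i - w, w)` from `(w, i - w)` and `T4eAL`),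
  `T4eRec.cast`;
* `t4ePreOfRec` : the pre-layer (`T4ePre`, helper1) of a family of records.
-/
import Fermat.Agent.Lib.T4E.Tower.Flip
import Fermat.Agent.Lib.T4E.Tower.Complete
import Fermat.Agent.Lib.T4E.Reg.Unit

set_option autoImplicit false
set_option linter.unusedSectionVars false
set_option linter.unusedVariables false
set_option linter.style.haveILetI false

open HahnSeries ModularCurve Fermat.Agent.T1 Fermat.Agent.T2

noncomputable section

namespace Fermat.Agent.T4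

section Rec

variable {L : Type} [Field L] [Algebra ℚ L] (O : ValuationSubring L) {k : Type*} [Field k]
  (π : ↥O →+* k) [IsDiscreteValuationRing ↥O] (N'' q : ℕ) [NeZero N''] [NeZero q]

/-- **the record of the component `(w, i - w)` with its uniformiser data** -/
structure T4eRec (i w : ℕ) where
  /-- the coefficient field -/
  L' : Type
  [fld : Field L']
  [alg : Algebra L L']
  /-- its discrete valuation ring -/
  O' : ValuationSubring L'
  [dvr' : IsDiscreteValuationRing ↥O']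
  /-- the residue map -/
  π' : ↥O' →+* k
  /-- the embedding record -/
  Em : T4eEmb O π N'' q i w O' π'
  /-- the uniformiser of `O'` -/
  lam : ↥O'
  /-- the uniformiser element of the component -/
  ϖ : ↥(TaF L (t4eLev N'' q i))
  unif : T4egUnif O' π' Em.ι lam ϖ
  wilson : ∃ U : ↥O', IsUnit U ∧
    ((q : ℕ) : L') = ((lam : ↥O') : L') ^ t4eMult q i w * ((U : ↥O') : L')

attribute [instance] T4eRec.fld T4eRec.alg T4eRec.dvr'

end Rec

section RecLemmas

variable {L : Type} [Field L] [Algebra ℚ L] {O : ValuationSubring L} {k : Type*} [Field k]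
  {π : ↥O →+* k} [IsDiscreteValuationRing ↥O] (hπ : Function.Surjective π)
  {N'' q : ℕ} [NeZero N''] [hq : Fact q.Prime] {i w : ℕ}

/-- the residue map of an embedding record is onto -/
theorem T4eEmb.π'_surjective {L' : Type*} [Field L'] [Algebra L L'] {O' : ValuationSubring L'}
    {π' : ↥O' →+* k} (Em : T4eEmb O π N'' q i w O' π') (hπ : Function.Surjective π) :
    Function.Surjective π' := by
  intro t
  obtain ⟨a, rfl⟩ := hπ t
  exact ⟨_, Em.π_map a⟩

variable (R : T4eRec O π N'' q i w)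

/-- **the valuation ring of the component** -/
def T4eRec.V : ValuationSubring ↥(TaF L (t4eLev N'' q i)) :=
  t4egV R.O' R.π' (R.Em.π'_surjective hπ) R.Em.ι (R.Em.frac hq.out)

/-- **the residue map of the component** -/
def T4eRec.ρ : ↥(R.V hπ) →+* LaurentSeries k :=
  t4egRho R.O' R.π' (R.Em.π'_surjective hπ) R.Em.ι (R.Em.frac hq.out)

theorem T4eRec.mem_V (f : ↥(TaF L (t4eLev N'' q i))) :
    f ∈ R.V hπ ↔ TaGauss R.O' R.π' (R.Em.ι f) := Iff.rfl

theorem T4eRec.ρ_apply (x : ↥(R.V hπ)) :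
    R.ρ hπ x = taRhoFun R.O' R.π' (R.Em.ι (x : ↥(TaF L (t4eLev N'' q i)))) := rfl

theorem T4eRec.dvr : IsDiscreteValuationRing ↥(R.V hπ) :=
  R.unif.dvr (R.Em.π'_surjective hπ) (R.Em.frac hq.out)

theorem T4eRec.ϖ_lt : (R.V hπ).valuation R.ϖ < 1 :=
  R.unif.valuation_lt (R.Em.π'_surjective hπ) (R.Em.frac hq.out)

theorem T4eRec.ϖ_unif (f : ↥(TaF L (t4eLev N'' q i))) (hf : f ≠ 0) :
    ∃ (n : ℤ) (u : ↥(TaF L (t4eLev N'' q i))), (R.V hπ).valuation u = 1 ∧ f = R.ϖ ^ n * u :=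
  R.unif.exists_zpow_val (R.Em.π'_surjective hπ) (R.Em.frac hq.out) f hf

theorem T4eRec.ι_natCast (n : ℕ) :
    R.Em.ι ((n : ℕ) : ↥(TaF L (t4eLev N'' q i))) = HahnSeries.C ((n : ℕ) : R.L') := by
  have h : ((n : ℕ) : ↥(TaF L (t4eLev N'' q i)))
      = algebraMap L ↥(TaF L (t4eLev N'' q i)) ((n : ℕ) : L) := (map_natCast _ n).symm
  rw [h, R.Em.ι_const, map_natCast]

theorem T4eRec.q_eq : ∃ u : ↥(TaF L (t4eLev N'' q i)), (R.V hπ).valuation u = 1 ∧
    ((q : ℕ) : ↥(TaF L (t4eLev N'' q i))) = R.ϖ ^ t4eMult q i w * u := by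
  obtain ⟨U, hU, hqU⟩ := R.wilson
  exact R.unif.of_pow (R.Em.π'_surjective hπ) (R.Em.frac hq.out) hU
    (by rw [R.ι_natCast, hqU])

theorem T4eRec.ρ_eq_zero (x : ↥(R.V hπ)) :
    R.ρ hπ x = 0 ↔ (R.V hπ).valuation ((x : ↥(R.V hπ)) : ↥(TaF L (t4eLev N'' q i))) < 1 :=
  t4egRho_eq_zero_iff R.O' R.π' (R.Em.π'_surjective hπ) R.Em.ι (R.Em.frac hq.out) x

theorem T4eRec.const_mem (c : ↥O) :
    algebraMap L ↥(TaF L (t4eLev N'' q i)) (c : L) ∈ R.V hπ := R.Em.gauss_const c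

theorem T4eRec.ρ_const (c : ↥O) :
    R.ρ hπ ⟨_, R.const_mem hπ c⟩ = HahnSeries.C (π c) := R.Em.rho_const c

theorem T4eRec.a_mem {n : ℕ} (hn : n ≤ i) {f : ↥(TaF L N'')} (hf : f ∈ taOv O π hπ N'') :
    t4eDeg L N'' q i n f ∈ R.V hπ := R.Em.gauss_deg hn hf

theorem T4eRec.ρ_a {n : ℕ} (hn : n ≤ i) {f : ↥(TaF L N'')} (hf : f ∈ taOv O π hπ N'') :
    R.ρ hπ ⟨_, R.a_mem hπ hn hf⟩
      = qExpand k (q ^ t4eExp i w n) (taResN O π hπ N'' ⟨f, hf⟩) := by
  exact R.Em.rho_deg hn hf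

theorem t4eMult_ne_zero (q i w : ℕ) [hq : Fact q.Prime] : t4eMult q i w ≠ 0 := by
  unfold t4eMult
  exact (Nat.totient_pos.mpr (pow_pos hq.out.pos _)).ne'

/-- `q` is a non-unit of every component -/
theorem T4eRec.val_q_lt : (R.V hπ).valuation ((q : ℕ) : ↥(TaF L (t4eLev N'' q i))) < 1 := by
  obtain ⟨u, hu, e⟩ := R.q_eq hπ
  rw [e, map_mul, hu, mul_one, map_pow]
  exact pow_lt_one₀ zero_le (R.ϖ_lt hπ) (t4eMult_ne_zero q i w)

/-- **`V` lies over the Gauss valuation ring of level `N''` along every `a_n`** -/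
theorem T4eRec.lies_over [IsAlgClosed k] [CharP k q] (hqO : Irreducible ((q : ℕ) : ↥O)) {n : ℕ} (hn : n ≤ i) :
    (R.V hπ).comap (t4eDeg L N'' q i n).toRingHom = taOv O π hπ N'' := by
  haveI := t4vw_taOv_dvr O π hπ hqO N''
  symm
  refine t4eg_eq_of_le (fun f hf => R.a_mem hπ hn hf) ?_
  intro htop
  have h1 : (((q : ℕ) : ↥(TaF L N'')))⁻¹ ∈ (R.V hπ).comap (t4eDeg L N'' q i n).toRingHom := by
    rw [htop]
    exact ValuationSubring.mem_top _
  rw [ValuationSubring.mem_comap] at h1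
  have h2 : (t4eDeg L N'' q i n).toRingHom (((q : ℕ) : ↥(TaF L N'')))⁻¹
      = (((q : ℕ) : ↥(TaF L (t4eLev N'' q i))))⁻¹ := by
    rw [map_inv₀, map_natCast]
  rw [h2] at h1
  have h3 := R.val_q_lt hπ
  have hq0 : ((q : ℕ) : ↥(TaF L (t4eLev N'' q i))) ≠ 0 := by
    intro h0
    rw [h0, map_zero] at h3
    obtain ⟨u, hu, e⟩ := R.q_eq hπ
    have hϖ0 : R.ϖ ≠ 0 := R.unif.ne_zero
    rw [h0] at e
    have hu0 : u ≠ 0 := by
      rintro rfl
      rw [map_zero] at hu
      exact zero_ne_one hu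
    exact mul_ne_zero (pow_ne_zero _ hϖ0) hu0 e.symm
  have h4 : (R.V hπ).valuation (((q : ℕ) : ↥(TaF L (t4eLev N'' q i))))⁻¹ ≤ 1 :=
    ((R.V hπ).valuation_le_one_iff _).mpr h1
  rw [map_inv₀] at h4
  have h5 : 0 < (R.V hπ).valuation ((q : ℕ) : ↥(TaF L (t4eLev N'' q i))) :=
    zero_lt_iff.mpr ((Valuation.ne_zero_iff _).mpr hq0)
  have h6 := (inv_le_one₀ h5).mp h4
  exact absurd h3 (not_lt.mpr h6)

end RecLemmas

/-! ### Constructors -/

section Constructors

variable {L : Type} [Field L] [Algebra ℚ L] {O : ValuationSubring L} {k : Type*} [Field k]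
  {π : ↥O →+* k} [IsDiscreteValuationRing ↥O] (hπ : Function.Surjective π)
  {N'' q : ℕ} [NeZero N''] [hq : Fact q.Prime]

theorem t4eExp_ge {i w n : ℕ} (hw : i ≤ w) (hn : n ≤ i) : t4eExp i w n = n := by
  unfold t4eExp
  (split_ifs; all_goals omega)

theorem t4eMult_ge {i w : ℕ} (hw : i ≤ w) : t4eMult q i w = 1 := by
  unfold t4eMult
  rw [Nat.sub_eq_zero_of_le hw, Nat.min_zero, pow_zero, Nat.totient_one]

variable (O π N'' q) in
/-- the record of the component `∞` (valid for every label `w ≥ i`): the `q`-expansion at `∞` -/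
def t4eEmbTop (i w : ℕ) (hw : i ≤ w) : T4eEmb O π N'' q i w O π where
  map_mem := fun a => a.2
  π_map := fun a => rfl
  ι := (TaF L (t4eLev N'' q i)).val.toRingHom
  ι_const := fun c => by
    show ((algebraMap L ↥(TaF L (t4eLev N'' q i)) c : ↥(TaF L (t4eLev N'' q i))) : LaurentSeries L)
      = HahnSeries.C (algebraMap L L c)
    rw [Algebra.algebraMap_self, RingHom.id_apply]
    exact algebraMap_laurentSeries_eq_single L c
  ζ := fun _ => 1
  π_ζ := fun _ => by rw [Units.val_one, map_one]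
  ι_deg := fun n hn f => by
    show ((t4eDeg L N'' q i n f : ↥(TaF L (t4eLev N'' q i))) : LaurentSeries L) = _
    rw [coe_t4eDeg L N'' q i n hn f, map_one, t4vSig_one, Algebra.algebraMap_self, coeffMap_id]
    exact qExpand_congr (by rw [t4eExp_ge hw hn]) _

theorem t4eEmbTop_ι (i w : ℕ) (hw : i ≤ w) (f : ↥(TaF L (t4eLev N'' q i))) :
    (t4eEmbTop O π N'' q i w hw).ι f = (f : LaurentSeries L) := rfl

theorem T4eEmb.ι_natCast {i w : ℕ} {L' : Type*} [Field L'] [Algebra L L']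
    {O' : ValuationSubring L'} {π' : ↥O' →+* k} (Em : T4eEmb O π N'' q i w O' π') (n : ℕ) :
    Em.ι ((n : ℕ) : ↥(TaF L (t4eLev N'' q i))) = HahnSeries.C ((n : ℕ) : L') := by
  have h : ((n : ℕ) : ↥(TaF L (t4eLev N'' q i)))
      = algebraMap L ↥(TaF L (t4eLev N'' q i)) ((n : ℕ) : L) := (map_natCast _ n).symm
  rw [h, Em.ι_const, map_natCast]

variable (O π N'' q) in
/-- **the record with uniformiser data of the component `∞`** (label `w ≥ i`): uniformiser `q` -/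
def t4eRecTop (hqO : Irreducible ((q : ℕ) : ↥O)) (i w : ℕ) (hw : i ≤ w) :
    T4eRec O π N'' q i w where
  L' := L
  O' := O
  π' := π
  Em := t4eEmbTop O π N'' q i w hw
  lam := ((q : ℕ) : ↥O)
  ϖ := ((q : ℕ) : ↥(TaF L (t4eLev N'' q i)))
  unif := ⟨hqO, 1, one_ne_zero, (taGaussSubring O π).one_mem,
    by rw [inv_one]; exact (taGaussSubring O π).one_mem,
    by
      rw [T4eEmb.ι_natCast, mul_one]
      congr 1⟩
  wilson := ⟨1, isUnit_one, by
    rw [t4eMult_ge hw, pow_one]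
    push_cast
    rw [mul_one]⟩

theorem t4eRecTop_V (hqO : Irreducible ((q : ℕ) : ↥O)) (i w : ℕ) (hw : i ≤ w) :
    (t4eRecTop O π N'' q hqO i w hw).V hπ = taOv O π hπ (t4eLev N'' q i) :=
  SetLike.ext fun f => Iff.rfl

section Cusp

variable [CharP k q] {L' : Type} [Field L'] [Algebra L L'] {O' : ValuationSubring L'}
  [IsDiscreteValuationRing ↥O'] {π' : ↥O' →+* k} {a b : ℕ}

/-- **the record with uniformiser data of the component `(a, b)`, `1 ≤ b ≤ a`**: uniformiser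
`ϖ = a_{a+b} j - a_{a-b} j`, `lam = 1 - ζ`, multiplicity `φ(q^b)` -/
def t4eRecCusp (Cy : T4eCyc O O' π π' q b) (hb1 : 1 ≤ b) (hba : b ≤ a)
    (M : T4eCusp L L' N'' q a b Cy.ζ) : T4eRec O π N'' q (a + b) a where
  L' := L'
  O' := O'
  π' := π'
  Em := t4eEmbCusp Cy hba hπ M
  lam := Cy.lam
  ϖ := t4eDeg L N'' q (a + b) (a + b) (taJ N'') - t4eDeg L N'' q (a + b) (a - b) (taJ N'')
  unif := by
    haveI : NeZero (q ^ (a - b)) := ⟨pow_ne_zero _ hq.out.ne_zero⟩
    have hJ : TaGauss O π ((taJ (L := L) N'' : ↥(TaF L N'')) : LaurentSeries L) :=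
      t4v_gauss_jqModC O π
    refine t4egUnif_of_rho_ne_zero Cy.unif (t4eru_gauss_th_f O π hπ O' π' (a := a) Cy hJ) ?_
      (t4eru_ι_pi_f O π O' π' Cy M hb1 (taJ N''))
    rw [t4eru_taRhoFun_th_f O π hπ O' π' (a := a) Cy hJ]
    have h1 : taRhoFun O π ((taJ (L := L) N'' : ↥(TaF L N'')) : LaurentSeries L) = jqModC k :=
      t4v_taRhoFun_jqModC O π
    rw [h1, neg_ne_zero]
    intro h0
    apply t4v_theta_jqModC_ne_zero (k := k)
    apply qExpand_injective (R := k) (N := q ^ (a - b))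
    rw [h0, map_zero]
  wilson := by
    obtain ⟨U, hU, hqU, -⟩ := Cy.exists_wilson' hq.out hπ
    refine ⟨U, hU, ?_⟩
    have h1 : t4eMult q (a + b) a = Nat.totient (q ^ b) := by
      unfold t4eMult
      rw [Nat.add_sub_cancel_left, Nat.min_eq_right hba]
    rw [h1]
    exact hqU

end Cusp

section FlipCast

variable {i w : ℕ}

/-- **the flip**: the record with uniformiser data of the component `(i - w, w)` from that of
`(w, i - w)` and the Atkin–Lehner involution -/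
def T4eRec.flip (R : T4eRec O π N'' q i w) (hw : w ≤ i) (A : T4eAL L N'' q i) :
    T4eRec O π N'' q i (i - w) where
  L' := R.L'
  O' := R.O'
  π' := R.π'
  Em := R.Em.flip hw A
  lam := R.lam
  ϖ := A.w R.ϖ
  unif := by
    have h : T4egUnif R.O' R.π' (R.Em.ι.comp
        (A.w : ↥(TaF L (t4eLev N'' q i)) →+* ↥(TaF L (t4eLev N'' q i)))) R.lam (A.w R.ϖ) := by
      rw [t4egUnif_comp_iff]
      have h1 : (A.w : ↥(TaF L (t4eLev N'' q i)) →+* ↥(TaF L (t4eLev N'' q i))) (A.w R.ϖ) = R.ϖ :=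
        A.w_w R.ϖ
      rw [h1]
      exact R.unif
    exact h
  wilson := by
    obtain ⟨U, hU, hqU⟩ := R.wilson
    refine ⟨U, hU, ?_⟩
    rw [t4ek_mult_symm hw]
    exact hqU

/-- transport of a record along equalities of the indices -/
def T4eRec.cast {i' w' : ℕ} (hi : i = i') (hw : w = w') (R : T4eRec O π N'' q i w) :
    T4eRec O π N'' q i' w' := by
  subst hi
  subst hw
  exact R

theorem T4eRec.cast_rfl (R : T4eRec O π N'' q i w) : R.cast rfl rfl = R := rfl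

/-- **induction principle for `T4eRec.cast`**: a property of records (for all indices) passes to
the transported record -/
theorem T4eRec.cast_ind {motive : ∀ i w : ℕ, T4eRec O π N'' q i w → Prop} {i' w' : ℕ}
    (hi : i = i') (hw : w = w') (R : T4eRec O π N'' q i w) (h : motive i w R) :
    motive i' w' (R.cast hi hw) := by
  subst hi
  subst hw
  exact h

end FlipCast

end Constructors

/-! ### Separation of the components: the Frobenius criterion -/

section Series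

variable {k : Type*} [Field k] (q : ℕ) [hq : Fact q.Prime]

/-- `(Φ^s j̄)^q = Φ^{s+1} j̄` in characteristic `q` -/
theorem t4e_phi_jq_pow [CharP k q] (s : ℕ) :
    (qExpand k (q ^ s) (jqModC k)) ^ q = qExpand k (q ^ (s + 1)) (jqModC k) := by
  rw [← map_pow, t2kr_jqModC_pow_char q, qExpand_qExpand]
  exact qExpand_congr (by rw [pow_succ]) _

/-- `Φ^s j̄ = Φ^t j̄ ⇒ s = t` -/
theorem t4e_phi_jq_inj {s t : ℕ}
    (h : qExpand k (q ^ s) (jqModC k) = qExpand k (q ^ t) (jqModC k)) : s = t := by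
  have hj0 : jqModC k ≠ 0 := by
    have := t2kr_jqModC_pow_ne_zero (k := k) 1
    rwa [pow_one] at this
  have hord : (jqModC k).order = -1 := by
    have := t2kr_order_jqModC_pow (k := k) 1
    rwa [pow_one, Nat.cast_one] at this
  have h1 := congrArg HahnSeries.order h
  rw [t2kr_order_qExpand (q ^ s) hj0, t2kr_order_qExpand (q ^ t) hj0, hord] at h1
  have h2 : (q ^ s : ℕ) = q ^ t := by
    have h3 : ((q ^ s : ℕ) : ℤ) = ((q ^ t : ℕ) : ℤ) := by linarith
    exact_mod_cast h3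
  exact Nat.pow_right_injective hq.out.two_le h2

end Series

section Sep

variable {L : Type} [Field L] [Algebra ℚ L] {O : ValuationSubring L} {k : Type*} [Field k]
  {π : ↥O →+* k} [IsDiscreteValuationRing ↥O] (hπ : Function.Surjective π)
  {N'' q : ℕ} [NeZero N''] [hq : Fact q.Prime] [CharP k q] {i w : ℕ}

theorem t4eExp_succ_iff {i w n : ℕ} (hw : w ≤ i) (hn : n < i) :
    t4eExp i w (n + 1) = t4eExp i w n + 1 ↔ n < w := by
  unfold t4eExp
  (split_ifs; all_goals omega)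

variable (L N'' q) in
/-- the separating element `a_{n+1} j - (a_n j)^q` ("Frobenius step at `n`") -/
def t4eFrobElt (i n : ℕ) : ↥(TaF L (t4eLev N'' q i)) :=
  t4eDeg L N'' q i (n + 1) (taJ N'') - t4eDeg L N'' q i n (taJ N'') ^ q

theorem T4eRec.frobElt_mem (R : T4eRec O π N'' q i w) {n : ℕ} (hn : n < i) :
    t4eFrobElt L N'' q i n ∈ R.V hπ :=
  sub_mem (R.a_mem hπ (by omega) (taJ_mem_taOv O π hπ N''))
    (pow_mem (R.a_mem hπ (by omega) (taJ_mem_taOv O π hπ N'')) q)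

theorem T4eRec.ρ_frobElt (R : T4eRec O π N'' q i w) {n : ℕ} (hn : n < i) :
    R.ρ hπ ⟨_, R.frobElt_mem hπ hn⟩
      = qExpand k (q ^ t4eExp i w (n + 1)) (jqModC k)
        - qExpand k (q ^ (t4eExp i w n + 1)) (jqModC k) := by
  have h1 : (⟨t4eFrobElt L N'' q i n, R.frobElt_mem hπ hn⟩ : ↥(R.V hπ))
      = ⟨_, R.a_mem hπ (by omega : n + 1 ≤ i) (taJ_mem_taOv O π hπ N'')⟩
        - ⟨_, R.a_mem hπ (by omega : n ≤ i) (taJ_mem_taOv O π hπ N'')⟩ ^ q := rfl
  rw [h1, map_sub, map_pow, R.ρ_a hπ (by omega : n + 1 ≤ i) (taJ_mem_taOv O π hπ N''),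
    R.ρ_a hπ (by omega : n ≤ i) (taJ_mem_taOv O π hπ N''), taResN_taJ, t4e_phi_jq_pow]

/-- **the Frobenius criterion**: on the component `(w, i - w)` the element `a_{n+1} j - (a_n j)^q`
(`n < i`) is a non-unit iff `n < w` -/
theorem T4eRec.frob_iff (R : T4eRec O π N'' q i w) (hw : w ≤ i) {n : ℕ} (hn : n < i) :
    (R.V hπ).valuation (t4eFrobElt L N'' q i n) < 1 ↔ n < w := by
  rw [← t4eExp_succ_iff hw hn]
  have h := R.ρ_eq_zero hπ ⟨_, R.frobElt_mem hπ hn⟩
  rw [← h, R.ρ_frobElt hπ hn, sub_eq_zero]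
  constructor
  · intro h1
    exact t4e_phi_jq_inj q h1
  · intro h1
    rw [h1]

/-- **distinct components have distinct valuation rings** -/
theorem T4eRec.V_ne {w' : ℕ} (R : T4eRec O π N'' q i w) (R' : T4eRec O π N'' q i w')
    (hw : w ≤ i) (hw' : w' ≤ i) (hne : w ≠ w') : R.V hπ ≠ R'.V hπ := by
  intro h
  rcases Nat.lt_or_gt_of_ne hne with hlt | hlt
  · have h1 := (R'.frob_iff hπ hw' (n := w) (by omega)).mpr hlt
    rw [← h, R.frob_iff hπ hw (by omega)] at h1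
    exact lt_irrefl _ h1
  · have h1 := (R.frob_iff hπ hw (n := w') (by omega)).mpr hlt
    rw [h, R'.frob_iff hπ hw' (by omega)] at h1
    exact lt_irrefl _ h1

end Sep

/-! ### The pre-layer of a family of records -/

section Pre

variable {L : Type} [Field L] [Algebra ℚ L] {O : ValuationSubring L} {k : Type*} [Field k]
  {π : ↥O →+* k} [IsDiscreteValuationRing ↥O] (hπ : Function.Surjective π)
  {N'' q : ℕ} [NeZero N''] [hq : Fact q.Prime] [CharP k q] [IsAlgClosed k] {i : ℕ}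

/-- **the pre-layer of a family of records** -/
def t4ePreOfRec (hqO : Irreducible ((q : ℕ) : ↥O)) (R : ∀ w : ℕ, T4eRec O π N'' q i w) :
    T4ePre O π hπ N'' q i where
  V := fun w => (R w).V hπ
  dvr := fun w _ => (R w).dvr hπ
  inj := fun w hw w' hw' h => by
    by_contra hne
    exact T4eRec.V_ne hπ (R w) (R w') hw hw' hne h
  lies_over := fun w _ n hn => (R w).lies_over hπ hqO hn
  ϖ := fun w => (R w).ϖ
  ϖ_lt := fun w _ => (R w).ϖ_lt hπ
  ϖ_unif := fun w _ => (R w).ϖ_unif hπ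
  q_eq := fun w _ => (R w).q_eq hπ
  ρ := fun w => (R w).ρ hπ
  ρ_eq_zero := fun w _ => (R w).ρ_eq_zero hπ
  a_mem := fun w _ n hn f hf => (R w).a_mem hπ hn hf
  ρ_a := fun w _ n hn f hf => (R w).ρ_a hπ hn hf

end Pre

/-! ### The family of records of level `i` from the cusp records -/

section Family

variable {L : Type} [Field L] [Algebra ℚ L] {O : ValuationSubring L} {k : Type*} [Field k]
  {π : ↥O →+* k} [IsDiscreteValuationRing ↥O] (hπ : Function.Surjective π)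
  {N'' q : ℕ} [NeZero N''] [hq : Fact q.Prime] [CharP k q] [IsAlgClosed k]

/-- **the family of records of level `i`**: from the Atkin–Lehner involutions and the records of the
components `(a, b)`, `1 ≤ b ≤ a` (`t4eRecCusp`): the component `w ≥ i` is `∞`, the components with
`i - w ≤ w < i` are the cusp records, those with `w < i - w` are the flips -/
def t4eRecOf (hqO : Irreducible ((q : ℕ) : ↥O)) (A : ∀ i : ℕ, T4eAL L N'' q i)
    (Rc : ∀ a b : ℕ, 1 ≤ b → b ≤ a → T4eRec O π N'' q (a + b) a) (i w : ℕ) :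
    T4eRec O π N'' q i w :=
  if h1 : i ≤ w then t4eRecTop O π N'' q hqO i w h1
  else if h2 : i - w ≤ w then
    (Rc w (i - w) (by omega) h2).cast (by omega) rfl
  else if h3 : w = 0 then
    ((t4eRecTop O π N'' q hqO i i le_rfl).flip le_rfl (A i)).cast rfl (by omega)
  else
    (((Rc (i - w) w (by omega) (by omega)).cast (by omega : i - w + w = i) rfl).flip
      (Nat.sub_le i w) (A i)).cast rfl (by omega)

theorem t4eRecOf_top (hqO : Irreducible ((q : ℕ) : ↥O)) (A : ∀ i : ℕ, T4eAL L N'' q i)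
    (Rc : ∀ a b : ℕ, 1 ≤ b → b ≤ a → T4eRec O π N'' q (a + b) a) (i : ℕ) :
    t4eRecOf hqO A Rc i i = t4eRecTop O π N'' q hqO i i le_rfl := by
  unfold t4eRecOf
  rw [dif_pos le_rfl]

theorem t4eRecOf_cusp (hqO : Irreducible ((q : ℕ) : ↥O)) (A : ∀ i : ℕ, T4eAL L N'' q i)
    (Rc : ∀ a b : ℕ, 1 ≤ b → b ≤ a → T4eRec O π N'' q (a + b) a) {i w : ℕ} (h1 : ¬ i ≤ w)
    (h2 : i - w ≤ w) :
    t4eRecOf hqO A Rc i w = (Rc w (i - w) (by omega) h2).cast (by omega) rfl := by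
  unfold t4eRecOf
  rw [dif_neg h1, dif_pos h2]

theorem t4eRecOf_zero (hqO : Irreducible ((q : ℕ) : ↥O)) (A : ∀ i : ℕ, T4eAL L N'' q i)
    (Rc : ∀ a b : ℕ, 1 ≤ b → b ≤ a → T4eRec O π N'' q (a + b) a) {i : ℕ} (h1 : ¬ i ≤ 0) :
    t4eRecOf hqO A Rc i 0
      = ((t4eRecTop O π N'' q hqO i i le_rfl).flip le_rfl (A i)).cast rfl (by omega) := by
  unfold t4eRecOf
  rw [dif_neg h1, dif_neg (by omega), dif_pos rfl]

theorem t4eRecOf_flip (hqO : Irreducible ((q : ℕ) : ↥O)) (A : ∀ i : ℕ, T4eAL L N'' q i)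
    (Rc : ∀ a b : ℕ, 1 ≤ b → b ≤ a → T4eRec O π N'' q (a + b) a) {i w : ℕ} (h1 : ¬ i ≤ w)
    (h2 : ¬ i - w ≤ w) (h3 : w ≠ 0) :
    t4eRecOf hqO A Rc i w
      = (((Rc (i - w) w (by omega) (by omega)).cast (by omega : i - w + w = i) rfl).flip
          (Nat.sub_le i w) (A i)).cast rfl (by omega) := by
  unfold t4eRecOf
  rw [dif_neg h1, dif_neg h2, dif_neg h3]

/-- the pre-layer of level `i` -/
def t4ePreOf (hqO : Irreducible ((q : ℕ) : ↥O)) (A : ∀ i : ℕ, T4eAL L N'' q i)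
    (Rc : ∀ a b : ℕ, 1 ≤ b → b ≤ a → T4eRec O π N'' q (a + b) a) (i : ℕ) :
    T4ePre O π hπ N'' q i :=
  t4ePreOfRec hπ hqO (t4eRecOf hqO A Rc i)

theorem t4ePreOf_V_top (hqO : Irreducible ((q : ℕ) : ↥O)) (A : ∀ i : ℕ, T4eAL L N'' q i)
    (Rc : ∀ a b : ℕ, 1 ≤ b → b ≤ a → T4eRec O π N'' q (a + b) a) (i : ℕ) :
    (t4ePreOf hπ hqO A Rc i).V i = taOv O π hπ (t4eLev N'' q i) := by
  show (t4eRecOf hqO A Rc i i).V hπ = _
  rw [t4eRecOf_top]
  exact t4eRecTop_V hπ hqO i i le_rfl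

theorem t4ePreOf_const_mem (hqO : Irreducible ((q : ℕ) : ↥O)) (A : ∀ i : ℕ, T4eAL L N'' q i)
    (Rc : ∀ a b : ℕ, 1 ≤ b → b ≤ a → T4eRec O π N'' q (a + b) a) (i w : ℕ) (c : ↥O) :
    algebraMap L ↥(TaF L (t4eLev N'' q i)) (c : L) ∈ (t4ePreOf hπ hqO A Rc i).V w :=
  (t4eRecOf hqO A Rc i w).const_mem hπ c

theorem t4ePreOf_ρ_const (hqO : Irreducible ((q : ℕ) : ↥O)) (A : ∀ i : ℕ, T4eAL L N'' q i)
    (Rc : ∀ a b : ℕ, 1 ≤ b → b ≤ a → T4eRec O π N'' q (a + b) a) (i w : ℕ) (c : ↥O) :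
    (t4ePreOf hπ hqO A Rc i).ρ w ⟨_, t4ePreOf_const_mem hπ hqO A Rc i w c⟩
      = HahnSeries.C (π c) :=
  (t4eRecOf hqO A Rc i w).ρ_const hπ c

end Family

end Fermat.Agent.T4
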