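/-
T4E (helper1), package P4 TOWER: **the field `ρ_range` of `T4eLayer` for a pre-layer**: all residue
fields of the vertical components are the residue function field `Ē = k(j̄(𝔮^d) : d ∣ N'')` of level
`N''` (`= Set.range (taResN O π hπ N'')`).

By the count (`T4ekData.span_rho`, `Tower/Count.lean`) along `a_n`, the residue of `x ∈ V_w` is
`∑_b r̄_b(𝔮^{q^e}) · j̄^b`, `e = t4eExp i w n`, `r̄_b ∈ Ē`; and `Ē` is stable under `𝔮 ↦ 𝔮^q`:
`g(𝔮^q) = (σ⁻¹ g)^q`, `σ` the coefficientwise Frobenius, which preserves `Ē` together with its inverse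
(`k` perfect) because `j̄(𝔮^d)` has coefficients in the prime field.

* `t4er_coeffMap_mem_full`: `Ē` is stable under `coeffMap σ` for EVERY ring endomorphism `σ` of `k`;
* `t4er_qExpand_mem_full`: `Ē` is stable under `𝔮 ↦ 𝔮^{q^e}` (`k` perfect of characteristic `q`);
* **`T4ePre.ρ_range_of_deg`** (general `a_n`), **`T4ePre.ρ_range`** (`n = 0`, `i ≥ 1`, from
  `[F_i : a_0 F_0] ≤ q^i + q^(i-1)`, i.e. `t4ek_finrank_gen_le` / `t4ek_finrank_fix`).
-/
import Fermat.Agent.Lib.T4E.Tower.Complete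
import Fermat.Agent.Lib.T4E.Tower.Sep

set_option autoImplicit false
set_option linter.unusedSectionVars false
set_option linter.unusedVariables false
set_option linter.style.haveILetI false

open HahnSeries ModularCurve Fermat.Agent.T1 Fermat.Agent.T2 IntermediateField

noncomputable section

namespace Fermat.Agent.T4

section Full

variable {k : Type*} [Field k]

/-- `k(j̄(𝔮^d) : d ∣ N)` is stable under `coeffMap σ` for every ring endomorphism `σ` of `k` -/
theorem t4er_coeffMap_mem_full (σ : k →+* k) (N : ℕ) [NeZero N] {r : LaurentSeries k}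
    (hr : r ∈ modularFunctionFieldFullC k N) :
    coeffMap σ r ∈ modularFunctionFieldFullC k N := by
  unfold modularFunctionFieldFullC at hr
  induction hr using IntermediateField.adjoin_induction with
  | mem x hx =>
    obtain ⟨d, hd0, hd, rfl⟩ := hx
    rw [coeffMap_qExpand, coeffMap_jqModC]
    exact jqModCd_mem_full k N hd
  | algebraMap c =>
    rw [ta_algebraMap_eq_C, t4v_coeffMap_C, ← ta_algebraMap_eq_C]
    exact (modularFunctionFieldFullC k N).algebraMap_mem _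
  | add x y _ _ hx hy =>
    rw [map_add]
    exact add_mem hx hy
  | inv x _ hx =>
    rw [map_inv₀]
    exact inv_mem hx
  | mul x y _ _ hx hy =>
    rw [map_mul]
    exact mul_mem hx hy

variable (q : ℕ) [hq : Fact q.Prime] [CharP k q] [PerfectRing k q]

/-- `g(𝔮^q) = (σ⁻¹ g)^q` -/
theorem t4er_qExpand_eq_pow (g : LaurentSeries k) :
    haveI : NeZero q := ⟨hq.out.ne_zero⟩
    qExpand k q g = coeffMap ((frobeniusEquiv k q).symm : k →+* k) g ^ q := by
  haveI : NeZero q := ⟨hq.out.ne_zero⟩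
  rw [tkr_pow_char q, coeffMap_coeffMap]
  have h : (frobenius k q).comp ((frobeniusEquiv k q).symm : k →+* k) = RingHom.id k := by
    ext c
    simp
  rw [coeffMap_congr h, coeffMap_id]

/-- `k(j̄(𝔮^d) : d ∣ N)` is stable under `𝔮 ↦ 𝔮^q` -/
theorem t4er_qExpand_char_mem_full (N : ℕ) [NeZero N] {r : LaurentSeries k}
    (hr : r ∈ modularFunctionFieldFullC k N) :
    haveI : NeZero q := ⟨hq.out.ne_zero⟩
    qExpand k q r ∈ modularFunctionFieldFullC k N := by
  haveI : NeZero q := ⟨hq.out.ne_zero⟩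
  rw [t4er_qExpand_eq_pow q r]
  exact pow_mem (t4er_coeffMap_mem_full _ N hr) q

/-- `k(j̄(𝔮^d) : d ∣ N)` is stable under `𝔮 ↦ 𝔮^{q^e}` -/
theorem t4er_qExpand_mem_full (N : ℕ) [NeZero N] : ∀ (e : ℕ) {r : LaurentSeries k},
    r ∈ modularFunctionFieldFullC k N →
    haveI : NeZero (q ^ e) := ⟨pow_ne_zero _ hq.out.ne_zero⟩
    qExpand k (q ^ e) r ∈ modularFunctionFieldFullC k N
  | 0, r, hr => by
    haveI : NeZero (q ^ 0) := ⟨pow_ne_zero _ hq.out.ne_zero⟩
    rw [qExpand_congr (pow_zero q) r, qExpand_one_apply]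
    exact hr
  | e + 1, r, hr => by
    haveI : NeZero q := ⟨hq.out.ne_zero⟩
    haveI : NeZero (q ^ e) := ⟨pow_ne_zero _ hq.out.ne_zero⟩
    haveI : NeZero (q ^ (e + 1)) := ⟨pow_ne_zero _ hq.out.ne_zero⟩
    haveI : NeZero (q * q ^ e) := ⟨mul_ne_zero (NeZero.ne _) (NeZero.ne _)⟩
    have h1 := t4er_qExpand_char_mem_full q N (t4er_qExpand_mem_full N e hr)
    rw [qExpand_qExpand] at h1
    rw [qExpand_congr (pow_succ' q e) r]
    exact h1

end Full

section Range

variable {L : Type} [Field L] [Algebra ℚ L] {O : ValuationSubring L} {k : Type*} [Field k]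
  {π : ↥O →+* k} [IsDiscreteValuationRing ↥O] {hπ : Function.Surjective π} [IsAlgClosed k]
  {N'' q : ℕ} [NeZero N''] [hq : Fact q.Prime] [CharP k q] {i : ℕ}
  (P : T4ePre O π hπ N'' q i) (hqO : Irreducible ((q : ℕ) : ↥O))

include hqO in
/-- **`ρ_range` from the degree bound along `a_n`** -/
theorem T4ePre.ρ_range_of_deg (hN : (N'' : k) ≠ 0) {n : ℕ} (hn : n ≤ i)
    (hfin : letI := t4ekAlg L N'' q i n
      FiniteDimensional ↥(TaF L N'') ↥(TaF L (t4eLev N'' q i)))
    (hdeg : letI := t4ekAlg L N'' q i n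
      Module.finrank ↥(TaF L N'') ↥(TaF L (t4eLev N'' q i)) ≤ t4ekDeg q i n)
    (w : ℕ) (hw : w ≤ i) (x : ↥(P.V w)) :
    ∃ g : ↥(taOv O π hπ N''), P.ρ w x = taResN O π hπ N'' g := by
  letI := t4ekAlg L N'' q i n
  haveI := hfin
  haveI := t4eb_charZero (L := L) (N'' := N'')
  haveI := t4vw_taOv_dvr O π hπ hqO N''
  haveI : NeZero (q ^ t4eExp i w n) := ⟨pow_ne_zero _ hq.out.ne_zero⟩
  have D := P.data hqO hn hfin hdeg
  obtain ⟨r, hr⟩ := D.span_rho ⟨w, Nat.lt_succ_iff.mpr hw⟩ (taResN O π hπ N'') (P.ρ w)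
    (P.ρ_eq_zero w hw) (qExpand k (q ^ t4eExp i w n))
    (fun r => P.ρ_a w hw n hn r r.2) x
  have hmem : P.ρ w x ∈ modularFunctionFieldFullC k N'' := by
    rw [hr]
    refine sum_mem fun b _ => mul_mem ?_ ?_
    · exact t4er_qExpand_mem_full q N'' (t4eExp i w n) (taResN_mem_full O π hπ N'' hN (r b))
    · have hpow : (⟨t4ekT L N'' q i w ^ (b : ℕ), (D.indep ⟨w, Nat.lt_succ_iff.mpr hw⟩).1 b⟩ :
          ↥(P.V w)) = ⟨t4ekT L N'' q i w, P.gen_mem hw⟩ ^ (b : ℕ) := rfl
      rw [hpow, map_pow, P.ρ_gen hw]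
      exact pow_mem (jqModC_mem_full k N'') _
  obtain ⟨g, hg⟩ := exists_taResN_eq_of_mem_full O π hπ N'' hmem
  exact ⟨g, hg.symm⟩

include hqO in
/-- **`ρ_range`** (the field of `T4eLayer`) from `[F_i : a_0 F_0] ≤ q^i + q^(i-1)` -/
theorem T4ePre.ρ_range (hN : (N'' : k) ≠ 0) (hi : 1 ≤ i)
    (hdeg : letI := t4ebAlg L N'' q i
      Module.finrank ↥(TaF L N'') ↥(TaF L (t4eLev N'' q i)) ≤ q ^ i + q ^ (i - 1))
    (w : ℕ) (hw : w ≤ i) (x : ↥(P.V w)) :
    ∃ g : ↥(taOv O π hπ N''), P.ρ w x = taResN O π hπ N'' g :=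
  P.ρ_range_of_deg hqO hN (Nat.zero_le i) t4eb_finiteDimensional
    (by rw [t4ekDeg_zero i hi]; exact hdeg) w hw x

end Range

end Fermat.Agent.T4
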