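/-
T4E / P4 TOWER support (lead): **the separation lemmas for a pre-layer** (`T4ePre`, helper1): tables,
`inj`-free Atkin–Lehner symmetry `comap_w` from completeness along `a_0` (input of
`T4ePre.complete_top_of_sym` and `hstab` of the charts), and the restrictions along `α`, `β`.
-/
import Fermat.Agent.Lib.T4E.Tower.Sep
import Fermat.Agent.Lib.T4E.Tower.Complete

set_option autoImplicit false
set_option linter.unusedSectionVars false
set_option linter.unusedVariables false
set_option linter.style.haveILetI false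

open HahnSeries ModularCurve Fermat.Agent.T1 Fermat.Agent.T2

noncomputable section

namespace Fermat.Agent.T4

section Pre

variable {L : Type} [Field L] [Algebra ℚ L] {k : Type*} [Field k] {N'' q : ℕ} [NeZero N''] [NeZero q]
  {O : ValuationSubring L} {π : ↥O →+* k} [IsDiscreteValuationRing ↥O]
  {hπ : Function.Surjective π}

/-- the component `V w` of a pre-layer carries the table of type `w` (shift `0`) -/
theorem T4ePre.t4es_tab {i : ℕ} (P : T4ePre O π hπ N'' q i) {w : ℕ} (hw : w ≤ i) :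
    T4esTab L k N'' q i w 0 (P.V w) := by
  refine ⟨P.ρ w, P.ρ_eq_zero w hw, fun n hn => ?_⟩
  refine ⟨P.a_mem w hw n hn _ (taJ_mem_taOv O π hπ N''), ?_⟩
  rw [P.ρ_a w hw n hn _ (taJ_mem_taOv O π hπ N''), taResN_taJ]
  exact qExpand_congr (by rw [add_zero]) _

variable [hq : Fact q.Prime] [CharP k q]

/-- **a valuation ring of `F_i` which is a component of the pre-layer and carries a table of type
`w'` is the component `w'`** -/
theorem T4ePre.t4es_eq_of_tab {i : ℕ} (P : T4ePre O π hπ N'' q i)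
    {W : ValuationSubring ↥(TaF L (t4eLev N'' q i))} (hW : ∃ w ≤ i, W = P.V w) {w' s : ℕ}
    (hw' : w' ≤ i) (h : T4esTab L k N'' q i w' s W) : W = P.V w' := by
  obtain ⟨w, hw, e⟩ := hW
  have h2 := P.t4es_tab hw
  rw [← e] at h2
  rw [e, t4es_unique h2 h hw hw']

/-- **the Atkin–Lehner involution exchanges `V_w` and `V_{i-w}`**, for a pre-layer which is complete
along `a_0` -/
theorem T4ePre.t4es_comap_w {i : ℕ} (P : T4ePre O π hπ N'' q i) (A : T4eAL L N'' q i)
    (hcomp : ∀ W : ValuationSubring ↥(TaF L (t4eLev N'' q i)),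
      W.comap (t4eDeg L N'' q i 0).toRingHom = taOv O π hπ N'' → ∃ w ≤ i, W = P.V w)
    {w : ℕ} (hw : w ≤ i) :
    (P.V w).comap (A.w : ↥(TaF L (t4eLev N'' q i)) →+* ↥(TaF L (t4eLev N'' q i)))
      = P.V (i - w) := by
  have hover : ((P.V w).comap
      (A.w : ↥(TaF L (t4eLev N'' q i)) →+* ↥(TaF L (t4eLev N'' q i)))).comap
      (t4eDeg L N'' q i 0).toRingHom = taOv O π hπ N'' := by
    rw [← P.lies_over w hw i le_rfl]
    ext f
    rw [ValuationSubring.mem_comap, ValuationSubring.mem_comap, ValuationSubring.mem_comap]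
    show A.w (t4eDeg L N'' q i 0 f) ∈ _ ↔ _
    rw [A.w_a 0 (Nat.zero_le i) f, Nat.sub_zero]
    rfl
  refine P.t4es_eq_of_tab (hcomp _ hover) (Nat.sub_le i w) (s := 0) ?_
  exact t4es_tab_comap _ (P.t4es_tab hw) fun n hn =>
    ⟨i - n, by omega, A.w_a n hn _, by rw [add_zero, add_zero, t4eExp_flip hw hn]⟩

/-- restriction along `α` for pre-layers (the lower one complete along `a_0`) -/
theorem T4ePre.t4es_comap_alpha {i : ℕ} (lo : T4ePre O π hπ N'' q i)
    (up : T4ePre O π hπ N'' q (i + 1))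
    (hcomp : ∀ W : ValuationSubring ↥(TaF L (t4eLev N'' q i)),
      W.comap (t4eDeg L N'' q i 0).toRingHom = taOv O π hπ N'' → ∃ w ≤ i, W = lo.V w)
    {w : ℕ} (hw : w ≤ i + 1) :
    (up.V w).comap (heckeAlphaBar L (t4eLev N'' q i) q).toRingHom = lo.V (min w i) := by
  have hover : ((up.V w).comap (heckeAlphaBar L (t4eLev N'' q i) q).toRingHom).comap
      (t4eDeg L N'' q i 0).toRingHom = taOv O π hπ N'' := by
    rw [← up.lies_over w hw 0 (by omega)]
    ext f
    rw [ValuationSubring.mem_comap, ValuationSubring.mem_comap, ValuationSubring.mem_comap]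
    show heckeAlphaBar L (t4eLev N'' q i) q (t4eDeg L N'' q i 0 f) ∈ _ ↔ _
    rw [t4e_alpha_deg L N'' q (Nat.zero_le i) f]
    rfl
  refine lo.t4es_eq_of_tab (hcomp _ hover) (Nat.min_le_right w i) (s := t4eShiftA i w) ?_
  exact t4es_tab_comap _ (up.t4es_tab hw) fun n hn =>
    ⟨n, by omega, t4e_alpha_deg L N'' q hn _, by rw [add_zero, t4es_exp_alpha hw hn]⟩

/-- restriction along `β` for pre-layers (the lower one complete along `a_0`) -/
theorem T4ePre.t4es_comap_beta {i : ℕ} (lo : T4ePre O π hπ N'' q i)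
    (up : T4ePre O π hπ N'' q (i + 1))
    (hcomp : ∀ W : ValuationSubring ↥(TaF L (t4eLev N'' q i)),
      W.comap (t4eDeg L N'' q i 0).toRingHom = taOv O π hπ N'' → ∃ w ≤ i, W = lo.V w)
    {w : ℕ} (hw : w ≤ i + 1) :
    (up.V w).comap (heckeBetaBar L (t4eLev N'' q i) q).toRingHom = lo.V (w - 1) := by
  have hover : ((up.V w).comap (heckeBetaBar L (t4eLev N'' q i) q).toRingHom).comap
      (t4eDeg L N'' q i 0).toRingHom = taOv O π hπ N'' := by
    rw [← up.lies_over w hw 1 (by omega)]
    ext f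
    rw [ValuationSubring.mem_comap, ValuationSubring.mem_comap, ValuationSubring.mem_comap]
    show heckeBetaBar L (t4eLev N'' q i) q (t4eDeg L N'' q i 0 f) ∈ _ ↔ _
    rw [t4e_beta_deg L N'' q (Nat.zero_le i) f]
    rfl
  refine lo.t4es_eq_of_tab (hcomp _ hover) (by omega) (s := t4eShiftB i w) ?_
  exact t4es_tab_comap _ (up.t4es_tab hw) fun n hn =>
    ⟨n + 1, by omega, t4e_beta_deg L N'' q hn _, by rw [add_zero, t4es_exp_beta hw hn]⟩

end Pre

end Fermat.Agent.T4
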