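/-
T4E (helper1), package P4 TOWER: **the layer of a pre-layer** — mechanical packaging.

A pre-layer `P : T4ePre O π hπ N'' q i` (`i ≥ 1`; everything read off the embedding records), the
Atkin–Lehner involution `A : T4eAL L N'' q i`, the degree bound `[F_i : a_0 F_0] ≤ q^i + q^(i-1)`
(`t4ek_finrank_gen_le` / `t4ek_finrank_fix`) and the three remaining record fields (`V_top`, `const_mem`,
`ρ_const`) give a full `T4eLayer`:

* `complete` := `T4ePre.complete` (global count, `Tower/Complete.lean`);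
* `complete_top` := `T4ePre.complete_top_of_sym` with lead's `T4ePre.t4es_comap_w` (`Tower/SepPre.lean`);
* `ρ_range` := `T4ePre.ρ_range` (`Tower/Range.lean`).

`T4ePre.toLayer_V`, `T4ePre.toLayer_ρ`, … are `rfl`.  Then `T4eLink`/`T4eSym` are lead's `t4es_link`,
`t4es_sym` (`T4ePre.link`, `T4ePre.sym` below).
-/
import Fermat.Agent.Lib.T4E.Tower.Range
import Fermat.Agent.Lib.T4E.Tower.SepPre

set_option autoImplicit false
set_option linter.unusedSectionVars false
set_option linter.unusedVariables false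
set_option linter.style.haveILetI false

open HahnSeries ModularCurve Fermat.Agent.T1 Fermat.Agent.T2 IntermediateField

noncomputable section

namespace Fermat.Agent.T4

section Pack

variable {L : Type} [Field L] [Algebra ℚ L] {O : ValuationSubring L} {k : Type*} [Field k]
  {π : ↥O →+* k} [IsDiscreteValuationRing ↥O] {hπ : Function.Surjective π} [IsAlgClosed k]
  {N'' q : ℕ} [NeZero N''] [hq : Fact q.Prime] [CharP k q] {i : ℕ}

/-- **the layer of a pre-layer** -/
def T4ePre.toLayer (P : T4ePre O π hπ N'' q i) (A : T4eAL L N'' q i)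
    (hqO : Irreducible ((q : ℕ) : ↥O)) (hN : (N'' : k) ≠ 0) (hi : 1 ≤ i)
    (hdeg : letI := t4ebAlg L N'' q i
      Module.finrank ↥(TaF L N'') ↥(TaF L (t4eLev N'' q i)) ≤ q ^ i + q ^ (i - 1))
    (V_top : P.V i = taOv O π hπ (t4eLev N'' q i))
    (const_mem : ∀ w ≤ i, ∀ c : ↥O, algebraMap L ↥(TaF L (t4eLev N'' q i)) (c : L) ∈ P.V w)
    (ρ_const : ∀ w (hw : w ≤ i) (c : ↥O),
      P.ρ w ⟨_, const_mem w hw c⟩ = HahnSeries.C (π c)) :
    T4eLayer O π hπ N'' q i where
  V := P.V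
  dvr := P.dvr
  inj := P.inj
  V_top := V_top
  lies_over := P.lies_over
  complete := P.complete hqO hi hdeg
  complete_top := P.complete_top_of_sym A
    (fun w hw => P.t4es_comap_w A (P.complete hqO hi hdeg) hw) (P.complete hqO hi hdeg)
  const_mem := const_mem
  ϖ := P.ϖ
  ϖ_lt := P.ϖ_lt
  ϖ_unif := P.ϖ_unif
  q_eq := P.q_eq
  ρ := P.ρ
  ρ_eq_zero := P.ρ_eq_zero
  ρ_const := ρ_const
  a_mem := P.a_mem
  ρ_a := P.ρ_a
  ρ_range := P.ρ_range hqO hN hi hdeg

section Lemmas

variable (P : T4ePre O π hπ N'' q i) (A : T4eAL L N'' q i)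
  (hqO : Irreducible ((q : ℕ) : ↥O)) (hN : (N'' : k) ≠ 0) (hi : 1 ≤ i)
  (hdeg : letI := t4ebAlg L N'' q i
    Module.finrank ↥(TaF L N'') ↥(TaF L (t4eLev N'' q i)) ≤ q ^ i + q ^ (i - 1))
  (V_top : P.V i = taOv O π hπ (t4eLev N'' q i))
  (const_mem : ∀ w ≤ i, ∀ c : ↥O, algebraMap L ↥(TaF L (t4eLev N'' q i)) (c : L) ∈ P.V w)
  (ρ_const : ∀ w (hw : w ≤ i) (c : ↥O), P.ρ w ⟨_, const_mem w hw c⟩ = HahnSeries.C (π c))

@[simp] theorem T4ePre.toLayer_V :
    (P.toLayer A hqO hN hi hdeg V_top const_mem ρ_const).V = P.V := rfl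

@[simp] theorem T4ePre.toLayer_ρ :
    (P.toLayer A hqO hN hi hdeg V_top const_mem ρ_const).ρ = P.ρ := rfl

@[simp] theorem T4ePre.toLayer_ϖ :
    (P.toLayer A hqO hN hi hdeg V_top const_mem ρ_const).ϖ = P.ϖ := rfl

/-- the pre-layer of the layer of a pre-layer -/
theorem T4ePre.ofLayer_toLayer :
    T4ePre.ofLayer (P.toLayer A hqO hN hi hdeg V_top const_mem ρ_const) = P := rfl

/-- the Atkin–Lehner symmetry of the layer of a pre-layer (lead's `t4es_sym`) -/
theorem T4ePre.toLayer_sym :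
    T4eSym (P.toLayer A hqO hN hi hdeg V_top const_mem ρ_const) A :=
  t4es_sym hN _ A

end Lemmas

end Pack

end Fermat.Agent.T4
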