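/-
T4E / P4 TOWER (helper9): **the layers, links and symmetries of the tower from the cusp records**
(abstract DVR level `(L, O, π, k)`).

Input: the Atkin–Lehner involutions `A i : T4eAL L N'' q i` (P3) and the records with uniformiser data
of the components `(a, b)`, `1 ≤ b ≤ a`: `Rc a b : T4eRec O π N'' q (a + b) a` (`t4eRecCusp` of P1 + P2).
Output, for every level `i ≥ 1`:

* `t4eLayerOf … i hi : T4eLayer O π hπ N'' q i` (pre-layer of the records `t4ePreOf` + helper1's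
  `T4ePre.toLayer`: completeness by the global count, `ρ_range`; lead's `SepPre` for `complete_top`);
* `t4eLinkOf … : T4eLink (t4eLayerOf … i) (t4eLayerOf … (i + 1))` (lead's `t4es_link`, helper3's degree);
* `t4eSymOf … : T4eSym (t4eLayerOf … i) (A i)` (lead's `t4es_sym`).
-/
import Fermat.Agent.Lib.T4E.Tower.Layer
import Fermat.Agent.Lib.T4E.Tower.Pack
import Fermat.Agent.Lib.T4E.Tower.DegGen

set_option autoImplicit false
set_option linter.unusedSectionVars false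
set_option linter.unusedVariables false
set_option linter.style.haveILetI false

open HahnSeries ModularCurve Fermat.Agent.T1 Fermat.Agent.T2

noncomputable section

namespace Fermat.Agent.T4

section Final

variable {L : Type} [Field L] [Algebra ℚ L] {O : ValuationSubring L} {k : Type*} [Field k]
  {π : ↥O →+* k} [IsDiscreteValuationRing ↥O] (hπ : Function.Surjective π) [IsAlgClosed k]
  {N'' q : ℕ} [NeZero N''] [hq : Fact q.Prime] [CharP k q]
  (hqO : Irreducible ((q : ℕ) : ↥O)) (hN : (N'' : k) ≠ 0) (hN'' : ¬ q ∣ N'')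
  (A : ∀ i : ℕ, T4eAL L N'' q i)
  (Rc : ∀ a b : ℕ, 1 ≤ b → b ≤ a → T4eRec O π N'' q (a + b) a)

/-- **the layer of level `i ≥ 1`** -/
def t4eLayerOf (i : ℕ) (hi : 1 ≤ i) : T4eLayer O π hπ N'' q i :=
  (t4ePreOf hπ hqO A Rc i).toLayer (A i) hqO hN hi
    (t4ek_finrank_gen_le L N'' q hq.out hN'' i hi)
    (t4ePreOf_V_top hπ hqO A Rc i)
    (fun w _ c => t4ePreOf_const_mem hπ hqO A Rc i w c)
    (fun w _ c => t4ePreOf_ρ_const hπ hqO A Rc i w c)

theorem t4eLayerOf_V (i : ℕ) (hi : 1 ≤ i) (w : ℕ) :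
    (t4eLayerOf hπ hqO hN hN'' A Rc i hi).V w = (t4eRecOf hqO A Rc i w).V hπ := rfl

theorem t4eLayerOf_ρ (i : ℕ) (hi : 1 ≤ i) (w : ℕ) :
    (t4eLayerOf hπ hqO hN hN'' A Rc i hi).ρ w = (t4eRecOf hqO A Rc i w).ρ hπ := rfl

theorem t4eLayerOf_ϖ (i : ℕ) (hi : 1 ≤ i) (w : ℕ) :
    (t4eLayerOf hπ hqO hN hN'' A Rc i hi).ϖ w = (t4eRecOf hqO A Rc i w).ϖ := rfl

theorem t4e_dvd_lev (i : ℕ) (hi : 1 ≤ i) : q ∣ t4eLev N'' q i := by
  obtain ⟨j, rfl⟩ : ∃ j, i = j + 1 := ⟨i - 1, by omega⟩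
  exact Dvd.intro_left _ rfl

/-- **the link between consecutive layers** -/
theorem t4eLinkOf (i : ℕ) (hi : 1 ≤ i) :
    T4eLink (t4eLayerOf hπ hqO hN hN'' A Rc i hi)
      (t4eLayerOf hπ hqO hN hN'' A Rc (i + 1) (by omega)) :=
  t4es_link hN _ _ (fun _ => t4e_finrank_alpha_gen L (t4eLev N'' q i) q hq.out (t4e_dvd_lev i hi))

/-- **the Atkin–Lehner symmetry of the layers** -/
theorem t4eSymOf (i : ℕ) (hi : 1 ≤ i) :
    T4eSym (t4eLayerOf hπ hqO hN hN'' A Rc i hi) (A i) :=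
  t4es_sym hN _ (A i)

end Final

end Fermat.Agent.T4
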