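/-
T4E / P4 TOWER (lead): **the tower at the inertia (Fix) level** `L = tbFix 𝔓 ⊤`, `O = tbFixO 𝔓 ⊤`,
`π = tbFixRes 𝔓 ⊤`, `q = 𝔓.p`, `p ∤ N''`: the inputs of helper9's `Tower/Final.lean` —

* `t4efZeta 𝔓 b` : a chosen primitive `p^b`-th root of unity of `ℚ̄`;
* `t4efRc 𝔓 N'' h a b hb hba : T4eRec … (a + b) a` : the record with uniformiser data of the component
  `(a, b)`, `1 ≤ b ≤ a` (`t4eRecCusp` of helper8's `t4eCycFix` and the cusp embedding `t4eCuspCycFix`);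
* `t4efAL 𝔓 N'' h i : T4eAL … i` : the Atkin–Lehner involutions (helper4's `t4eALFix`);

and the outputs: **`t4efLayer 𝔓 N'' h i hi : T4eLayer (tbFixO 𝔓 ⊤) (tbFixRes 𝔓 ⊤) _ N'' 𝔓.p i`** for every
`i ≥ 1`, **`t4ef_link`** (`T4eLink` between consecutive layers) and **`t4ef_sym`** (`T4eSym`).
-/
import Fermat.Agent.Lib.T4E.Tower.Final
import Fermat.Agent.Lib.T4E.Cusp.Fix
import Fermat.Agent.Lib.T4E.AL.Fix
import Fermat.Agent.Lib.T4.Inst.CycVal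
import Fermat.Agent.Lib.T2.Inst.LevelH

set_option autoImplicit false
set_option linter.unusedSectionVars false
set_option linter.unusedVariables false
set_option linter.style.haveILetI false
set_option synthInstance.maxHeartbeats 400000

namespace Fermat.Agent.T4

open Fermat.Agent.S24Lib Fermat.Agent.T1 Fermat.Agent.T1.KMod Fermat.Agent.T2
open ModularCurve HahnSeries Fermat.Agent.TW Fermat.Agent.S05Lib

local notation "Qb" => AlgebraicClosure ℚ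

noncomputable section

section Fix

attribute [local instance] t2i_dvr t2i_isAlgClosed t2i_charP t2i_fact

variable (𝔓 : FFPlace) (N'' : ℕ) [NeZero N''] (h : ¬ 𝔓.p ∣ N'')

/-- a chosen primitive `p^b`-th root of unity -/
def t4efZeta (b : ℕ) : Qb := (t4ecy_exists_zeta 𝔓 b).choose

theorem t4efZeta_spec (b : ℕ) : IsPrimitiveRoot (t4efZeta 𝔓 b) (𝔓.p ^ b) :=
  (t4ecy_exists_zeta 𝔓 b).choose_spec

/-- **the records with uniformiser data of the components `(a, b)`, `1 ≤ b ≤ a`, at the inertia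
level** -/
def t4efRc (a b : ℕ) (hb : 1 ≤ b) (hba : b ≤ a) :
    T4eRec (tbFixO 𝔓 (⊤ : Subgroup 𝔓.I)) (tbFixRes 𝔓 (⊤ : Subgroup 𝔓.I)) N'' 𝔓.p (a + b) a :=
  letI := t4cyAlgebra 𝔓 (le_top : t4cyH 𝔓 (t4efZeta 𝔓 b) ≤ ⊤)
  t4eRecCusp (tbFixRes_surjective 𝔓 (⊤ : Subgroup 𝔓.I))
    (t4eCycFix 𝔓 (Nat.one_le_iff_ne_zero.mp hb) (t4efZeta_spec 𝔓 b)) hb hba
    (t4eCuspCycFix 𝔓 N'' h a b hba hb (t4efZeta_spec 𝔓 b))

/-- the Atkin–Lehner involutions at the inertia level -/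
def t4efAL (i : ℕ) : T4eAL ↥(tbFix 𝔓 (⊤ : Subgroup 𝔓.I)) N'' 𝔓.p i :=
  t4eALFix 𝔓 (⊤ : Subgroup 𝔓.I) N'' h i

/-- **the vertical layer of level `i ≥ 1` at the inertia level** -/
def t4efLayer (i : ℕ) (hi : 1 ≤ i) :
    T4eLayer (tbFixO 𝔓 (⊤ : Subgroup 𝔓.I)) (tbFixRes 𝔓 (⊤ : Subgroup 𝔓.I))
      (tbFixRes_surjective 𝔓 (⊤ : Subgroup 𝔓.I)) N'' 𝔓.p i :=
  t4eLayerOf (tbFixRes_surjective 𝔓 (⊤ : Subgroup 𝔓.I)) (t4cy_irreducible_p 𝔓)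
    (t2i_natCast_ne_zero 𝔓 h) h (t4efAL 𝔓 N'' h) (t4efRc 𝔓 N'' h) i hi

/-- **the link between consecutive layers at the inertia level** -/
theorem t4ef_link (i : ℕ) (hi : 1 ≤ i) :
    T4eLink (t4efLayer 𝔓 N'' h i hi) (t4efLayer 𝔓 N'' h (i + 1) (by omega)) :=
  t4eLinkOf (tbFixRes_surjective 𝔓 (⊤ : Subgroup 𝔓.I)) (t4cy_irreducible_p 𝔓)
    (t2i_natCast_ne_zero 𝔓 h) h (t4efAL 𝔓 N'' h) (t4efRc 𝔓 N'' h) i hi

/-- **the Atkin–Lehner symmetry of the layers at the inertia level** -/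
theorem t4ef_sym (i : ℕ) (hi : 1 ≤ i) : T4eSym (t4efLayer 𝔓 N'' h i hi) (t4efAL 𝔓 N'' h i) :=
  t4eSymOf (tbFixRes_surjective 𝔓 (⊤ : Subgroup 𝔓.I)) (t4cy_irreducible_p 𝔓)
    (t2i_natCast_ne_zero 𝔓 h) h (t4efAL 𝔓 N'' h) (t4efRc 𝔓 N'' h) i hi

end Fix

end

end Fermat.Agent.T4
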