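/-
T4E (helper1), package P4 TOWER: **the general degeneracy embeddings between the levels of the tower**

  `γ = t4eGamTo L N'' q (h : j + s ≤ i) : F_j →ₐ[L] F_i`,  `x(𝔮) ↦ x(𝔮^{q^s})`  (`= α^{i-j-s} ∘ β^s`),

defined directly on Laurent series (so there is no cast between the levels), with

* `coe_t4eGamTo` (`rfl`), `t4eGamTo_deg : γ (a_n f) = a_{n+s} f` (`n ≤ j`), `t4eGamTo_const`;
* `t4eGamTo_alpha`, `t4eGamTo_beta` (the consecutive cases are `heckeAlphaBar`, `heckeBetaBar`),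
  `t4eGamTo_comp`, `t4eGamTo_zero` (`j = 0`: `γ = a_s`), `t4eGamTo_refl`;
* the arithmetic of the residue tables: `t4egm_exp : t4eExp i w (n + s) = t4eExp j (min (w - s) j) n
  + t4eShiftG i j s w` for all `n ≤ j`;
* **`T4ePre.t4egm_comap`**: `(P_i.V w).comap γ = P_j.V (min (w - s) j)` for pre-layers (`P_j` complete along
  `a_0`), `t4egm_comap` for layers, and the compatibility of the reductions **`t4egm_rho`**:
  `Y_i.ρ w (γ x) = (Y_j.ρ (min (w - s) j) x)(𝔮^{q^σ})`, `σ = t4eShiftG i j s w`.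
-/
import Fermat.Agent.Lib.T4E.Tower.SepPre

set_option autoImplicit false
set_option linter.unusedSectionVars false
set_option linter.unusedVariables false
set_option linter.style.haveILetI false

open HahnSeries ModularCurve Fermat.Agent.T1 Fermat.Agent.T2

noncomputable section

namespace Fermat.Agent.T4

/-! ### The embeddings -/

section Gam

variable (L : Type) [Field L] [Algebra ℚ L] (N'' q : ℕ) [NeZero N''] [NeZero q]

/-- `x ∈ F_j ⇒ x(𝔮^{q^s}) ∈ F_{j+s}` -/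
theorem t4egm_mem_beta (j : ℕ) : ∀ (s : ℕ) (x : LaurentSeries L), x ∈ TaF L (t4eLev N'' q j) →
    qExpand L (q ^ s) x ∈ TaF L (t4eLev N'' q (j + s))
  | 0, x, hx => by
    rw [qExpand_congr (pow_zero q) x, qExpand_one_apply]
    exact hx
  | s + 1, x, hx => by
    have ih := t4egm_mem_beta j s x hx
    have h1 := (heckeBetaBar L (t4eLev N'' q (j + s)) q ⟨_, ih⟩).2
    rw [coe_heckeBetaBar, qExpand_qExpand] at h1
    rw [qExpand_congr (pow_succ' q s) x]
    exact h1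

/-- `x ∈ F_m ⇒ x ∈ F_{m+t}` -/
theorem t4egm_mem_alpha (m : ℕ) : ∀ (t : ℕ) (x : LaurentSeries L), x ∈ TaF L (t4eLev N'' q m) →
    x ∈ TaF L (t4eLev N'' q (m + t))
  | 0, x, hx => hx
  | t + 1, x, hx => by
    have ih := t4egm_mem_alpha m t x hx
    have h1 := (heckeAlphaBar L (t4eLev N'' q (m + t)) q ⟨_, ih⟩).2
    rw [coe_heckeAlphaBar] at h1
    exact h1

variable {N'' q} in
/-- `x ∈ F_j`, `j + s ≤ i` `⇒` `x(𝔮^{q^s}) ∈ F_i` -/
theorem t4egm_mem {j s i : ℕ} (h : j + s ≤ i) {x : LaurentSeries L}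
    (hx : x ∈ TaF L (t4eLev N'' q j)) : qExpand L (q ^ s) x ∈ TaF L (t4eLev N'' q i) := by
  obtain ⟨t, rfl⟩ : ∃ t, i = j + s + t := ⟨i - (j + s), by omega⟩
  exact t4egm_mem_alpha L N'' q (j + s) t _ (t4egm_mem_beta L N'' q j s x hx)

variable {N'' q} in
/-- **the general degeneracy embedding** `F_j → F_i`, `x(𝔮) ↦ x(𝔮^{q^s})`, `j + s ≤ i` -/
def t4eGamTo {j s i : ℕ} (h : j + s ≤ i) :
    ↥(TaF L (t4eLev N'' q j)) →ₐ[L] ↥(TaF L (t4eLev N'' q i)) where
  toFun x := ⟨qExpand L (q ^ s) (x : LaurentSeries L), t4egm_mem L h x.2⟩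
  map_one' := Subtype.ext (map_one (qExpand L (q ^ s)))
  map_mul' _ _ := Subtype.ext (map_mul (qExpand L (q ^ s)) _ _)
  map_zero' := Subtype.ext (map_zero (qExpand L (q ^ s)))
  map_add' _ _ := Subtype.ext (map_add (qExpand L (q ^ s)) _ _)
  commutes' := fun a => Subtype.ext <| by
    show qExpand L (q ^ s) (algebraMap L (LaurentSeries L) a) = algebraMap L (LaurentSeries L) a
    rw [algebraMap_laurentSeries_eq_single, qExpand_single, mul_zero]

variable {L N'' q}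

@[simp] theorem coe_t4eGamTo {j s i : ℕ} (h : j + s ≤ i) (x : ↥(TaF L (t4eLev N'' q j))) :
    ((t4eGamTo L h x : ↥(TaF L (t4eLev N'' q i))) : LaurentSeries L)
      = qExpand L (q ^ s) (x : LaurentSeries L) := rfl

/-- **`γ (a_n f) = a_{n+s} f`** -/
theorem t4eGamTo_deg {j s i : ℕ} (h : j + s ≤ i) {n : ℕ} (hn : n ≤ j) (f : ↥(TaF L N'')) :
    t4eGamTo L h (t4eDeg L N'' q j n f) = t4eDeg L N'' q i (n + s) f := by
  apply Subtype.ext
  rw [coe_t4eGamTo, coe_t4eDeg L N'' q j n hn f, coe_t4eDeg L N'' q i (n + s) (by omega) f,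
    qExpand_qExpand]
  exact qExpand_congr (by rw [_root_.pow_add, mul_comm]) _

theorem t4eGamTo_const {j s i : ℕ} (h : j + s ≤ i) (c : L) :
    t4eGamTo L h (algebraMap L ↥(TaF L (t4eLev N'' q j)) c)
      = algebraMap L ↥(TaF L (t4eLev N'' q i)) c := (t4eGamTo L h).commutes c

/-- the consecutive case `s = 0` is `α` -/
theorem t4eGamTo_alpha (j : ℕ) (x : ↥(TaF L (t4eLev N'' q j))) :
    t4eGamTo L (show j + 0 ≤ j + 1 by omega) x = heckeAlphaBar L (t4eLev N'' q j) q x := by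
  apply Subtype.ext
  rw [coe_t4eGamTo, coe_heckeAlphaBar, qExpand_congr (pow_zero q) _, qExpand_one_apply]

/-- the consecutive case `s = 1` is `β` -/
theorem t4eGamTo_beta (j : ℕ) (x : ↥(TaF L (t4eLev N'' q j))) :
    t4eGamTo L (le_refl (j + 1)) x = heckeBetaBar L (t4eLev N'' q j) q x := by
  apply Subtype.ext
  rw [coe_t4eGamTo, coe_heckeBetaBar]
  exact qExpand_congr (pow_one q) _

/-- composition -/
theorem t4eGamTo_comp {j s i s' i' : ℕ} (h : j + s ≤ i) (h' : i + s' ≤ i')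
    (x : ↥(TaF L (t4eLev N'' q j))) :
    t4eGamTo L h' (t4eGamTo L h x) = t4eGamTo L (show j + (s + s') ≤ i' by omega) x := by
  apply Subtype.ext
  rw [coe_t4eGamTo, coe_t4eGamTo, coe_t4eGamTo, qExpand_qExpand]
  exact qExpand_congr (by rw [_root_.pow_add, mul_comm]) _

/-- on `F_0` the embedding `γ` is the degeneracy map `a_s` -/
theorem t4eGamTo_zero {s i : ℕ} (h : 0 + s ≤ i) (f : ↥(TaF L N'')) :
    t4eGamTo L (N'' := N'') (q := q) (j := 0) h f = t4eDeg L N'' q i s f := by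
  apply Subtype.ext
  rw [coe_t4eGamTo, coe_t4eDeg L N'' q i s (by omega) f]

theorem t4eGamTo_refl (i : ℕ) (x : ↥(TaF L (t4eLev N'' q i))) :
    t4eGamTo L (show i + 0 ≤ i by omega) x = x := by
  apply Subtype.ext
  rw [coe_t4eGamTo, qExpand_congr (pow_zero q) _, qExpand_one_apply]

/-- `γ` only depends on `s` -/
theorem t4eGamTo_congr {j s s' i : ℕ} (h : j + s ≤ i) (e : s = s')
    (x : ↥(TaF L (t4eLev N'' q j))) :
    t4eGamTo L h x = t4eGamTo L (show j + s' ≤ i by omega) x := by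
  subst e
  rfl

/-- level `1`: `γ ∘ α = a_s` -/
theorem t4eGamTo_one_alpha {s i : ℕ} (h : 1 + s ≤ i) (f : ↥(TaF L N'')) :
    t4eGamTo L (N'' := N'') (q := q) (j := 1) h (heckeAlphaBar L N'' q f)
      = t4eDeg L N'' q i s f := by
  apply Subtype.ext
  rw [coe_t4eGamTo, coe_t4eDeg L N'' q i s (by omega) f]
  exact congrArg (qExpand L (q ^ s)) (coe_heckeAlphaBar N'' q f)

/-- level `1`: `γ ∘ β = a_{s+1}` -/
theorem t4eGamTo_one_beta {s i : ℕ} (h : 1 + s ≤ i) (f : ↥(TaF L N'')) :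
    t4eGamTo L (N'' := N'') (q := q) (j := 1) h (heckeBetaBar L N'' q f)
      = t4eDeg L N'' q i (s + 1) f := by
  apply Subtype.ext
  rw [coe_t4eGamTo, coe_t4eDeg L N'' q i (s + 1) (by omega) f]
  have e : ((heckeBetaBar L N'' q f : ↥(TaF L (N'' * q))) : LaurentSeries L)
      = qExpand L q (f : LaurentSeries L) := coe_heckeBetaBar N'' q f
  have e' : qExpand L (q ^ s) ((heckeBetaBar L N'' q f : ↥(TaF L (N'' * q))) : LaurentSeries L)
      = qExpand L (q ^ s) (qExpand L q (f : LaurentSeries L)) := congrArg (qExpand L (q ^ s)) e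
  refine e'.trans ?_
  rw [qExpand_qExpand]
  exact qExpand_congr (pow_succ q s).symm _

/-- **`γ` and the Atkin–Lehner involutions**: `w_i ∘ γ_s = γ_{i-j-s} ∘ w_j` -/
theorem t4eGamTo_al (hq : q.Prime) {j s i : ℕ} (h : j + s ≤ i) (Wi : T4eAL L N'' q i)
    (Wj : T4eAL L N'' q j) (x : ↥(TaF L (t4eLev N'' q j))) :
    Wi.w (t4eGamTo L h x) = t4eGamTo L (show j + (i - j - s) ≤ i by omega) (Wj.w x) := by
  have h' : j + (i - j - s) ≤ i := by omega
  have key : ((Wi.w : ↥(TaF L (t4eLev N'' q i)) →+* ↥(TaF L (t4eLev N'' q i))).comp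
      (t4eGamTo L (N'' := N'') (q := q) h).toRingHom)
      = ((t4eGamTo L (N'' := N'') (q := q) h').toRingHom).comp
        (Wj.w : ↥(TaF L (t4eLev N'' q j)) →+* ↥(TaF L (t4eLev N'' q j))) := by
    apply t4e_ringHom_ext L N'' q hq j
    · intro c
      show Wi.w (t4eGamTo L h (algebraMap L _ c)) = t4eGamTo L h' (Wj.w (algebraMap L _ c))
      rw [t4eGamTo_const, Wi.w.commutes, Wj.w.commutes, t4eGamTo_const]
    · intro n hn f
      show Wi.w (t4eGamTo L h (t4eDeg L N'' q j n f)) = t4eGamTo L h' (Wj.w (t4eDeg L N'' q j n f))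
      have e : i - (n + s) = j - n + (i - j - s) := by omega
      rw [t4eGamTo_deg h hn f, Wi.w_a (n + s) (by omega) f, Wj.w_a n hn f,
        t4eGamTo_deg h' (Nat.sub_le j n) f, e]
  exact RingHom.congr_fun key x

end Gam

/-! ### The arithmetic of the tables -/

/-- the shift of the residue maps along `γ` -/
def t4eShiftG (i j s w : ℕ) : ℕ := t4eExp i w s - t4eExp j (min (w - s) j) 0

/-- **`t4eExp i w (n + s) = t4eExp j (min (w - s) j) n + σ`** for all `n ≤ j` (`j + s ≤ i`, `w ≤ i`) -/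
theorem t4egm_exp {i j s w n : ℕ} (h : j + s ≤ i) (hw : w ≤ i) (hn : n ≤ j) :
    t4eExp i w (n + s) = t4eExp j (min (w - s) j) n + t4eShiftG i j s w := by
  unfold t4eShiftG t4eExp
  rcases le_total (w - s) j with h1 | h1
  · rw [min_eq_left h1]
    (split_ifs; all_goals omega)
  · rw [min_eq_right h1]
    (split_ifs; all_goals omega)


/-! ### Restriction of the components along `γ` -/

section Comap

variable {L : Type} [Field L] [Algebra ℚ L] {k : Type*} [Field k] {N'' q : ℕ} [NeZero N''] [NeZero q]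
  {O : ValuationSubring L} {π : ↥O →+* k} [IsDiscreteValuationRing ↥O]
  {hπ : Function.Surjective π} [hq : Fact q.Prime] [CharP k q]

/-- the table of `V.comap γ` -/
theorem t4egm_tab_comap {i j s w : ℕ} (h : j + s ≤ i) (hw : w ≤ i)
    {V : ValuationSubring ↥(TaF L (t4eLev N'' q i))} (hV : T4esTab L k N'' q i w 0 V) :
    T4esTab L k N'' q j (min (w - s) j) (t4eShiftG i j s w)
      (V.comap (t4eGamTo L (N'' := N'') (q := q) h).toRingHom) := by
  refine t4es_tab_comap _ hV fun n hn => ⟨n + s, by omega, t4eGamTo_deg h hn _, ?_⟩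
  rw [add_zero, t4egm_exp h hw hn]

/-- `V.comap γ` lies over the Gauss valuation ring of level `0` along `a_0` -/
theorem T4ePre.t4egm_over {i j s w : ℕ} (Pi : T4ePre O π hπ N'' q i) (h : j + s ≤ i)
    (hw : w ≤ i) :
    ((Pi.V w).comap (t4eGamTo L (N'' := N'') (q := q) h).toRingHom).comap
      (t4eDeg L N'' q j 0).toRingHom = taOv O π hπ N'' := by
  rw [← Pi.lies_over w hw s (by omega)]
  ext f
  rw [ValuationSubring.mem_comap, ValuationSubring.mem_comap, ValuationSubring.mem_comap]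
  show t4eGamTo L h (t4eDeg L N'' q j 0 f) ∈ _ ↔ _
  rw [t4eGamTo_deg h (Nat.zero_le j) f, zero_add]
  rfl

theorem T4ePre.t4egm_comap {i j s w : ℕ} (Pi : T4ePre O π hπ N'' q i)
    (Pj : T4ePre O π hπ N'' q j) (h : j + s ≤ i)
    (hcomp : ∀ W : ValuationSubring ↥(TaF L (t4eLev N'' q j)),
      W.comap (t4eDeg L N'' q j 0).toRingHom = taOv O π hπ N'' → ∃ w ≤ j, W = Pj.V w)
    (hw : w ≤ i) :
    (Pi.V w).comap (t4eGamTo L (N'' := N'') (q := q) h).toRingHom = Pj.V (min (w - s) j) :=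
  Pj.t4es_eq_of_tab (hcomp _ (Pi.t4egm_over h hw)) (Nat.min_le_right _ _)
    (t4egm_tab_comap h hw (Pi.t4es_tab hw))

/-- **restriction along `γ` for layers** -/
theorem t4egm_comap {i j s w : ℕ} (Yi : T4eLayer O π hπ N'' q i) (Yj : T4eLayer O π hπ N'' q j)
    (h : j + s ≤ i) (hw : w ≤ i) :
    (Yi.V w).comap (t4eGamTo L (N'' := N'') (q := q) h).toRingHom = Yj.V (min (w - s) j) :=
  (T4ePre.ofLayer Yi).t4egm_comap (T4ePre.ofLayer Yj) h Yj.complete hw

theorem t4egm_comap_top {i j s : ℕ} (Yi : T4eLayer O π hπ N'' q i) (Yj : T4eLayer O π hπ N'' q j)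
    (h : j + s ≤ i) {w : ℕ} (hw : w ≤ i) (hjw : j + s ≤ w) :
    (Yi.V w).comap (t4eGamTo L (N'' := N'') (q := q) h).toRingHom
      = taOv O π hπ (t4eLev N'' q j) := by
  have e : min (w - s) j = j := by omega
  rw [t4egm_comap Yi Yj h hw, e, Yj.V_top]

theorem t4egm_comap_bot {i j s : ℕ} (Yi : T4eLayer O π hπ N'' q i) (Yj : T4eLayer O π hπ N'' q j)
    (h : j + s ≤ i) {w : ℕ} (hw : w ≤ i) (hws : w ≤ s) :
    (Yi.V w).comap (t4eGamTo L (N'' := N'') (q := q) h).toRingHom = Yj.V 0 := by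
  have e : min (w - s) j = 0 := by omega
  rw [t4egm_comap Yi Yj h hw, e]

theorem t4egm_mem_V {i j s w : ℕ} (Yi : T4eLayer O π hπ N'' q i)
    (Yj : T4eLayer O π hπ N'' q j) (h : j + s ≤ i) (hw : w ≤ i)
    (x : ↥(TaF L (t4eLev N'' q j))) :
    t4eGamTo L h x ∈ Yi.V w ↔ x ∈ Yj.V (min (w - s) j) := by
  have e := t4egm_comap Yi Yj h hw
  rw [← e, ValuationSubring.mem_comap]
  exact Iff.rfl

variable [IsAlgClosed k]

theorem t4egm_rho (hN : (N'' : k) ≠ 0) {i j s w : ℕ} (Yi : T4eLayer O π hπ N'' q i)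
    (Yj : T4eLayer O π hπ N'' q j) (h : j + s ≤ i) (hw : w ≤ i)
    (x : ↥(TaF L (t4eLev N'' q j))) (hx : x ∈ Yj.V (min (w - s) j))
    (hx' : t4eGamTo L h x ∈ Yi.V w) :
    Yi.ρ w ⟨_, hx'⟩ = qExpand k (q ^ t4eShiftG i j s w) (Yj.ρ (min (w - s) j) ⟨x, hx⟩) := by
  have hφ : ∀ f : ↥(TaF L N''), (t4eGamTo L (N'' := N'') (q := q) h).toRingHom
      (t4eDeg L N'' q j 0 f) = t4eDeg L N'' q i (0 + s) f :=
    fun f => t4eGamTo_deg h (Nat.zero_le j) f
  have hx'' : (t4eGamTo L (N'' := N'') (q := q) h).toRingHom x ∈ Yi.V w := hx'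
  have hexp : t4eExp i w (0 + s) = t4eExp j (min (w - s) j) 0 + t4eShiftG i j s w :=
    t4egm_exp h hw (Nat.zero_le j)
  have hm : 0 + s ≤ i := by omega
  exact t4es_rho_comap (i := j) (i' := i) (w := min (w - s) j) (w' := w)
    (s := t4eShiftG i j s w) (n₀ := 0) (m₀ := 0 + s) hN
    (t4eGamTo L (N'' := N'') (q := q) h).toRingHom Yj Yi (Nat.min_le_right _ _) hw
    (t4egm_comap Yi Yj h hw) (Nat.zero_le j) hm hφ hexp x hx hx''

end Comap
end Fermat.Agent.T4
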