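/-
T4E / P4 TOWER (helper9): **(UNIT-ρ) for the layers built from the records** (`T4eLayer.RhoUnit`,
helper8's `Reg/Ord.lean`).

* `T4eRec.RhoUnit R hπ` : the same statement for one record;
* `t4eRecCusp_rhoUnit`, `t4eRecCusp_flip_rhoUnit` : it holds for the cusp record of the component
  `(a, b)`, `1 ≤ b ≤ a`, and for its flip (helper8's `t4eru_pi_f_pow`, `t4eru_pi_f_pow_flip`);
* `t4eLayerOf_rhoUnit` : hence for every component `w ≤ i` with `1 ≤ min w (i - w)` of the layer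
  `t4eLayerOf …`.
-/
import Fermat.Agent.Lib.T4E.Tower.Final
import Fermat.Agent.Lib.T4E.Reg.Ord

set_option autoImplicit false
set_option linter.unusedSectionVars false
set_option linter.unusedVariables false
set_option linter.style.haveILetI false

open HahnSeries ModularCurve Fermat.Agent.T1 Fermat.Agent.T2

noncomputable section

namespace Fermat.Agent.T4

section RhoUnit

variable {L : Type} [Field L] [Algebra ℚ L] {O : ValuationSubring L} {k : Type*} [Field k]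
  {π : ↥O →+* k} [IsDiscreteValuationRing ↥O] (hπ : Function.Surjective π)
  {N'' q : ℕ} [NeZero N''] [hq : Fact q.Prime]

/-- (UNIT-ρ) for one record -/
def T4eRec.RhoUnit {i w : ℕ} (R : T4eRec O π N'' q i w) : Prop :=
  ∀ (f : ↥(TaF L N'')) (hf : f ∈ taOv O π hπ N''),
    ∃ hx : (t4eDeg L N'' q i (w + min w (i - w)) f - t4eDeg L N'' q i (w - min w (i - w)) f)
        ^ t4eMult q i w / ((q : ℕ) : ↥(TaF L (t4eLev N'' q i))) ∈ R.V hπ,
      R.ρ hπ ⟨_, hx⟩ =
        -(qExpand k (q ^ t4eExp i w (w - min w (i - w)))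
          (t4vTheta (taResN O π hπ N'' ⟨f, hf⟩))) ^ t4eMult q i w

/-- reformulation with the combinatorial quantities as parameters -/
theorem T4eRec.rhoUnit_of {i w : ℕ} (R : T4eRec O π N'' q i w) {c μ x n₁ n₂ : ℕ}
    (hc₁ : w + min w (i - w) = n₁) (hc₂ : w - min w (i - w) = n₂) (hμ : t4eMult q i w = μ)
    (hx : t4eExp i w n₂ = x)
    (h : ∀ (f : ↥(TaF L N'')), TaGauss O π (f : LaurentSeries L) →
      ∃ hG : TaGauss R.O' R.π' (R.Em.ι ((t4eDeg L N'' q i n₁ f - t4eDeg L N'' q i n₂ f) ^ μ /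
        ((q : ℕ) : ↥(TaF L (t4eLev N'' q i))))),
        taRho R.O' R.π' ⟨_, hG⟩ =
          -(qExpand k (q ^ x) (t4vTheta (taRhoFun O π (f : LaurentSeries L)))) ^ μ) :
    R.RhoUnit hπ := by
  subst hc₁ hc₂ hμ hx
  intro f hf
  obtain ⟨hG, e⟩ := h f hf
  exact ⟨hG, e⟩

end RhoUnit

section Cusp

variable {L : Type} [Field L] [Algebra ℚ L] {O : ValuationSubring L} {k : Type*} [Field k]
  {π : ↥O →+* k} [IsDiscreteValuationRing ↥O] (hπ : Function.Surjective π)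
  {N'' q : ℕ} [NeZero N''] [hq : Fact q.Prime] [CharP k q]
  {L' : Type} [Field L'] [Algebra L L'] {O' : ValuationSubring L'}
  [IsDiscreteValuationRing ↥O'] {π' : ↥O' →+* k} {a b : ℕ}

/-- (UNIT-ρ) for the cusp record of the component `(a, b)`, `1 ≤ b ≤ a` -/
theorem t4eRecCusp_rhoUnit (Cy : T4eCyc O O' π π' q b) (hb1 : 1 ≤ b) (hba : b ≤ a)
    (M : T4eCusp L L' N'' q a b Cy.ζ) : (t4eRecCusp hπ Cy hb1 hba M).RhoUnit hπ := by
  refine T4eRec.rhoUnit_of hπ _ (c := b) (μ := Nat.totient (q ^ b)) (x := a - b) (n₁ := a + b)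
    (n₂ := a - b) (by omega) (by omega) ?_ (t4eExp_low hba (Nat.sub_le a b)) ?_
  · unfold t4eMult
    rw [Nat.add_sub_cancel_left, Nat.min_eq_right hba]
  · intro f hf
    exact t4eru_pi_f_pow O π hπ O' π' Cy M hb1 hf

/-- (UNIT-ρ) for the flip of the cusp record: the component `(b, a)` -/
theorem t4eRecCusp_flip_rhoUnit (Cy : T4eCyc O O' π π' q b) (hb1 : 1 ≤ b) (hba : b ≤ a)
    (M : T4eCusp L L' N'' q a b Cy.ζ) (W : T4eAL L N'' q (a + b)) :
    ((t4eRecCusp hπ Cy hb1 hba M).flip (Nat.le_add_right a b) W).RhoUnit hπ := by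
  refine T4eRec.rhoUnit_of hπ _ (c := b) (μ := Nat.totient (q ^ b)) (x := a - b) (n₁ := 2 * b)
    (n₂ := 0) (by omega) (by omega) ?_ ?_ ?_
  · unfold t4eMult
    have h1 : a + b - a = b := by omega
    have h2 : a + b - b = a := by omega
    rw [h1, h2, Nat.min_eq_left hba]
  · unfold t4eExp
    (split_ifs; all_goals omega)
  · intro f hf
    exact t4eru_pi_f_pow_flip O π hπ O' π' Cy M W hb1 hba hf

end Cusp

section Layer

variable {L : Type} [Field L] [Algebra ℚ L] {O : ValuationSubring L} {k : Type*} [Field k]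
  {π : ↥O →+* k} [IsDiscreteValuationRing ↥O] (hπ : Function.Surjective π) [IsAlgClosed k]
  {N'' q : ℕ} [NeZero N''] [hq : Fact q.Prime] [CharP k q]
  (hqO : Irreducible ((q : ℕ) : ↥O)) (hN : (N'' : k) ≠ 0) (hN'' : ¬ q ∣ N'')
  (A : ∀ i : ℕ, T4eAL L N'' q i)
  (Rc : ∀ a b : ℕ, 1 ≤ b → b ≤ a → T4eRec O π N'' q (a + b) a)

theorem t4eLayerOf_rhoUnit_iff (i : ℕ) (hi : 1 ≤ i) (w : ℕ) :
    (t4eLayerOf hπ hqO hN hN'' A Rc i hi).RhoUnit w ↔ (t4eRecOf hqO A Rc i w).RhoUnit hπ :=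
  Iff.rfl

/-- **(UNIT-ρ) for the layers of the tower**: from (UNIT-ρ) for the cusp records and their flips -/
theorem t4eLayerOf_rhoUnit
    (h1 : ∀ (a b : ℕ) (hb1 : 1 ≤ b) (hba : b ≤ a), (Rc a b hb1 hba).RhoUnit hπ)
    (h2 : ∀ (a b : ℕ) (hb1 : 1 ≤ b) (hba : b ≤ a),
      ((Rc a b hb1 hba).flip (Nat.le_add_right a b) (A (a + b))).RhoUnit hπ)
    (i : ℕ) (hi : 1 ≤ i) (w : ℕ) (hw : w ≤ i) (hc : 1 ≤ min w (i - w)) :
    (t4eLayerOf hπ hqO hN hN'' A Rc i hi).RhoUnit w := by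
  rw [t4eLayerOf_rhoUnit_iff]
  have hw1 : ¬ i ≤ w := by omega
  by_cases hw2 : i - w ≤ w
  · rw [t4eRecOf_cusp hqO A Rc hw1 hw2]
    exact T4eRec.cast_ind (motive := fun i w R => R.RhoUnit hπ) _ _ _ (h1 w (i - w) (by omega) hw2)
  · have hw3 : w ≠ 0 := by omega
    rw [t4eRecOf_flip hqO A Rc hw1 hw2 hw3]
    refine T4eRec.cast_ind (motive := fun i w R => R.RhoUnit hπ) _ _ _ ?_
    have key := T4eRec.cast_ind
      (motive := fun i w R => ∀ hw : w ≤ i, (R.flip hw (A i)).RhoUnit hπ)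
      (by omega : i - w + w = i) rfl (Rc (i - w) w (by omega) (by omega))
      (fun hw' => h2 (i - w) w (by omega) (by omega))
    exact key _

end Layer

end Fermat.Agent.T4
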